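import Mathlib
import Fermat.Prelude.Def_ModularCurve_X0ModL

/-!
# Program Q (S36), leaf VAL², part (V-D) : the derivation `θ = 𝐪 d/d𝐪` on Laurent series and the
Dedekind criterion for the modular equation

* `sqvtTheta R : Derivation R (LaurentSeries R) (LaurentSeries R)`, coefficientwise `n · a_n`;
* `sqvtTheta_qExpand` : `θ (f(𝐪^N)) = N · (θ f)(𝐪^N)`; `sqvtTheta_coeffMap`;
* `sqvt_theta_eval₂` : the chain rule for a polynomial in two variables;
* `sqvt_theta_jq_isUnit` : `θ j` is a unit of `R((𝐪))`.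
-/

set_option autoImplicit false
set_option linter.unusedSectionVars false
set_option linter.unusedVariables false
set_option linter.style.haveILetI false

noncomputable section

namespace Fermat.Agent.SQ

open Polynomial ModularCurve

section Theta

variable (R : Type*) [CommRing R]

/-- `θ = 𝐪 d/d𝐪` on `R((𝐪))`, as a function -/
def sqvtThetaFun (f : LaurentSeries R) : LaurentSeries R where
  coeff n := (n : R) * f.coeff n
  isPWO_support' := f.isPWO_support.mono fun n hn => by
    simp only [Function.mem_support, ne_eq] at hn ⊢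
    intro h
    exact hn (by rw [h, mul_zero])

@[simp]
theorem sqvtThetaFun_coeff (f : LaurentSeries R) (n : ℤ) :
    (sqvtThetaFun R f).coeff n = (n : R) * f.coeff n := rfl

theorem sqvtThetaFun_support (f : LaurentSeries R) : (sqvtThetaFun R f).support ⊆ f.support :=
  fun n hn => by
    simp only [HahnSeries.mem_support, sqvtThetaFun_coeff, ne_eq] at hn ⊢
    intro h
    exact hn (by rw [h, mul_zero])

theorem sqvtThetaFun_mul (f g : LaurentSeries R) :
    sqvtThetaFun R (f * g) = sqvtThetaFun R f * g + f * sqvtThetaFun R g := by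
  ext n
  rw [HahnSeries.coeff_add, sqvtThetaFun_coeff, HahnSeries.coeff_mul,
    HahnSeries.coeff_mul_left' f.isPWO_support (sqvtThetaFun_support R f),
    HahnSeries.coeff_mul_right' g.isPWO_support (sqvtThetaFun_support R g), Finset.mul_sum,
    ← Finset.sum_add_distrib]
  refine Finset.sum_congr rfl fun ij hij => ?_
  have h := (Finset.mem_antidiagonal.mp hij).2.2
  rw [sqvtThetaFun_coeff, sqvtThetaFun_coeff, ← h]
  push_cast
  ring

/-- constants in `R((𝐪))` -/
theorem sqvt_algebraMap (c : R) :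
    algebraMap R (LaurentSeries R) c = HahnSeries.single 0 c := by
  have h1 : algebraMap R (PowerSeries R) c = PowerSeries.C c := by simp
  rw [HahnSeries.algebraMap_apply', h1, HahnSeries.ofPowerSeries_C]
  rfl

theorem sqvtThetaFun_algebraMap (c : R) :
    sqvtThetaFun R (algebraMap R (LaurentSeries R) c) = 0 := by
  ext n
  rw [sqvtThetaFun_coeff, HahnSeries.coeff_zero, sqvt_algebraMap, HahnSeries.coeff_single]
  split_ifs with h
  · rw [h, Int.cast_zero, zero_mul]
  · rw [mul_zero]

/-- **`θ = 𝐪 d/d𝐪`** as an additive endomorphism of `R((𝐪))` (a derivation : `sqvtTheta_mul`,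
`sqvtTheta_algebraMap`) -/
def sqvtTheta : LaurentSeries R →+ LaurentSeries R where
  toFun := sqvtThetaFun R
  map_zero' := by
    ext n
    rw [sqvtThetaFun_coeff, HahnSeries.coeff_zero, mul_zero]
  map_add' f g := by
    ext n
    simp only [sqvtThetaFun_coeff, HahnSeries.coeff_add, mul_add]

theorem sqvtTheta_algebraMap (c : R) : sqvtTheta R (algebraMap R (LaurentSeries R) c) = 0 :=
  sqvtThetaFun_algebraMap R c

@[simp]
theorem sqvtTheta_coeff (f : LaurentSeries R) (n : ℤ) :
    (sqvtTheta R f).coeff n = (n : R) * f.coeff n := rfl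

theorem sqvtTheta_mul (f g : LaurentSeries R) :
    sqvtTheta R (f * g) = sqvtTheta R f * g + f * sqvtTheta R g :=
  sqvtThetaFun_mul R f g

/-- `θ (f(𝐪^N)) = N · (θ f)(𝐪^N)` -/
theorem sqvtTheta_qExpand (N : ℕ) [NeZero N] (f : LaurentSeries R) :
    sqvtTheta R (qExpand R N f) = (N : LaurentSeries R) * qExpand R N (sqvtTheta R f) := by
  have hN : (N : LaurentSeries R) = HahnSeries.C (N : R) := by
    rw [map_natCast]
  ext n
  rw [hN, HahnSeries.C_mul_eq_smul, HahnSeries.coeff_smul, smul_eq_mul, sqvtTheta_coeff]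
  by_cases hn : (N : ℤ) ∣ n
  · obtain ⟨k, rfl⟩ := hn
    rw [qExpand_coeff_mul, qExpand_coeff_mul, sqvtTheta_coeff]
    push_cast
    ring
  · rw [qExpand_coeff_of_not_dvd N _ hn, qExpand_coeff_of_not_dvd N _ hn, mul_zero, mul_zero]

variable {R} in
/-- `θ` commutes with coefficient maps -/
theorem sqvtTheta_coeffMap {S : Type*} [CommRing S] (φ : R →+* S) (f : LaurentSeries R) :
    sqvtTheta S (coeffMap φ f) = coeffMap φ (sqvtTheta R f) := by
  ext n
  rw [sqvtTheta_coeff, coeffMap_coeff, coeffMap_coeff, sqvtTheta_coeff, map_mul, map_intCast]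

/-- in characteristic `q`, `θ^q = θ` (Fermat's little theorem on the exponents) -/
theorem sqvtTheta_iterate (q : ℕ) [Fact q.Prime] [CharP R q] (f : LaurentSeries R) :
    (sqvtTheta R)^[q] f = sqvtTheta R f := by
  have h1 : ∀ (m : ℕ) (g : LaurentSeries R) (n : ℤ),
      ((sqvtTheta R)^[m] g).coeff n = (n : R) ^ m * g.coeff n := by
    intro m
    induction m with
    | zero => intro g n; rw [Function.iterate_zero, id, pow_zero, one_mul]
    | succ m ih =>
      intro g n
      rw [Function.iterate_succ_apply', sqvtTheta_coeff, ih, pow_succ]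
      ring
  ext n
  rw [h1, sqvtTheta_coeff]
  congr 1
  have h2 : ZMod.castHom (dvd_refl q) R ((n : ℤ) : ZMod q) = (n : R) :=
    map_intCast (ZMod.castHom (dvd_refl q) R) n
  rw [← h2, ← map_pow, ZMod.pow_card]

end Theta

/-! ### Units of `R((𝐪))` and `θ j` -/

section Unit

variable (R : Type*) [CommRing R]

/-- a Laurent series whose lowest coefficient is a unit is a unit -/
theorem sqvt_isUnit_of_coeff {f : LaurentSeries R} (n : ℤ) (hu : IsUnit (f.coeff n))
    (hlt : ∀ m, m < n → f.coeff m = 0) : IsUnit f := by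
  rcases subsingleton_or_nontrivial R with hR | hR
  · exact isUnit_of_subsingleton f
  have hne : f ≠ 0 := by
    intro h
    rw [h, HahnSeries.coeff_zero] at hu
    exact not_isUnit_zero hu
  have hord : f.order = n := by
    apply le_antisymm
    · exact HahnSeries.order_le_of_coeff_ne_zero hu.ne_zero
    · by_contra h
      push Not at h
      exact hne (HahnSeries.coeff_order_eq_zero.mp (hlt _ h))
  refine HahnSeries.isUnit_of_isUnit_leadingCoeff_AddUnitOrder ?_ (AddGroup.isAddUnit _)
  rw [HahnSeries.leadingCoeff_eq, hord]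
  exact hu

theorem sqvtTheta_jq_coeff_neg_one : (sqvtTheta R (jqModC R)).coeff (-1 : ℤ) = -1 := by
  rw [sqvtTheta_coeff, coeff_jqModC_neg_one]
  simp

theorem sqvtTheta_jq_coeff_of_lt {m : ℤ} (hm : m < -1) : (sqvtTheta R (jqModC R)).coeff m = 0 := by
  rw [sqvtTheta_coeff, coeff_jqModC_of_lt R hm, mul_zero]

/-- **`θ j = -𝐪⁻¹ + …` is a unit of `R((𝐪))`** -/
theorem sqvtTheta_jq_isUnit : IsUnit (sqvtTheta R (jqModC R)) :=
  sqvt_isUnit_of_coeff R (-1) (by rw [sqvtTheta_jq_coeff_neg_one]; exact isUnit_one.neg)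
    fun m hm => sqvtTheta_jq_coeff_of_lt R hm

end Unit

/-! ### Polynomials in two variables : the partial derivative in the inner variable and the chain
rule -/

section Chain

variable {A : Type*} [CommRing A]

/-- `∂/∂X` on `A[X][Y]` (outer variable `Y`, inner variable `X`) : coefficientwise derivative -/
def sqvtDX : A[X][X] →+ A[X][X] where
  toFun Φ := Φ.sum fun i c => monomial i (derivative c)
  map_zero' := Polynomial.sum_zero_index _
  map_add' Φ Ψ := Polynomial.sum_add_index Φ Ψ _ (fun i => by simp)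
    (fun i c d => by rw [map_add, map_add])

theorem sqvtDX_monomial (n : ℕ) (c : A[X]) :
    sqvtDX (monomial n c) = monomial n (derivative c) := by
  show (monomial n c).sum (fun i c => monomial i (derivative c)) = _
  rw [Polynomial.sum_monomial_index]
  simp

theorem sqvtDX_C_mul_X_pow (n : ℕ) (c : A[X]) :
    sqvtDX (C c * X ^ n) = C (derivative c) * X ^ n := by
  rw [C_mul_X_pow_eq_monomial, sqvtDX_monomial, C_mul_X_pow_eq_monomial]

theorem sqvtDX_C (c : A[X]) : sqvtDX (C c) = C (derivative c) := by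
  have h := sqvtDX_C_mul_X_pow 0 c
  rwa [pow_zero, mul_one, mul_one] at h

theorem sqvtDX_X_pow (n : ℕ) : sqvtDX (X ^ n : A[X][X]) = 0 := by
  have h := sqvtDX_C_mul_X_pow n (1 : A[X])
  rwa [derivative_one, C_0, zero_mul, C_1, one_mul] at h

/-- `∂/∂X` commutes with coefficient ring maps -/
theorem sqvtDX_map {B : Type*} [CommRing B] (φ : A →+* B) (Φ : A[X][X]) :
    sqvtDX (Φ.map (mapRingHom φ)) = (sqvtDX Φ).map (mapRingHom φ) := by
  induction Φ using Polynomial.induction_on' with
  | add Φ Ψ hΦ hΨ => rw [Polynomial.map_add, map_add, map_add, Polynomial.map_add, hΦ, hΨ]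
  | monomial n c =>
    rw [map_monomial, sqvtDX_monomial, sqvtDX_monomial, map_monomial, coe_mapRingHom,
      derivative_map]

variable {S : Type*} [CommRing S] [Algebra A S]

/-- evaluation of `Φ ∈ A[X][Y]` at `X = f`, `Y = g` -/
def sqvtEv (f g : S) : A[X][X] →+* S :=
  eval₂RingHom (aeval (R := A) f).toRingHom g

theorem sqvtEv_apply (f g : S) (Φ : A[X][X]) :
    sqvtEv f g Φ = Φ.eval₂ (aeval (R := A) f).toRingHom g := rfl

theorem sqvtEv_monomial (f g : S) (n : ℕ) (c : A[X]) :
    sqvtEv f g (monomial n c) = aeval f c * g ^ n := by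
  rw [sqvtEv_apply, eval₂_monomial]
  rfl

theorem sqvtEv_C (f g : S) (c : A[X]) : sqvtEv f g (C c) = aeval f c := by
  rw [sqvtEv_apply, eval₂_C]
  rfl

theorem sqvtEv_X (f g : S) : sqvtEv f g (X : A[X][X]) = g := by
  rw [sqvtEv_apply, eval₂_X]

/-- an additive map satisfying the Leibniz rule, on powers -/
theorem sqvt_leibniz_pow (D : S →+ S) (hD : ∀ a b, D (a * b) = D a * b + a * D b) (x : S) (n : ℕ) :
    D (x ^ n) = (n : S) * x ^ (n - 1) * D x := by
  have h1 : D 1 = 0 := by
    have h := hD 1 1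
    rw [mul_one, one_mul, mul_one] at h
    exact left_eq_add.mp h
  induction n with
  | zero => rw [pow_zero, h1, Nat.cast_zero, zero_mul, zero_mul]
  | succ n ih =>
    rw [pow_succ, hD, ih, Nat.add_sub_cancel]
    rcases Nat.eq_zero_or_pos n with rfl | hn
    · simp
    · have h2 : x ^ n = x ^ (n - 1) * x := by rw [← pow_succ, Nat.sub_add_cancel hn]
      rw [h2]
      push_cast
      ring

/-- the chain rule in one variable -/
theorem sqvt_leibniz_aeval (D : S →+ S) (hD : ∀ a b, D (a * b) = D a * b + a * D b)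
    (hc : ∀ a : A, D (algebraMap A S a) = 0) (f : S) (c : A[X]) :
    D (aeval f c) = aeval f (derivative c) * D f := by
  induction c using Polynomial.induction_on' with
  | add c₁ c₂ h₁ h₂ => rw [map_add, map_add, derivative_add, map_add, h₁, h₂, add_mul]
  | monomial n a =>
    rw [aeval_monomial, hD, hc, zero_mul, zero_add, sqvt_leibniz_pow D hD, derivative_monomial,
      aeval_monomial, map_mul, map_natCast]
    ring

/-- **the chain rule** : `D (Φ(f, g)) = Φ_X(f, g) · D f + Φ_Y(f, g) · D g` -/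
theorem sqvt_chain (D : S →+ S) (hD : ∀ a b, D (a * b) = D a * b + a * D b)
    (hc : ∀ a : A, D (algebraMap A S a) = 0) (f g : S) (Φ : A[X][X]) :
    D (sqvtEv f g Φ) = sqvtEv f g (sqvtDX Φ) * D f + sqvtEv f g (derivative Φ) * D g := by
  induction Φ using Polynomial.induction_on' with
  | add Φ Ψ hΦ hΨ =>
    rw [map_add, map_add, derivative_add, map_add, map_add, map_add, hΦ, hΨ]
    ring
  | monomial n c =>
    rw [sqvtDX_monomial, derivative_monomial, sqvtEv_monomial, sqvtEv_monomial, sqvtEv_monomial,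
      hD, sqvt_leibniz_pow D hD, sqvt_leibniz_aeval D hD hc, map_mul, map_natCast]
    ring

end Chain

/-! ### Naturality of evaluation under coefficient maps -/

section Natural

variable {A B : Type*} [CommRing A] [CommRing B] (r : A →+* B)

theorem sqvt_coeffMap_algebraMap (a : A) :
    coeffMap r (algebraMap A (LaurentSeries A) a) = algebraMap B (LaurentSeries B) (r a) := by
  rw [sqvt_algebraMap, sqvt_algebraMap, coeffMap_single]

theorem sqvt_coeffMap_aeval (f : LaurentSeries A) (p : A[X]) :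
    coeffMap r (aeval f p) = aeval (coeffMap r f) (p.map r) := by
  induction p using Polynomial.induction_on' with
  | add p₁ p₂ h₁ h₂ => rw [map_add, map_add, Polynomial.map_add, map_add, h₁, h₂]
  | monomial n a =>
    rw [aeval_monomial, map_mul, map_pow, sqvt_coeffMap_algebraMap, map_monomial, aeval_monomial]

theorem sqvt_coeffMap_ev (f g : LaurentSeries A) (Φ : A[X][X]) :
    coeffMap r (sqvtEv f g Φ) =
      sqvtEv (coeffMap r f) (coeffMap r g) (Φ.map (mapRingHom r)) := by
  induction Φ using Polynomial.induction_on' with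
  | add Φ₁ Φ₂ h₁ h₂ => rw [map_add, map_add, Polynomial.map_add, map_add, h₁, h₂]
  | monomial n c =>
    rw [sqvtEv_monomial, map_mul, map_pow, sqvt_coeffMap_aeval, map_monomial, sqvtEv_monomial,
      coe_mapRingHom]

end Natural

/-! ### The Dedekind criterion for the modular equation -/

section Dedekind

/-- `∂/∂X` of Kronecker's polynomial `(Y - X^q)(Y^q - X)` in characteristic `q` is `X^q - Y` -/
theorem sqvtDX_kron (k : Type*) [CommRing k] (q : ℕ) [CharP k q] :
    sqvtDX ((X - C (X ^ q)) * (X ^ q - C X) : k[X][X]) = C (X ^ q) - X := by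
  have hq : (q : k) = 0 := CharP.cast_eq_zero k q
  have h1 : ((X - C (X ^ q)) * (X ^ q - C X) : k[X][X]) =
      X ^ (q + 1) - C X * X ^ 1 - C (X ^ q) * X ^ q + C (X ^ (q + 1)) := by
    rw [pow_succ (X : k[X]) q, C_mul]
    ring
  rw [h1, map_add, map_sub, map_sub, sqvtDX_X_pow, sqvtDX_C_mul_X_pow, sqvtDX_C_mul_X_pow, sqvtDX_C,
    derivative_X, derivative_X_pow, derivative_X_pow, Nat.cast_add, hq]
  simp
  ring

variable {A : Type*} [CommRing A] {k : Type*} [Field k] (r : A →+* k) (q : ℕ) [Fact q.Prime]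
  [CharP k q]

/-- `j(𝐪^q)^q - j ≠ 0` over a field -/
theorem sqvt_jq_pow_sub_ne_zero :
    haveI : NeZero q := ⟨(Fact.out : q.Prime).ne_zero⟩
    qExpand k q (jqModC k) ^ q - jqModC k ≠ 0 := by
  have hq : q.Prime := Fact.out
  haveI : NeZero q := ⟨hq.ne_zero⟩
  intro h
  have h1 := congrArg (fun s => HahnSeries.coeff s ((q : ℤ) * (-(q : ℤ)))) h
  simp only [HahnSeries.coeff_sub, HahnSeries.coeff_zero] at h1
  rw [← map_pow, qExpand_coeff_mul, coeff_jqModC_pow_self, coeff_jqModC_of_lt, sub_zero] at h1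
  · exact one_ne_zero h1
  · have h2 : (2 : ℤ) ≤ q := by exact_mod_cast hq.two_le
    nlinarith

/-- **the `θ`-relation of the modular equation** : if `Φ(j(𝐪^q), j) = 0` then
`Φ_X(j(𝐪^q), j) · q · (θ j)(𝐪^q) + Φ_Y(j(𝐪^q), j) · θ j = 0`, i.e.
`(θ j)(𝐪^q) / θ j = - Φ_Y(j_q, j) / (q Φ_X(j_q, j))` (`= (1/q) dj_q/dj`). -/
theorem sqvt_theta_rel {A : Type*} [CommRing A] (q : ℕ) [NeZero q] (Φ : A[X][X])
    (hroot : sqvtEv (qExpand A q (jqModC A)) (jqModC A) Φ = 0) :
    sqvtEv (qExpand A q (jqModC A)) (jqModC A) (sqvtDX Φ) *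
        ((q : LaurentSeries A) * qExpand A q (sqvtTheta A (jqModC A))) +
      sqvtEv (qExpand A q (jqModC A)) (jqModC A) (derivative Φ) * sqvtTheta A (jqModC A) = 0 := by
  have h1 := sqvt_chain (A := A) (sqvtTheta A) (sqvtTheta_mul A) (sqvtTheta_algebraMap A)
    (qExpand A q (jqModC A)) (jqModC A) Φ
  rw [hroot, map_zero, sqvtTheta_qExpand] at h1
  exact h1.symm

/-- **the Dedekind criterion for the modular equation** : if `Φ ≡ (Y - X^q)(Y^q - X)` modulo the
kernel of `r : A → k` (`char k = q`) and `Φ(j(𝐪^q), j) = 0` in `A((𝐪))`, then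
`Φ_Y(j(𝐪^q), j) = q · U` with `U ∈ A((𝐪))` of nonzero reduction. -/
theorem sqvt_dedekind (Φ : A[X][X])
    (hk : Φ.map (mapRingHom r) = (X - C (X ^ q)) * (X ^ q - C X))
    (hroot : haveI : NeZero q := ⟨(Fact.out : q.Prime).ne_zero⟩
      sqvtEv (qExpand A q (jqModC A)) (jqModC A) Φ = 0) :
    haveI : NeZero q := ⟨(Fact.out : q.Prime).ne_zero⟩
    ∃ U : LaurentSeries A,
      sqvtEv (qExpand A q (jqModC A)) (jqModC A) (derivative Φ) = (q : LaurentSeries A) * U ∧
        coeffMap r U ≠ 0 := by
  have hq : q.Prime := Fact.out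
  haveI : NeZero q := ⟨hq.ne_zero⟩
  set f := qExpand A q (jqModC A) with hf
  set g := jqModC A with hg
  obtain ⟨v, hv⟩ := sqvtTheta_jq_isUnit A
  -- the chain rule
  have h1' := sqvt_chain (A := A) (sqvtTheta A) (sqvtTheta_mul A) (sqvtTheta_algebraMap A) f g Φ
  rw [hroot, map_zero, hf, sqvtTheta_qExpand, ← hf] at h1'
  refine ⟨-(sqvtEv f g (sqvtDX Φ) * qExpand A q (sqvtTheta A g) * ((v⁻¹ : (LaurentSeries A)ˣ) :
    LaurentSeries A)), ?_, ?_⟩
  · have h2 : sqvtEv f g (derivative Φ) * (v : LaurentSeries A) =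
        -(sqvtEv f g (sqvtDX Φ) * ((q : LaurentSeries A) * qExpand A q (sqvtTheta A g))) := by
      rw [hv]
      exact eq_neg_of_add_eq_zero_right h1'.symm
    calc sqvtEv f g (derivative Φ)
        = sqvtEv f g (derivative Φ) * (v : LaurentSeries A) * ((v⁻¹ : (LaurentSeries A)ˣ) :
            LaurentSeries A) := by rw [mul_assoc, Units.mul_inv, mul_one]
      _ = _ := by rw [h2]; ring
  · rw [map_neg, map_mul, map_mul, neg_ne_zero]
    refine mul_ne_zero (mul_ne_zero ?_ ?_) ?_
    · rw [sqvt_coeffMap_ev, ← sqvtDX_map, hk, sqvtDX_kron, map_sub, sqvtEv_C, sqvtEv_X, map_pow,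
        aeval_X, hf, hg, coeffMap_qExpand, coeffMap_jqModC]
      exact sqvt_jq_pow_sub_ne_zero q
    · rw [coeffMap_qExpand, ← sqvtTheta_coeffMap, hg, coeffMap_jqModC]
      intro h0
      have h3 := (qExpand_injective (R := k) q) (h0.trans (map_zero _).symm)
      exact (sqvtTheta_jq_isUnit k).ne_zero h3
    · exact ((v⁻¹).isUnit.map (coeffMap r)).ne_zero

end Dedekind

end Fermat.Agent.SQ
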