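import Mathlib
import Fermat.Agent.SS.Val.ModDeg
import Fermat.Agent.S24.CountPsi

/-!
# Program Q (S36), leaf VAL² (V-C), part 1 : the degree of the second step of the tower

`[F_K(M q q) : F_K(M q)] = q` for a prime `q ∤ M`, over every field `K` of characteristic `0`
(`ψ(M q²) = q ψ(M q)`).

Prefix `sqvm`.
-/

set_option autoImplicit false
set_option linter.unusedSectionVars false
set_option linter.unusedVariables false
set_option linter.style.haveILetI false
set_option synthInstance.maxHeartbeats 400000

noncomputable section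

namespace Fermat.Agent.SQ

open Polynomial ModularCurve AlgebraicCurve IntermediateField Fermat.Agent.S18 Fermat.Agent.S24
  Fermat.Agent.G Fermat.Agent.SS

/-- `ψ(M q²) = ψ(M q) q` for a prime `q ∤ M`. -/
theorem sqvm_dedekindPsi (M : ℕ) {q : ℕ} (hq : q.Prime) (hqM : ¬ q ∣ M) :
    dedekindPsi (M * q * q) = dedekindPsi (M * q) * q := by
  have hcop : M.Coprime q := ((Nat.Prime.coprime_iff_not_dvd hq).mpr hqM).symm
  have hcop2 : M.Coprime (q ^ 2) := Nat.Coprime.pow_right 2 hcop
  have h1 : M * q * q = M * q ^ 2 := by ring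
  rw [h1, dedekindPsi_mul hcop2, dedekindPsi_mul hcop, dedekindPsi_prime_pow hq (k := 2) two_pos]
  have h2 := dedekindPsi_prime_pow hq (k := 1) one_pos
  simp only [pow_one, Nat.sub_self, pow_zero] at h2
  rw [h2]
  simp only [Nat.add_one_sub_one, pow_one]
  ring

/-- **(DEG²)** `[F_K(M q q) : F_K(M q)] = q` for a prime `q ∤ M`, over every field of
characteristic `0`. -/
theorem sqvm_finrank (K : Type*) [Field K] [CharZero K] (M : ℕ) [NeZero M] {q : ℕ}
    [Fact q.Prime] (hqM : ¬ q ∣ M) :
    haveI : NeZero q := ⟨(Fact.out : q.Prime).ne_zero⟩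
    letI := algebraAlong (ssvmdIncl K (M * q) q)
    Module.finrank (modularFunctionFieldFullC K (M * q)) (modularFunctionFieldFullC K (M * q * q)) =
      q := by
  haveI : NeZero q := ⟨(Fact.out : q.Prime).ne_zero⟩
  have hq : q.Prime := Fact.out
  have htower := gcjd_finrank_tower (ssvmdIncl K (M * q) q) (ssvmdJ K (M * q))
    (ssvmdJ K (M * q * q)) (Subtype.ext (ssvmdIncl_coe K (M * q) q _))
  rw [ssvmd_finrank_psi K (M * q), ssvmd_finrank_psi K (M * q * q),
    sqvm_dedekindPsi M hq hqM] at htower
  have hpos : 0 < dedekindPsi (M * q) := by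
    rw [← ssvmd_finrank_psi K (M * q)]
    haveI := (ssvmd_finrank_j K (M * q)).1
    exact Module.finrank_pos
  exact Nat.eq_of_mul_eq_mul_left hpos htower

end Fermat.Agent.SQ
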