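import Mathlib
import Fermat.Agent.SS.Val.ModCoeff
import Fermat.Agent.SQ.Val.ModTwoDeg

/-!
# Program Q (S36), leaf VAL² (V-C), part 2 : the modular equation at the second step of the tower

`Φ ∈ A₀[X][Y]` the modular polynomial of `ssvmc_modular` (`Φ(j, j(𝐪^q)) = 0`).

* `sqvm_fac_bar` : over `ℚ̄((𝐪))`, `Φ(j(𝐪^q), Y) = (Y - j(𝐪^{q²})) ∏_{b < q} (Y - j(ζ^b 𝐪))`;
* `sqvm_root_qq`, `sqvm_root_j` : `Φ(j(𝐪^q), j(𝐪^{q²})) = 0` and `Φ(j(𝐪^q), j) = 0` in `A₀((𝐪))`;
* `sqvm_kron_lift` : Kronecker's congruence as an identity `Φ = (Y - X^q)(Y^q - X) + ϖ Φ'`;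
* `sqvm_step₁`, `sqvm_step₂` : (abstract, over a discrete valuation ring `W` with residue
  characteristic `q`) if `Ψ = (Y - x^q)(Y^q - x) + ϖ H` has the root `j` then
  `Ψ /ₘ (Y - j) = (Y - x^q)(Y - j)^(q-1) + ϖ G` when `x ≡ j^q`, and
  `Ψ /ₘ (Y - j) = (Y^q - x) + ϖ G` when `x^q ≡ j`; `sqvm_eval_div` : the value of `Ψ /ₘ (Y - j)` at
  `j` is `Ψ'(j)`.

Prefix `sqvm`.
-/

set_option autoImplicit false
set_option linter.unusedSectionVars false
set_option linter.unusedVariables false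
set_option linter.style.haveILetI false
set_option synthInstance.maxHeartbeats 400000

noncomputable section

namespace Fermat.Agent.SQ

open Polynomial ModularCurve AlgebraicCurve IsLocalRing IntermediateField Fermat.Agent.S24
  Fermat.Agent.G Fermat.Agent.S18 Fermat.Agent.SS

local notation "Qb" => AlgebraicClosure ℚ

/-! ### evaluation at `j(𝐪^q)` -/

section Ev

variable (K : Type*) [CommRing K] (q : ℕ) [NeZero q]

/-- `p ↦ p(j(𝐪^q))`, `K[X] → K((𝐪))` -/
def sqvmEvq : K[X] →+* LaurentSeries K := (qExpand K q).comp (ssvmcEv K)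

theorem sqvmEvq_apply (p : K[X]) : sqvmEvq K q p = qExpand K q (aeval (jqModC K) p) := rfl

theorem sqvmEvq_X : sqvmEvq K q X = qExpand K q (jqModC K) := by
  rw [sqvmEvq_apply, aeval_X]

theorem sqvmEvq_C (c : K) : sqvmEvq K q (C c) = algebraMap K (LaurentSeries K) c := by
  rw [sqvmEvq_apply, aeval_C, ssvmc_algebraMap, qExpand_single, mul_zero]

/-- `sqvmEvq` is `aeval` at `j(𝐪^q)` -/
theorem sqvmEvq_eq_aeval :
    sqvmEvq K q = (aeval (R := K) (qExpand K q (jqModC K))).toRingHom := by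
  apply Polynomial.ringHom_ext
  · intro c
    rw [sqvmEvq_C]
    simp
  · rw [sqvmEvq_X]
    simp

/-- naturality in the coefficient ring -/
theorem sqvmEvq_comp {K' : Type*} [CommRing K'] (f : K →+* K') :
    (coeffMap f).comp (sqvmEvq K q) = (sqvmEvq K' q).comp (mapRingHom f) := by
  refine RingHom.ext fun p => ?_
  show coeffMap f (qExpand K q (aeval (jqModC K) p)) =
    qExpand K' q (aeval (jqModC K') (p.map f))
  rw [ModularCurve.coeffMap_qExpand, ssvmc_coeffMap_aeval]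

end Ev

theorem sqvm_qExpand_congr (R : Type*) [CommRing R] {n m : ℕ} [NeZero n] [NeZero m] (h : n = m) :
    qExpand R n = qExpand R m := by
  subst h
  rfl

/-! ### the factorisation over `ℚ̄((𝐪))` -/

section Bar

variable {q : ℕ} [Fact q.Prime] (𝔸 : ValuationSubring Qb) (E : IntermediateField ℚ Qb)

/-- `Φ(j, Y)`, pushed to `ℚ̄((𝐪))[Y]`, is the minimal polynomial of `β j` at level `1`. -/
theorem sqvm_bar_minpoly (Φ : (↥(s18dVal 𝔸 E))[X][X])
    (hmin : haveI : NeZero q := ⟨(Fact.out : q.Prime).ne_zero⟩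
      letI := algebraAlong (ssvmdIncl E 1 q)
      (Φ.map (ssvmcEv ↥(s18dVal 𝔸 E))).map (s18vIncl ↥(s18dVal 𝔸 E) E) =
        (minpoly (modularFunctionFieldFullC E 1) (ssvmmY E 1 q)).map
          (modularFunctionFieldFullC E 1).val.toRingHom) :
    haveI : NeZero q := ⟨(Fact.out : q.Prime).ne_zero⟩
    letI := algebraAlong (heckeAlphaBar Qb 1 q)
    (Φ.map (ssvmcEv ↥(s18dVal 𝔸 E))).map (coeffMap (ssvmcF 𝔸 E)) =
      (minpoly (modularFunctionFieldBar 1) (heckeBetaBar Qb 1 q (ssvmbJ 1))).map (gcjsVal 1) := by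
  have hq : q.Prime := Fact.out
  haveI : NeZero q := ⟨hq.ne_zero⟩
  have hq1 : ¬ q ∣ 1 := fun h => hq.one_lt.ne' (Nat.dvd_one.mp h)
  letI algE := algebraAlong (ssvmdIncl E 1 q)
  obtain ⟨hup, -⟩ := ssvmm_minpoly_up E 1 hq1
  have h1 : coeffMap (ssvmcF 𝔸 E) = (s18dUp E).comp (s18vIncl ↥(s18dVal 𝔸 E) E) :=
    RingHom.ext fun v => ssvmc_coeffMap_F 𝔸 E v
  rw [h1, ← Polynomial.map_map, hmin, ← hup, Polynomial.map_map, Polynomial.map_map]
  rfl

/-- **the factorisation of `Φ(j(𝐪^q), Y)` over `ℚ̄((𝐪))`** -/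
theorem sqvm_fac_bar (Φ : (↥(s18dVal 𝔸 E))[X][X])
    (hmin : haveI : NeZero q := ⟨(Fact.out : q.Prime).ne_zero⟩
      letI := algebraAlong (ssvmdIncl E 1 q)
      (Φ.map (ssvmcEv ↥(s18dVal 𝔸 E))).map (s18vIncl ↥(s18dVal 𝔸 E) E) =
        (minpoly (modularFunctionFieldFullC E 1) (ssvmmY E 1 q)).map
          (modularFunctionFieldFullC E 1).val.toRingHom) :
    haveI : NeZero q := ⟨(Fact.out : q.Prime).ne_zero⟩
    ∃ ζ₀ : Qbˣ, IsPrimitiveRoot ζ₀ q ∧
      (Φ.map (sqvmEvq ↥(s18dVal 𝔸 E) q)).map (coeffMap (ssvmcF 𝔸 E)) =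
        (X - C (qExpand Qb (q * q) (jqModC Qb))) *
          ∏ b ∈ Finset.range q, (X - C (gcjfRot (ζ₀ ^ b) (jqModC Qb))) := by
  have hq : q.Prime := Fact.out
  haveI : NeZero q := ⟨hq.ne_zero⟩
  have hq1 : ¬ q ∣ 1 := fun h => hq.one_lt.ne' (Nat.dvd_one.mp h)
  obtain ⟨ζ₀, hprim, -, hfac⟩ := ssvmb_minpoly 1 hq1
  refine ⟨ζ₀, hprim, ?_⟩
  have hbar := sqvm_bar_minpoly 𝔸 E Φ hmin
  have h1 : (Φ.map (sqvmEvq ↥(s18dVal 𝔸 E) q)).map (coeffMap (ssvmcF 𝔸 E)) =
      ((Φ.map (ssvmcEv ↥(s18dVal 𝔸 E))).map (coeffMap (ssvmcF 𝔸 E))).map (qExpand Qb q) := by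
    rw [Polynomial.map_map, Polynomial.map_map, Polynomial.map_map]
    congr 1
    refine RingHom.ext fun p => ?_
    show coeffMap (ssvmcF 𝔸 E) (qExpand _ q (aeval (jqModC _) p)) =
      qExpand Qb q (coeffMap (ssvmcF 𝔸 E) (aeval (jqModC _) p))
    rw [ModularCurve.coeffMap_qExpand]
  rw [h1, hbar, Polynomial.map_map]
  have e1 : qExpand Qb q = qExpand Qb (1 * q) := sqvm_qExpand_congr Qb (one_mul q).symm
  have e2 : qExpand Qb (q * q) = qExpand Qb (1 * q * q) :=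
    sqvm_qExpand_congr Qb (by rw [one_mul])
  rw [e1, hfac, e2]
  congr 1
  refine Finset.prod_congr rfl fun b _ => ?_
  rw [qExpand_one_apply]

/-- **`Φ(j(𝐪^q), j(𝐪^{q²})) = 0`** in `A₀((𝐪))` -/
theorem sqvm_root_qq {A : Type*} [CommRing A] (Φ : A[X][X])
    (hroot : haveI : NeZero q := ⟨(Fact.out : q.Prime).ne_zero⟩
      (Φ.map (ssvmcEv A)).eval (qExpand A q (jqModC A)) = 0) :
    haveI : NeZero q := ⟨(Fact.out : q.Prime).ne_zero⟩
    (Φ.map (sqvmEvq A q)).eval (qExpand A (q * q) (jqModC A)) = 0 := by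
  haveI : NeZero q := ⟨(Fact.out : q.Prime).ne_zero⟩
  have h1 := congrArg (qExpand A q) hroot
  rw [map_zero, Polynomial.eval_map, Polynomial.hom_eval₂, qExpand_qExpand] at h1
  rw [Polynomial.eval_map]
  exact h1

/-- **`Φ(j(𝐪^q), j) = 0`** in `A₀((𝐪))` -/
theorem sqvm_root_j (Φ : (↥(s18dVal 𝔸 E))[X][X])
    (hmin : haveI : NeZero q := ⟨(Fact.out : q.Prime).ne_zero⟩
      letI := algebraAlong (ssvmdIncl E 1 q)
      (Φ.map (ssvmcEv ↥(s18dVal 𝔸 E))).map (s18vIncl ↥(s18dVal 𝔸 E) E) =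
        (minpoly (modularFunctionFieldFullC E 1) (ssvmmY E 1 q)).map
          (modularFunctionFieldFullC E 1).val.toRingHom) :
    haveI : NeZero q := ⟨(Fact.out : q.Prime).ne_zero⟩
    (Φ.map (sqvmEvq ↥(s18dVal 𝔸 E) q)).eval (jqModC ↥(s18dVal 𝔸 E)) = 0 := by
  have hq : q.Prime := Fact.out
  haveI : NeZero q := ⟨hq.ne_zero⟩
  obtain ⟨ζ₀, -, hfac⟩ := sqvm_fac_bar 𝔸 E Φ hmin
  apply deg_coeffMap_injective _ (ssvmcF_injective 𝔸 E)
  rw [map_zero, ← Polynomial.eval_map_apply, hfac, coeffMap_jqModC, eval_mul,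
    eval_prod, Finset.prod_eq_zero (Finset.mem_range.mpr hq.pos), mul_zero]
  rw [pow_zero, gcjfRot_one, eval_sub, eval_X, eval_C, sub_self]

end Bar

/-! ### Kronecker's congruence as an identity -/

section Kron

variable {A : Type*} [CommRing A] [IsDomain A] [IsDiscreteValuationRing A]

/-- a two-variable polynomial with zero reduction is divisible by `ϖ` -/
theorem sqvm_exists_of_map_eq_zero {ϖ : A} (hϖ : Irreducible ϖ) {p : A[X][X]}
    (hp : p.map (mapRingHom (residue A)) = 0) : ∃ p' : A[X][X], p = C (C ϖ) * p' := by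
  have h1 : C (C ϖ) ∣ p := by
    rw [C_dvd_iff_dvd_coeff]
    intro i
    rw [C_dvd_iff_dvd_coeff]
    intro n
    have h2 : residue A ((p.coeff i).coeff n) = 0 := by
      have h3 := congrArg (fun f : (ResidueField A)[X][X] => (f.coeff i).coeff n) hp
      simpa [coeff_map] using h3
    rw [residue_eq_zero_iff, hϖ.maximalIdeal_eq, Ideal.mem_span_singleton] at h2
    exact h2
  exact h1

/-- **Kronecker's congruence as an identity** -/
theorem sqvm_kron_lift {ϖ : A} (hϖ : Irreducible ϖ) (q : ℕ) (Φ : A[X][X])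
    (hk : Φ.map (mapRingHom (residue A)) = (X - C (X ^ q)) * (X ^ q - C X)) :
    ∃ Φ' : A[X][X], Φ = (X - C (X ^ q)) * (X ^ q - C X) + C (C ϖ) * Φ' := by
  have h1 : (Φ - (X - C (X ^ q)) * (X ^ q - C X)).map (mapRingHom (residue A)) = 0 := by
    rw [Polynomial.map_sub, hk]
    simp
  obtain ⟨p', hp'⟩ := sqvm_exists_of_map_eq_zero hϖ h1
  exact ⟨p', by rw [← hp']; ring⟩

/-- the specialisation `X ↦ x` of Kronecker's identity -/
theorem sqvm_kron_map {A₁ : Type*} [CommRing A₁] {W : Type*} [CommRing W] (f : A₁[X] →+* W)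
    {ϖ : A₁} (q : ℕ) (Φ Φ' : A₁[X][X])
    (h : Φ = (X - C (X ^ q)) * (X ^ q - C X) + C (C ϖ) * Φ') :
    Φ.map f = (X - C (f X ^ q)) * (X ^ q - C (f X)) + C (f (C ϖ)) * Φ'.map f := by
  rw [h]
  simp only [Polynomial.map_add, Polynomial.map_mul, Polynomial.map_sub, Polynomial.map_pow,
    map_X, map_C, map_pow]

end Kron

/-! ### The abstract step : division by `Y - j` and reduction -/

section Step

variable {W : Type*} [CommRing W] [IsDomain W] [IsDiscreteValuationRing W]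

/-- a polynomial with zero reduction is divisible by `ϖ` -/
theorem sqvm_exists_of_map_eq {ϖ : W} (hϖ : Irreducible ϖ) {g g' : W[X]}
    (h : g.map (residue W) = g'.map (residue W)) : ∃ G : W[X], g = g' + C ϖ * G := by
  have h1 : (g - g').map (residue W) = 0 := by rw [Polynomial.map_sub, h, sub_self]
  obtain ⟨G, hG⟩ := ssv_exists_of_map_eq_zero hϖ h1
  exact ⟨G, by rw [← hG]; ring⟩

theorem sqvm_res_unif {ϖ : W} (hϖ : Irreducible ϖ) : residue W ϖ = 0 := by
  rw [residue_eq_zero_iff, hϖ.maximalIdeal_eq]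
  exact Ideal.mem_span_singleton_self ϖ

/-- `Ψ = (Y - j) · (Ψ /ₘ (Y - j))` when `Ψ(j) = 0` -/
theorem sqvm_mul_div {Ψ : W[X]} {j : W} (hroot : Ψ.IsRoot j) :
    (X - C j) * (Ψ /ₘ (X - C j)) = Ψ :=
  mul_divByMonic_eq_iff_isRoot.mpr hroot

/-- the value of `Ψ /ₘ (Y - j)` at `j` is `Ψ'(j)` -/
theorem sqvm_eval_div {Ψ : W[X]} {j : W} (hroot : Ψ.IsRoot j) :
    (Ψ /ₘ (X - C j)).eval j = (derivative Ψ).eval j := by
  conv_rhs => rw [← sqvm_mul_div hroot]
  rw [derivative_mul, eval_add, eval_mul, eval_mul, derivative_sub, derivative_X, derivative_C,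
    sub_zero, eval_one, one_mul, eval_sub, eval_X, eval_C, sub_self, zero_mul, add_zero]

variable {q : ℕ} [Fact q.Prime]

/-- **the step over `W₁`** (`x ≡ j^q`) -/
theorem sqvm_step₁ {ϖ : W} (hϖ : Irreducible ϖ) (hq : (q : W) ∈ maximalIdeal W)
    (Ψ H : W[X]) (j x : W)
    (hkron : Ψ = (X - C (x ^ q)) * (X ^ q - C x) + C ϖ * H) (hroot : Ψ.IsRoot j)
    (hcong : x - j ^ q ∈ maximalIdeal W) :
    ∃ G : W[X], Ψ /ₘ (X - C j) = (X - C (x ^ q)) * (X - C j) ^ (q - 1) + C ϖ * G := by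
  have hqp : q.Prime := Fact.out
  haveI : CharP (ResidueField W) q := by
    rw [CharP.charP_iff_prime_eq_zero hqp]
    have : residue W (q : W) = 0 := (residue_eq_zero_iff _).mpr hq
    simpa using this
  apply sqvm_exists_of_map_eq hϖ
  have hx : residue W x = residue W j ^ q := by
    rw [← map_pow, ← sub_eq_zero, ← map_sub, residue_eq_zero_iff]
    exact hcong
  have hΨ : Ψ.map (residue W) = (X - C (residue W j)) *
      ((X - C (residue W x ^ q)) * (X - C (residue W j)) ^ (q - 1)) := by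
    rw [hkron]
    simp only [Polynomial.map_add, Polynomial.map_mul, Polynomial.map_sub, Polynomial.map_pow,
      map_X, map_C, map_pow, sqvm_res_unif hϖ, C_0, zero_mul, add_zero]
    have h1 : (X : (ResidueField W)[X]) ^ q - C (residue W x) = (X - C (residue W j)) ^ q := by
      rw [sub_pow_char, hx, C_pow]
    rw [h1]
    obtain ⟨m, hm⟩ : ∃ m, q = m + 1 := ⟨q - 1, by have := hqp.pos; omega⟩
    rw [hm, Nat.add_sub_cancel, pow_succ]
    ring
  rw [map_divByMonic _ (monic_X_sub_C j), hΨ, Polynomial.map_sub, map_X, map_C,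
    mul_divByMonic_cancel_left _ (monic_X_sub_C _)]
  simp only [Polynomial.map_mul, Polynomial.map_sub, Polynomial.map_pow, map_X, map_C, map_pow]

/-- **the step over `W₂`** (`x^q ≡ j`) -/
theorem sqvm_step₂ {ϖ : W} (hϖ : Irreducible ϖ) (hq : (q : W) ∈ maximalIdeal W)
    (Ψ H : W[X]) (j x : W)
    (hkron : Ψ = (X - C (x ^ q)) * (X ^ q - C x) + C ϖ * H) (hroot : Ψ.IsRoot j)
    (hcong : x ^ q - j ∈ maximalIdeal W) :
    ∃ G : W[X], Ψ /ₘ (X - C j) = (X ^ q - C x) + C ϖ * G := by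
  apply sqvm_exists_of_map_eq hϖ
  have hx : residue W x ^ q = residue W j := by
    rw [← map_pow, ← sub_eq_zero, ← map_sub, residue_eq_zero_iff]
    exact hcong
  have hΨ : Ψ.map (residue W) = (X - C (residue W j)) * (X ^ q - C (residue W x)) := by
    rw [hkron]
    simp only [Polynomial.map_add, Polynomial.map_mul, Polynomial.map_sub, Polynomial.map_pow,
      map_X, map_C, map_pow, sqvm_res_unif hϖ, C_0, zero_mul, add_zero]
    rw [← C_pow, hx]
  rw [map_divByMonic _ (monic_X_sub_C j), hΨ, Polynomial.map_sub, map_X, map_C,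
    mul_divByMonic_cancel_left _ (monic_X_sub_C _)]
  simp only [Polynomial.map_sub, Polynomial.map_pow, map_X, map_C]

end Step

end Fermat.Agent.SQ
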