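import Mathlib

/-!
# Program Q (S36), leaf VAL², part (V-A) : Dedekind–Kummer over a discrete valuation ring with
exponents (Dedekind's criterion)

`R` a discrete valuation ring with uniformiser `ϖ` and residue field `κ`; `S = R[y]` a domain,
`S = R[Y]/(Ξ)` with `Ξ` monic.

* LOCAL PART (`SqvkSide`) : `Ξ = F^e H + ϖ G` with `F̄` irreducible, prime to `H̄`, `e ≥ 1`, and
  DEDEKIND'S CRITERION `e = 1 ∨ (F̄, Ḡ) = 1`.  Then `𝔐 = (ϖ, F(y))` is a maximal ideal of `S`, the
  localisation `S_𝔐` is a discrete valuation ring, with uniformiser `ϖ` if `e = 1` and `F(y)` if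
  `(F̄, Ḡ) = 1`, in which case `ϖ = unit · F(y)^e`.
* GLOBAL PART (`SqvkFam`) : `Ξ = ∏ F_i^{e_i} + ϖ G` over a finite index type, the `F̄_i` irreducible
  and pairwise coprime, Dedekind's criterion at every `i`.  Then `S` is a Dedekind domain, its
  nonzero primes are the `𝔐_i`, `S` is the integral closure of `R` in `Frac S`, and every valuation
  ring of `Frac S` containing `R` in which `ϖ` is a non-unit is one of the `V_i`.

Generalises `SS/Val/Kummer2.lean` (two factors, `e = 1`).  Mathlib only.  Prefix `sqvk` / `Sqvk`.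
-/

set_option autoImplicit false
set_option linter.unusedSectionVars false
set_option linter.unusedVariables false
set_option linter.style.haveILetI false
set_option linter.overlappingInstances false

noncomputable section

namespace Fermat.Agent.SQ

open Polynomial IsLocalRing

section Ring

variable {R : Type*} [CommRing R] [IsDomain R] [IsDiscreteValuationRing R]
variable {S : Type*} [CommRing S] [IsDomain S] [Algebra R S]

/-- the ideal `(ϖ, F(y))` of `S` -/
def sqvkM (ϖ : R) (y : S) (F : R[X]) : Ideal S :=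
  Ideal.span {algebraMap R S ϖ, aeval y F}

theorem sqvk_unif_mem (ϖ : R) (y : S) (F : R[X]) : algebraMap R S ϖ ∈ sqvkM ϖ y F :=
  Ideal.subset_span (by simp)

theorem sqvk_aeval_mem (ϖ : R) (y : S) (F : R[X]) : aeval y F ∈ sqvkM ϖ y F :=
  Ideal.subset_span (by simp)

theorem sqvk_residue_unif {ϖ : R} (hϖ : Irreducible ϖ) : residue R ϖ = 0 := by
  rw [residue_eq_zero_iff, hϖ.maximalIdeal_eq]
  exact Ideal.mem_span_singleton_self ϖ

/-- a polynomial with zero reduction is divisible by `ϖ` -/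
theorem sqvk_exists_of_map_eq_zero {ϖ : R} (hϖ : Irreducible ϖ) {g : R[X]}
    (hg : g.map (residue R) = 0) : ∃ h : R[X], g = C ϖ * h := by
  have h1 : C ϖ ∣ g := by
    rw [C_dvd_iff_dvd_coeff]
    intro i
    have h2 : residue R (g.coeff i) = 0 := by
      rw [← coeff_map, hg, coeff_zero]
    rw [residue_eq_zero_iff, hϖ.maximalIdeal_eq, Ideal.mem_span_singleton] at h2
    exact h2
  exact h1

/-- lifting a congruence : if `ḡ = 0` then `g(y) = ϖ · k(y)` -/
theorem sqvk_aeval_of_map_eq_zero {ϖ : R} (hϖ : Irreducible ϖ) (y : S) {g : R[X]}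
    (hg : g.map (residue R) = 0) : ∃ k : R[X], aeval y g = algebraMap R S ϖ * aeval y k := by
  obtain ⟨h, rfl⟩ := sqvk_exists_of_map_eq_zero hϖ hg
  exact ⟨h, by rw [map_mul, aeval_C]⟩

/-- an element `g(y)` outside `(ϖ, F(y))` has reduction not divisible by `F̄` -/
theorem sqvk_not_dvd_of_notMem {ϖ : R} (hϖ : Irreducible ϖ) (y : S) (F : R[X]) {g : R[X]}
    (hg : aeval y g ∉ sqvkM ϖ y F) : ¬ F.map (residue R) ∣ g.map (residue R) := by
  rintro ⟨h, hh⟩
  obtain ⟨h', rfl⟩ := Polynomial.map_surjective (residue R) residue_surjective h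
  have h1 : (g - F * h').map (residue R) = 0 := by
    rw [Polynomial.map_sub, Polynomial.map_mul, hh, sub_self]
  obtain ⟨k, hk⟩ := sqvk_aeval_of_map_eq_zero hϖ y h1
  apply hg
  have h2 : aeval y g = aeval y h' * aeval y F + aeval y k * algebraMap R S ϖ := by
    rw [map_sub, map_mul] at hk
    linear_combination hk
  rw [h2]
  exact Ideal.add_mem _ (Ideal.mul_mem_left _ _ (sqvk_aeval_mem ϖ y F))
    (Ideal.mul_mem_left _ _ (sqvk_unif_mem ϖ y F))

/-- Bezout : if `ā F̄ + b̄ ḡ = 1` then `1 ∈ ((ϖ, F(y)), g(y))` -/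
theorem sqvk_one_mem_of_isCoprime {ϖ : R} (hϖ : Irreducible ϖ) (y : S) (F : R[X]) {g : R[X]}
    (hc : IsCoprime (F.map (residue R)) (g.map (residue R))) (J : Ideal S)
    (hJ : sqvkM ϖ y F ≤ J) (hg : aeval y g ∈ J) : (1 : S) ∈ J := by
  obtain ⟨a, b, hab⟩ := hc
  obtain ⟨a', rfl⟩ := Polynomial.map_surjective (residue R) residue_surjective a
  obtain ⟨b', rfl⟩ := Polynomial.map_surjective (residue R) residue_surjective b
  have h1 : (a' * F + b' * g - 1).map (residue R) = 0 := by
    rw [Polynomial.map_sub, Polynomial.map_add, Polynomial.map_mul, Polynomial.map_mul,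
      Polynomial.map_one, hab, sub_self]
  obtain ⟨k, hk⟩ := sqvk_aeval_of_map_eq_zero hϖ y h1
  have h2 : (1 : S) = aeval y a' * aeval y F + aeval y b' * aeval y g
      - aeval y k * algebraMap R S ϖ := by
    rw [map_sub, map_add, map_mul, map_mul, map_one] at hk
    linear_combination -hk
  rw [h2]
  exact Ideal.sub_mem _ (Ideal.add_mem _ (Ideal.mul_mem_left _ _ (hJ (sqvk_aeval_mem ϖ y F)))
    (Ideal.mul_mem_left _ _ hg)) (Ideal.mul_mem_left _ _ (hJ (sqvk_unif_mem ϖ y F)))

/-! ### The local package at one factor -/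

/-- The hypotheses of the Dedekind–Kummer package at ONE factor `F` of `Ξ̄`, of multiplicity `e`,
with cofactor `H` : `Ξ = F^e H + ϖ G`. -/
structure SqvkSide (ϖ : R) (y : S) (Ξ F H G : R[X]) (e : ℕ) : Prop where
  /-- `ϖ` is a uniformiser of `R` -/
  irr : Irreducible ϖ
  /-- `S = R[y]` -/
  surj : Function.Surjective (aeval (R := R) y)
  /-- `Ξ` is monic -/
  monic : Ξ.Monic
  /-- `Ξ(y) = 0` -/
  root : aeval y Ξ = 0
  /-- `Ξ` generates the kernel of `R[Y] → S` -/
  ker : ∀ g : R[X], aeval y g = 0 → Ξ ∣ g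
  /-- `Ξ ≡ F^e H mod ϖ` -/
  fac : Ξ = F ^ e * H + C ϖ * G
  /-- the multiplicity is positive -/
  epos : 0 < e
  /-- the reduction of `F` is irreducible -/
  irrF : Irreducible (F.map (residue R))
  /-- the reductions of `F` and of the cofactor `H` are coprime -/
  cop : IsCoprime (F.map (residue R)) (H.map (residue R))
  /-- DEDEKIND'S CRITERION -/
  ded : e = 1 ∨ IsCoprime (F.map (residue R)) (G.map (residue R))

variable {ϖ : R} {y : S} {Ξ F H G : R[X]} {e : ℕ}

/-- `Ξ̄ = F̄^e H̄` -/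
theorem SqvkSide.map_eq (d : SqvkSide ϖ y Ξ F H G e) :
    Ξ.map (residue R) = F.map (residue R) ^ e * H.map (residue R) := by
  rw [d.fac, Polynomial.map_add, Polynomial.map_mul, Polynomial.map_mul, Polynomial.map_pow, map_C,
    sqvk_residue_unif d.irr, C_0, zero_mul, add_zero]

theorem SqvkSide.dvd_map (d : SqvkSide ϖ y Ξ F H G e) : F.map (residue R) ∣ Ξ.map (residue R) := by
  rw [d.map_eq]
  exact Dvd.dvd.mul_right (dvd_pow_self _ d.epos.ne') _

/-- `F(y)^e H(y) = - ϖ G(y)` -/
theorem SqvkSide.prod_eq (d : SqvkSide ϖ y Ξ F H G e) :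
    aeval y F ^ e * aeval y H = - (algebraMap R S ϖ * aeval y G) := by
  have h := d.root
  rw [d.fac, map_add, map_mul, map_mul, map_pow, aeval_C] at h
  exact eq_neg_of_add_eq_zero_left h

/-- `1 ∉ 𝔐` -/
theorem SqvkSide.one_notMem (d : SqvkSide ϖ y Ξ F H G e) : (1 : S) ∉ sqvkM ϖ y F := by
  intro h
  rw [sqvkM, Ideal.mem_span_pair] at h
  obtain ⟨a, b, hab⟩ := h
  obtain ⟨a', rfl⟩ := d.surj a
  obtain ⟨b', rfl⟩ := d.surj b
  have h1 : aeval y (a' * C ϖ + b' * F - 1) = 0 := by
    rw [map_sub, map_add, map_mul, map_mul, aeval_C, map_one, hab, sub_self]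
  have h2 := d.ker _ h1
  have h3 : Ξ.map (residue R) ∣ (a' * C ϖ + b' * F - 1).map (residue R) :=
    Polynomial.map_dvd _ h2
  rw [Polynomial.map_sub, Polynomial.map_add, Polynomial.map_mul, Polynomial.map_mul,
    map_C, sqvk_residue_unif d.irr, C_0, mul_zero, zero_add, Polynomial.map_one] at h3
  have h4 : F.map (residue R) ∣ b'.map (residue R) * F.map (residue R) - 1 := d.dvd_map.trans h3
  have h5 : F.map (residue R) ∣ 1 := by
    have h6 := dvd_sub (Dvd.intro_left (b'.map (residue R)) rfl) h4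
    rwa [sub_sub_cancel] at h6
  exact d.irrF.not_isUnit (isUnit_of_dvd_one h5)

/-- `𝔐 = (ϖ, F(y))` is a maximal ideal of `S` -/
theorem SqvkSide.isMaximal (d : SqvkSide ϖ y Ξ F H G e) : (sqvkM ϖ y F).IsMaximal := by
  rw [Ideal.isMaximal_iff]
  refine ⟨d.one_notMem, fun J x hJ hx hxJ => ?_⟩
  obtain ⟨g, rfl⟩ := d.surj x
  have h1 := sqvk_not_dvd_of_notMem d.irr y F hx
  exact sqvk_one_mem_of_isCoprime d.irr y F (d.irrF.coprime_iff_not_dvd.mpr h1) J hJ hxJ

/-- an element whose reduction is prime to `F̄` lies outside `𝔐` -/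
theorem SqvkSide.notMem_of_isCoprime (d : SqvkSide ϖ y Ξ F H G e) {g : R[X]}
    (hc : IsCoprime (F.map (residue R)) (g.map (residue R))) : aeval y g ∉ sqvkM ϖ y F := fun h =>
  d.one_notMem (sqvk_one_mem_of_isCoprime d.irr y F hc _ le_rfl h)

/-- `H(y) ∉ 𝔐` -/
theorem SqvkSide.cofactor_notMem (d : SqvkSide ϖ y Ξ F H G e) : aeval y H ∉ sqvkM ϖ y F :=
  d.notMem_of_isCoprime d.cop

/-! ### Integrality, primes of `S` -/

/-- `y` is integral over `R` -/
theorem SqvkSide.isIntegral_y (d : SqvkSide ϖ y Ξ F H G e) : IsIntegral R y :=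
  ⟨Ξ, d.monic, by rw [← aeval_def]; exact d.root⟩

/-- `S` is integral over `R` -/
theorem SqvkSide.isIntegral (d : SqvkSide ϖ y Ξ F H G e) (x : S) : IsIntegral R x := by
  obtain ⟨g, rfl⟩ := d.surj x
  have h1 : aeval y g ∈ Algebra.adjoin R {y} := aeval_mem_adjoin_singleton R y
  have h2 : Algebra.adjoin R {y} ≤ integralClosure R S :=
    Algebra.adjoin_le (Set.singleton_subset_iff.mpr d.isIntegral_y)
  exact h2 h1

/-- `S` is Noetherian -/
theorem SqvkSide.isNoetherianRing (d : SqvkSide ϖ y Ξ F H G e) : IsNoetherianRing S :=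
  isNoetherianRing_of_surjective R[X] S (aeval (R := R) y).toRingHom d.surj

/-- `R → S` is injective -/
theorem SqvkSide.algebraMap_injective (d : SqvkSide ϖ y Ξ F H G e) :
    Function.Injective (algebraMap R S) := by
  rw [injective_iff_map_eq_zero]
  intro r hr
  have h1 : aeval y (C r) = 0 := by rw [aeval_C, hr]
  have h2 := d.ker _ h1
  by_contra hr0
  have h3 : Ξ.natDegree ≤ (C r).natDegree := natDegree_le_of_dvd h2 (by simpa using hr0)
  rw [natDegree_C, Nat.le_zero, d.monic.natDegree_eq_zero] at h3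
  have h4 := d.dvd_map
  rw [h3, Polynomial.map_one] at h4
  exact d.irrF.not_isUnit (isUnit_of_dvd_one h4)

/-- `ϖ ≠ 0` in `S` -/
theorem SqvkSide.unif_ne_zero (d : SqvkSide ϖ y Ξ F H G e) : algebraMap R S ϖ ≠ 0 := by
  intro h
  exact d.irr.ne_zero (d.algebraMap_injective (by rw [h, map_zero]))

/-- every nonzero prime of `S` contains `ϖ` -/
theorem SqvkSide.unif_mem_of_prime (d : SqvkSide ϖ y Ξ F H G e) (P : Ideal S) [hP : P.IsPrime]
    (hP0 : P ≠ ⊥) : algebraMap R S ϖ ∈ P := by
  obtain ⟨x, hxP, hx0⟩ := Submodule.exists_mem_ne_zero_of_ne_bot hP0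
  have h1 : P.comap (algebraMap R S) ≠ ⊥ :=
    Ideal.comap_ne_bot_of_integral_mem hx0 hxP (d.isIntegral x)
  have h2 : (P.comap (algebraMap R S)).IsMaximal :=
    Ideal.IsPrime.isMaximal (Ideal.comap_isPrime _ _) h1
  have h3 : P.comap (algebraMap R S) = maximalIdeal R := IsLocalRing.eq_maximalIdeal h2
  have h4 : ϖ ∈ P.comap (algebraMap R S) := by
    rw [h3, d.irr.maximalIdeal_eq]
    exact Ideal.mem_span_singleton_self ϖ
  exact h4

/-- a prime of `S` containing `ϖ` and `F(y)` is `𝔐` -/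
theorem SqvkSide.eq_of_mem (d : SqvkSide ϖ y Ξ F H G e) (P : Ideal S) [hP : P.IsPrime]
    (h1 : algebraMap R S ϖ ∈ P) (h2 : aeval y F ∈ P) : P = sqvkM ϖ y F := by
  have h3 : sqvkM ϖ y F ≤ P := by
    rw [sqvkM, Ideal.span_le]
    rintro x (rfl | rfl)
    · exact h1
    · exact h2
  exact (d.isMaximal.eq_of_le hP.ne_top h3).symm

/-- `𝔐 ≠ ⊥` -/
theorem SqvkSide.M_ne_bot (d : SqvkSide ϖ y Ξ F H G e) : sqvkM ϖ y F ≠ ⊥ := fun h =>
  d.unif_ne_zero (by
    have := sqvk_unif_mem ϖ y F
    rwa [h, Ideal.mem_bot] at this)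

/-! ### Local generators : the localisation at `𝔐` is a discrete valuation ring -/

/-- `π` generates the ideal `M` locally at `M` : `π ∈ M` and `u M ⊆ π S` for some `u ∉ M`. -/
def SqvkGen (M : Ideal S) (π : S) : Prop :=
  π ∈ M ∧ ∃ u : S, u ∉ M ∧ ∀ x ∈ M, ∃ s : S, u * x = π * s

/-- a local generator of a prime ideal does not lie in its square -/
theorem SqvkGen.notMem_sq {M : Ideal S} [hM : M.IsPrime] {π : S} (h : SqvkGen M π) (hπ0 : π ≠ 0) :
    π ∉ M ^ 2 := by
  obtain ⟨hπM, u, hu, hgen⟩ := h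
  intro hπ
  have key : ∀ x ∈ M ^ 2, ∃ s : S, u ^ 2 * x = π ^ 2 * s := by
    intro x hx
    rw [pow_two] at hx
    refine Submodule.mul_induction_on hx ?_ ?_
    · intro a ha b hb
      obtain ⟨s, hs⟩ := hgen a ha
      obtain ⟨t, ht⟩ := hgen b hb
      exact ⟨s * t, by linear_combination (u * b) * hs + (π * s) * ht⟩
    · rintro a b ⟨s, hs⟩ ⟨t, ht⟩
      exact ⟨s + t, by linear_combination hs + ht⟩
  obtain ⟨s, hs⟩ := key _ hπ
  have h1 : u ^ 2 = π * s := by
    have h2 : π * u ^ 2 = π * (π * s) := by linear_combination hs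
    exact mul_left_cancel₀ hπ0 h2
  have h3 : u ^ 2 ∈ M := by
    rw [h1]
    exact Ideal.mul_mem_right _ _ hπM
  exact hu (hM.mem_of_pow_mem 2 h3)

/-- if a prime ideal `M ≠ ⊥` of a Noetherian domain has a local generator, the localisation at `M`
is a discrete valuation ring -/
theorem SqvkGen.dvr [IsNoetherianRing S] {M : Ideal S} [hM : M.IsPrime] {π : S} (h : SqvkGen M π)
    (hπ0 : π ≠ 0) : IsDiscreteValuationRing (Localization.AtPrime M) := by
  obtain ⟨hπM, u, hu, hgen⟩ := h
  set T := Localization.AtPrime M with hT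
  haveI : IsNoetherianRing T := IsLocalization.isNoetherianRing M.primeCompl T inferInstance
  have hinj : Function.Injective (algebraMap S T) :=
    IsLocalization.injective T M.primeCompl_le_nonZeroDivisors
  have hmax : maximalIdeal T = Ideal.span {algebraMap S T π} := by
    rw [← IsLocalization.AtPrime.map_eq_maximalIdeal M T, Ideal.map]
    apply le_antisymm
    · rw [Ideal.span_le]
      rintro x ⟨x', hx', rfl⟩
      obtain ⟨s, hs⟩ := hgen x' hx'
      have huu : IsUnit (algebraMap S T u) :=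
        IsLocalization.map_units T (⟨u, hu⟩ : M.primeCompl)
      obtain ⟨w, hw⟩ := huu
      have h1 : (w : T) * algebraMap S T x' = algebraMap S T π * algebraMap S T s := by
        rw [hw, ← map_mul, hs, map_mul]
      have h2 : algebraMap S T x' = (((w⁻¹ : Tˣ) : T) * algebraMap S T s) * algebraMap S T π := by
        calc algebraMap S T x' = ((w⁻¹ : Tˣ) : T) * ((w : T) * algebraMap S T x') := by
              rw [← mul_assoc, Units.inv_mul, one_mul]
          _ = _ := by rw [h1]; ring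
      show algebraMap S T x' ∈ Ideal.span {algebraMap S T π}
      rw [h2]
      exact Ideal.mul_mem_left _ _ (Ideal.mem_span_singleton_self _)
    · rw [Ideal.span_le]
      rintro x hx
      rw [Set.mem_singleton_iff] at hx
      subst hx
      exact Ideal.subset_span ⟨π, hπM, rfl⟩
  have hnf : ¬ IsField T := by
    rw [IsLocalRing.isField_iff_maximalIdeal_eq, hmax, Ideal.span_singleton_eq_bot]
    intro h0
    exact hπ0 (hinj (by rw [h0, map_zero]))
  have hpr : (maximalIdeal T).IsPrincipal := ⟨⟨algebraMap S T π, hmax⟩⟩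
  have htfae := (IsDiscreteValuationRing.TFAE T hnf).out 0 4
  exact htfae.mpr hpr

/-- if `e = 1` then `ϖ` generates `𝔐` locally -/
theorem SqvkSide.gen_unif (d : SqvkSide ϖ y Ξ F H G e) (he : e = 1) :
    SqvkGen (sqvkM ϖ y F) (algebraMap R S ϖ) := by
  refine ⟨sqvk_unif_mem ϖ y F, aeval y H, d.cofactor_notMem, fun x hx => ?_⟩
  rw [sqvkM, Ideal.mem_span_pair] at hx
  obtain ⟨a, b, rfl⟩ := hx
  refine ⟨aeval y H * a - b * aeval y G, ?_⟩
  have h := d.prod_eq
  rw [he, pow_one] at h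
  linear_combination b * h

/-- if `(F̄, Ḡ) = 1` then `F(y)` generates `𝔐` locally -/
theorem SqvkSide.gen_aeval (d : SqvkSide ϖ y Ξ F H G e)
    (hc : IsCoprime (F.map (residue R)) (G.map (residue R))) :
    SqvkGen (sqvkM ϖ y F) (aeval y F) := by
  refine ⟨sqvk_aeval_mem ϖ y F, aeval y G, d.notMem_of_isCoprime hc, fun x hx => ?_⟩
  rw [sqvkM, Ideal.mem_span_pair] at hx
  obtain ⟨a, b, rfl⟩ := hx
  refine ⟨b * aeval y G - a * (aeval y F ^ (e - 1) * aeval y H), ?_⟩
  have h := d.prod_eq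
  have he : aeval y F ^ e = aeval y F * aeval y F ^ (e - 1) := by
    rw [← pow_succ', Nat.sub_add_cancel d.epos]
  rw [he] at h
  linear_combination a * h

/-- `F(y) ≠ 0` if `(F̄, Ḡ) = 1` -/
theorem SqvkSide.aeval_ne_zero (d : SqvkSide ϖ y Ξ F H G e)
    (hc : IsCoprime (F.map (residue R)) (G.map (residue R))) : aeval y F ≠ 0 := by
  intro h0
  have h := d.prod_eq
  rw [h0, zero_pow d.epos.ne', zero_mul, eq_comm, neg_eq_zero, mul_eq_zero] at h
  rcases h with h | h
  · exact d.unif_ne_zero h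
  · exact d.notMem_of_isCoprime hc (h ▸ Ideal.zero_mem _)

/-- **the localisation of `S` at `𝔐` is a discrete valuation ring** -/
theorem SqvkSide.dvr_at (d : SqvkSide ϖ y Ξ F H G e) :
    haveI := d.isMaximal.isPrime
    IsDiscreteValuationRing (Localization.AtPrime (sqvkM ϖ y F)) := by
  haveI := d.isMaximal.isPrime
  haveI := d.isNoetherianRing
  rcases d.ded with he | hc
  · exact (d.gen_unif he).dvr d.unif_ne_zero
  · exact (d.gen_aeval hc).dvr (d.aeval_ne_zero hc)

end Ring

/-! ### The valuation at `𝔐` on the fraction field -/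

section Field

open IsDedekindDomain WithZero

variable {R : Type*} [CommRing R] [IsDomain R] [IsDiscreteValuationRing R]
variable {S : Type*} [CommRing S] [IsDomain S] [Algebra R S]
variable {ϖ : R} {y : S} {Ξ F H G : R[X]} {e : ℕ}
variable (K' : Type*) [Field K'] [Algebra S K'] [IsFractionRing S K']

/-- the prime `𝔐` as a point of the height-one spectrum -/
def SqvkSide.v (d : SqvkSide ϖ y Ξ F H G e) : HeightOneSpectrum S :=
  ⟨sqvkM ϖ y F, d.isMaximal.isPrime, d.M_ne_bot⟩

theorem SqvkSide.v_asIdeal (d : SqvkSide ϖ y Ξ F H G e) : d.v.asIdeal = sqvkM ϖ y F := rfl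

variable [IsDedekindDomain S]

/-- a local generator of `v` has valuation `exp (-1)` -/
theorem sqvk_intValuation_of_gen (v : HeightOneSpectrum S) {π : S} (h : SqvkGen v.asIdeal π)
    (hπ0 : π ≠ 0) : v.intValuation π = exp (-1 : ℤ) := by
  haveI := v.isPrime
  obtain ⟨m, hm⟩ : ∃ m : ℕ, v.intValuation π = exp (-(m : ℤ)) :=
    ⟨_, v.intValuation_if_neg hπ0⟩
  have h1 : v.intValuation π ≤ exp (-((1 : ℕ) : ℤ)) :=
    (v.intValuation_le_pow_iff_mem _ 1).mpr (by rw [pow_one]; exact h.1)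
  have h2 : ¬ v.intValuation π ≤ exp (-((2 : ℕ) : ℤ)) := fun h' =>
    h.notMem_sq hπ0 ((v.intValuation_le_pow_iff_mem _ 2).mp h')
  rw [hm, exp_le_exp] at h1 h2
  have h3 : m = 1 := by omega
  rw [hm, h3]
  rfl

/-- an element outside `𝔐` has valuation `1` -/
theorem SqvkSide.intValuation_of_notMem (d : SqvkSide ϖ y Ξ F H G e) {s : S}
    (hs : s ∉ sqvkM ϖ y F) : d.v.intValuation s = 1 :=
  le_antisymm (d.v.intValuation_le_one s)
    (not_lt.mp fun h => hs ((d.v.intValuation_lt_one_iff_mem s).mp h))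

/-- `e = 1` : `v(ϖ) = exp (-1)` -/
theorem SqvkSide.intValuation_unif_of_one (d : SqvkSide ϖ y Ξ F H G e) (he : e = 1) :
    d.v.intValuation (algebraMap R S ϖ) = exp (-1 : ℤ) :=
  sqvk_intValuation_of_gen d.v (d.gen_unif he) d.unif_ne_zero

/-- `(F̄, Ḡ) = 1` : `v(F(y)) = exp (-1)` -/
theorem SqvkSide.intValuation_aeval (d : SqvkSide ϖ y Ξ F H G e)
    (hc : IsCoprime (F.map (residue R)) (G.map (residue R))) :
    d.v.intValuation (aeval y F) = exp (-1 : ℤ) :=
  sqvk_intValuation_of_gen d.v (d.gen_aeval hc) (d.aeval_ne_zero hc)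

/-- `(F̄, Ḡ) = 1` : `v(ϖ) = v(F(y))^e` -/
theorem SqvkSide.intValuation_unif_eq_pow (d : SqvkSide ϖ y Ξ F H G e)
    (hc : IsCoprime (F.map (residue R)) (G.map (residue R))) :
    d.v.intValuation (algebraMap R S ϖ) = d.v.intValuation (aeval y F) ^ e := by
  have h := congrArg d.v.intValuation d.prod_eq
  rw [map_mul, map_pow, Valuation.map_neg, map_mul,
    d.intValuation_of_notMem d.cofactor_notMem,
    d.intValuation_of_notMem (d.notMem_of_isCoprime hc), mul_one, mul_one] at h
  exact h.symm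

/-- **a uniformiser `π` of `v` with `v(π)^e = v(ϖ)`** : `π = ϖ` if `e = 1`, `π = F(y)` otherwise -/
theorem SqvkSide.exists_unif (d : SqvkSide ϖ y Ξ F H G e) :
    ∃ π : S, (π = algebraMap R S ϖ ∨ π = aeval y F) ∧ d.v.intValuation π = exp (-1 : ℤ) ∧
      d.v.intValuation π ^ e = d.v.intValuation (algebraMap R S ϖ) := by
  rcases d.ded with he | hc
  · refine ⟨algebraMap R S ϖ, Or.inl rfl, d.intValuation_unif_of_one he, ?_⟩
    have h1 : ∀ (n : ℕ) (z : ℤᵐ⁰), n = 1 → z ^ n = z := fun n z hn => by rw [hn, pow_one]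
    exact h1 e _ he
  · exact ⟨aeval y F, Or.inr rfl, d.intValuation_aeval hc, (d.intValuation_unif_eq_pow hc).symm⟩

theorem SqvkSide.valuation_lt_one_iff (d : SqvkSide ϖ y Ξ F H G e) (s : S) :
    d.v.valuation K' (algebraMap S K' s) < 1 ↔ s ∈ sqvkM ϖ y F :=
  HeightOneSpectrum.valuation_lt_one_iff_mem _ _

/-- multiplying a non-unit of a valuation ring by an element of the ring gives a non-unit -/
theorem sqvk_mul_mem_nonunits {K : Type*} [Field K] (V : ValuationSubring K) {a b : K}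
    (ha : a ∈ V) (hb : b ∈ V.nonunits) : a * b ∈ V.nonunits := by
  rw [ValuationSubring.mem_nonunits_iff] at hb ⊢
  rw [map_mul]
  exact lt_of_le_of_lt (mul_le_of_le_one_left' ((V.valuation_le_one_iff a).mpr ha)) hb

/-- a valuation ring of `K'` containing `S` in which `ϖ` and `F(y)` are non-units is the
localisation of `S` at `𝔐` -/
theorem SqvkSide.valuationSubring_eq (d : SqvkSide ϖ y Ξ F H G e) (V : ValuationSubring K')
    (hS : ∀ s : S, algebraMap S K' s ∈ V)
    (hϖ : algebraMap S K' (algebraMap R S ϖ) ∈ V.nonunits)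
    (hF : algebraMap S K' (aeval y F) ∈ V.nonunits) :
    V = (d.v.valuation K').valuationSubring := by
  have hM : ∀ m ∈ sqvkM ϖ y F, algebraMap S K' m ∈ V.nonunits := by
    intro m hm
    rw [sqvkM, Ideal.mem_span_pair] at hm
    obtain ⟨a, b, rfl⟩ := hm
    rw [map_add, map_mul, map_mul]
    exact add_mem (sqvk_mul_mem_nonunits V (hS a) hϖ) (sqvk_mul_mem_nonunits V (hS b) hF)
  have hunit : ∀ s : S, s ∉ sqvkM ϖ y F → (algebraMap S K' s)⁻¹ ∈ V := by
    intro s hs
    obtain ⟨a, m, hm, ham⟩ := d.isMaximal.exists_inv hs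
    have h1 : algebraMap S K' a * algebraMap S K' s = 1 - algebraMap S K' m := by
      rw [← map_mul, ← map_one (algebraMap S K'), ← map_sub, ← ham]
      congr 1; ring
    have h2 : V.valuation (1 - algebraMap S K' m) = 1 :=
      Valuation.map_one_sub_of_lt _ ((V.mem_nonunits_iff).mp (hM m hm))
    rw [← h1, map_mul] at h2
    have ha1 : V.valuation (algebraMap S K' a) ≤ 1 := (V.valuation_le_one_iff _).mpr (hS a)
    have hs1 : V.valuation (algebraMap S K' s) ≤ 1 := (V.valuation_le_one_iff _).mpr (hS s)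
    have hs2 : V.valuation (algebraMap S K' s) = 1 := by
      apply le_antisymm hs1
      calc (1 : V.ValueGroup) = V.valuation (algebraMap S K' a) * V.valuation (algebraMap S K' s) :=
            h2.symm
        _ ≤ 1 * V.valuation (algebraMap S K' s) := mul_le_mul_left ha1 _
        _ = V.valuation (algebraMap S K' s) := one_mul _
    rw [← V.valuation_le_one_iff, map_inv₀, hs2, inv_one]
  have hle : (d.v.valuation K').valuationSubring ≤ V := by
    intro x hx
    obtain ⟨n, ⟨dd, hdd⟩, hnd⟩ := d.v.exists_primeCompl_mul_eq_of_integer x hx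
    have hd0 : algebraMap S K' dd ≠ 0 := by
      rw [Ne, map_eq_zero_iff _ (IsFractionRing.injective S K')]
      rintro rfl
      exact hdd (Ideal.zero_mem _)
    have hx' : x = algebraMap S K' n * (algebraMap S K' dd)⁻¹ := by
      rw [← hnd, mul_assoc, mul_inv_cancel₀ hd0, mul_one]
    rw [hx']
    exact V.mul_mem _ _ (hS n) (hunit dd hdd)
  have htop : V ≠ ⊤ := by
    rintro rfl
    have h1 := (ValuationSubring.mem_nonunits_iff _).mp hϖ
    have h2 : (algebraMap S K' (algebraMap R S ϖ))⁻¹ ∈ (⊤ : ValuationSubring K') :=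
      ValuationSubring.mem_top _
    rw [← ValuationSubring.valuation_le_one_iff, map_inv₀] at h2
    have h0 : (⊤ : ValuationSubring K').valuation (algebraMap S K' (algebraMap R S ϖ)) ≠ 0 := by
      rw [Valuation.ne_zero_iff, Ne, map_eq_zero_iff _ (IsFractionRing.injective S K')]
      exact d.unif_ne_zero
    rw [inv_le_one₀ (zero_lt_iff.mpr h0)] at h2
    exact absurd h1 (not_lt.mpr h2)
  rw [← HeightOneSpectrum.valuationSubringAtPrime_eq_valuationSubring] at hle ⊢
  exact (ValuationSubring.eq_of_le_of_ne_top _ hle htop).symm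

/-! ### Residue fields -/

/-- the residue field of `v` is `κ[Y]/(F̄)` : every `v`-integral `x` is congruent to `g(y)` with
`deg g < deg F`. -/
theorem SqvkSide.exists_sub_lt (d : SqvkSide ϖ y Ξ F H G e) (hF : F.Monic) {x : K'}
    (hx : d.v.valuation K' x ≤ 1) :
    ∃ g : R[X], g.degree < F.degree ∧
      d.v.valuation K' (x - algebraMap S K' (aeval y g)) < 1 := by
  obtain ⟨a, ha⟩ := d.v.exists_valuation_sub_lt_of_integer hx 1
  obtain ⟨g₀, rfl⟩ := d.surj a
  refine ⟨g₀ %ₘ F, degree_modByMonic_lt _ hF, ?_⟩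
  have h1 : aeval y g₀ = aeval y (g₀ %ₘ F) + aeval y F * aeval y (g₀ /ₘ F) := by
    conv_lhs => rw [← modByMonic_add_div g₀ F]
    rw [map_add, map_mul]
  have h2 : x - algebraMap S K' (aeval y (g₀ %ₘ F)) =
      -(algebraMap S K' (aeval y g₀) - x) +
        algebraMap S K' (aeval y F * aeval y (g₀ /ₘ F)) := by
    rw [h1, map_add]; ring
  rw [h2]
  refine lt_of_le_of_lt (Valuation.map_add _ _ _) (max_lt ?_ ?_)
  · rw [Valuation.map_neg]
    simpa using ha
  · rw [d.valuation_lt_one_iff K']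
    exact Ideal.mul_mem_right _ _ (sqvk_aeval_mem ϖ y F)

/-- if `F` is monic of degree one, the residue field of `v` is the residue field of `R` :
every `v`-integral `x` is congruent to a constant of `R`. -/
theorem SqvkSide.exists_const_sub_lt (d : SqvkSide ϖ y Ξ F H G e) (hF : F.Monic)
    (hdeg : F.natDegree = 1) {x : K'} (hx : d.v.valuation K' x ≤ 1) :
    ∃ r : R, d.v.valuation K' (x - algebraMap S K' (algebraMap R S r)) < 1 := by
  obtain ⟨g, hg, hgx⟩ := d.exists_sub_lt K' hF hx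
  have h1 : g.degree < 1 := by
    rw [degree_eq_natDegree hF.ne_zero, hdeg] at hg
    exact_mod_cast hg
  have h2 : g = C (g.coeff 0) := eq_C_of_degree_le_zero (by
    by_cases hg0 : g = 0
    · rw [hg0, degree_zero]; exact bot_le
    · rw [degree_eq_natDegree hg0] at h1 ⊢
      have : g.natDegree < 1 := by exact_mod_cast h1
      have : g.natDegree = 0 := by omega
      rw [this]; rfl)
  refine ⟨g.coeff 0, ?_⟩
  rw [h2, aeval_C] at hgx
  exact hgx

end Field

/-! ### The global package : a finite family of factors -/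

section Fam

open IsDedekindDomain WithZero

variable {R : Type*} [CommRing R] [IsDomain R] [IsDiscreteValuationRing R]
variable {S : Type*} [CommRing S] [IsDomain S] [Algebra R S]
variable {ι : Type*} [Fintype ι] [DecidableEq ι]

/-- The hypotheses of the Dedekind–Kummer package : `Ξ ≡ ∏ F_i^{e_i} mod ϖ`, the `F̄_i` irreducible
and pairwise coprime, Dedekind's criterion at every `i`. -/
structure SqvkFam (ϖ : R) (y : S) (Ξ : R[X]) (F : ι → R[X]) (e : ι → ℕ) (G : R[X]) : Prop where
  /-- `ϖ` is a uniformiser of `R` -/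
  irr : Irreducible ϖ
  /-- `S = R[y]` -/
  surj : Function.Surjective (aeval (R := R) y)
  /-- `Ξ` is monic -/
  monic : Ξ.Monic
  /-- `Ξ(y) = 0` -/
  root : aeval y Ξ = 0
  /-- `Ξ` generates the kernel of `R[Y] → S` -/
  ker : ∀ g : R[X], aeval y g = 0 → Ξ ∣ g
  /-- `Ξ ≡ ∏ F_i^{e_i} mod ϖ` -/
  fac : Ξ = ∏ i, F i ^ e i + C ϖ * G
  /-- the multiplicities are positive -/
  epos : ∀ i, 0 < e i
  /-- the reductions of the `F_i` are irreducible -/
  irrF : ∀ i, Irreducible ((F i).map (residue R))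
  /-- the reductions are pairwise coprime -/
  cop : ∀ i j, i ≠ j → IsCoprime ((F i).map (residue R)) ((F j).map (residue R))
  /-- DEDEKIND'S CRITERION -/
  ded : ∀ i, e i = 1 ∨ IsCoprime ((F i).map (residue R)) (G.map (residue R))

/-- the cofactor of `F_i^{e_i}` -/
def sqvkCof (F : ι → R[X]) (e : ι → ℕ) (i : ι) : R[X] :=
  ∏ j ∈ Finset.univ.erase i, F j ^ e j

theorem sqvk_mul_cof (F : ι → R[X]) (e : ι → ℕ) (i : ι) :
    F i ^ e i * sqvkCof F e i = ∏ j, F j ^ e j :=
  Finset.mul_prod_erase Finset.univ (fun j => F j ^ e j) (Finset.mem_univ i)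

variable {ϖ : R} {y : S} {Ξ : R[X]} {F : ι → R[X]} {e : ι → ℕ} {G : R[X]}

/-- the local package at the factor `F_i` -/
theorem SqvkFam.side (d : SqvkFam ϖ y Ξ F e G) (i : ι) :
    SqvkSide ϖ y Ξ (F i) (sqvkCof F e i) G (e i) where
  irr := d.irr
  surj := d.surj
  monic := d.monic
  root := d.root
  ker := d.ker
  fac := by rw [sqvk_mul_cof, d.fac]
  epos := d.epos i
  irrF := d.irrF i
  cop := by
    rw [sqvkCof, Polynomial.map_prod]
    refine IsCoprime.prod_right fun j hj => ?_
    rw [Polynomial.map_pow]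
    exact (d.cop i j (Finset.ne_of_mem_erase hj).symm).pow_right
  ded := d.ded i

/-- `∏ F_i(y)^{e_i} = - ϖ G(y)` -/
theorem SqvkFam.prod_eq (d : SqvkFam ϖ y Ξ F e G) :
    ∏ i, aeval y (F i) ^ e i = - (algebraMap R S ϖ * aeval y G) := by
  have h := d.root
  rw [d.fac, map_add, map_prod, map_mul, aeval_C] at h
  simp only [map_pow] at h
  exact eq_neg_of_add_eq_zero_left h

/-- `F_j(y) ∉ 𝔐_i` for `i ≠ j` -/
theorem SqvkFam.aeval_notMem (d : SqvkFam ϖ y Ξ F e G) {i j : ι} (hij : i ≠ j) :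
    aeval y (F j) ∉ sqvkM ϖ y (F i) :=
  (d.side i).notMem_of_isCoprime (d.cop i j hij)

/-- the `𝔐_i` are pairwise distinct -/
theorem SqvkFam.M_injective (d : SqvkFam ϖ y Ξ F e G) :
    Function.Injective fun i => sqvkM ϖ y (F i) := by
  intro i j hij
  by_contra hne
  exact d.aeval_notMem hne (by
    show aeval y (F j) ∈ sqvkM ϖ y (F i)
    have : sqvkM ϖ y (F i) = sqvkM ϖ y (F j) := hij
    rw [this]
    exact sqvk_aeval_mem ϖ y (F j))

variable [Nonempty ι]

/-- every nonzero prime of `S` is one of the `𝔐_i` -/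
theorem SqvkFam.prime_cases (d : SqvkFam ϖ y Ξ F e G) (P : Ideal S) [hP : P.IsPrime]
    (hP0 : P ≠ ⊥) : ∃ i, P = sqvkM ϖ y (F i) := by
  obtain ⟨i₀⟩ := ‹Nonempty ι›
  have h1 := (d.side i₀).unif_mem_of_prime P hP0
  have h2 : ∏ i, aeval y (F i) ^ e i ∈ P := by
    rw [d.prod_eq]
    exact P.neg_mem (P.mul_mem_right _ h1)
  obtain ⟨i, -, hi⟩ := (Ideal.IsPrime.prod_mem_iff).mp h2
  exact ⟨i, (d.side i).eq_of_mem P h1 (hP.mem_of_pow_mem _ hi)⟩

/-- **`S` is a Dedekind domain** -/
theorem SqvkFam.isDedekindDomain (d : SqvkFam ϖ y Ξ F e G) : IsDedekindDomain S := by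
  obtain ⟨i₀⟩ := ‹Nonempty ι›
  haveI := (d.side i₀).isNoetherianRing
  haveI : IsDedekindDomainDvr S := ⟨fun P hP0 hP => by
    obtain ⟨i, rfl⟩ := d.prime_cases P hP0
    exact (d.side i).dvr_at⟩
  infer_instance

/-- `S` is integrally closed -/
theorem SqvkFam.isIntegrallyClosed (d : SqvkFam ϖ y Ξ F e G) : IsIntegrallyClosed S :=
  haveI := d.isDedekindDomain
  inferInstance

variable (K' : Type*) [Field K'] [Algebra S K'] [IsFractionRing S K']

/-- the prime `𝔐_i` as a point of the height-one spectrum -/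
def SqvkFam.v (d : SqvkFam ϖ y Ξ F e G) (i : ι) : HeightOneSpectrum S := (d.side i).v

theorem SqvkFam.v_cases (d : SqvkFam ϖ y Ξ F e G) (v : HeightOneSpectrum S) : ∃ i, v = d.v i := by
  haveI := v.isPrime
  obtain ⟨i, hi⟩ := d.prime_cases v.asIdeal v.ne_bot
  exact ⟨i, HeightOneSpectrum.ext hi⟩

theorem SqvkFam.v_injective (d : SqvkFam ϖ y Ξ F e G) : Function.Injective d.v := fun i j hij =>
  d.M_injective (congrArg HeightOneSpectrum.asIdeal hij)

variable [IsDedekindDomain S]

/-- `S = {x : v_i x ≤ 1 ∀ i}` -/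
theorem SqvkFam.mem_range_iff (d : SqvkFam ϖ y Ξ F e G) (x : K') :
    x ∈ (algebraMap S K').range ↔ ∀ i, (d.v i).valuation K' x ≤ 1 := by
  constructor
  · rintro ⟨s, rfl⟩ i
    exact HeightOneSpectrum.valuation_le_one _ s
  · intro h
    refine HeightOneSpectrum.mem_integers_of_valuation_le_one K' x fun v => ?_
    obtain ⟨i, rfl⟩ := d.v_cases v
    exact h i

/-- `ϖ S = {x : v_i x ≤ v_i ϖ ∀ i}` -/
theorem SqvkFam.dvd_iff (d : SqvkFam ϖ y Ξ F e G) (x : K') :
    (∃ s : S, x = algebraMap S K' (algebraMap R S ϖ * s)) ↔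
      ∀ i, (d.v i).valuation K' x ≤ (d.v i).valuation K' (algebraMap S K' (algebraMap R S ϖ)) := by
  obtain ⟨i₀⟩ := ‹Nonempty ι›
  have hϖ : algebraMap S K' (algebraMap R S ϖ) ≠ 0 := by
    rw [Ne, map_eq_zero_iff _ (IsFractionRing.injective S K')]
    exact (d.side i₀).unif_ne_zero
  constructor
  · rintro ⟨s, rfl⟩ i
    rw [map_mul, map_mul]
    exact mul_le_of_le_one_right' (HeightOneSpectrum.valuation_le_one _ s)
  · intro h
    have h1 : x / algebraMap S K' (algebraMap R S ϖ) ∈ (algebraMap S K').range := by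
      rw [d.mem_range_iff K']
      intro i
      rw [map_div₀]
      have h0 : (d.v i).valuation K' (algebraMap S K' (algebraMap R S ϖ)) ≠ 0 := by
        rw [Valuation.ne_zero_iff]
        exact hϖ
      exact (div_le_one₀ (zero_lt_iff.mpr h0)).mpr (h i)
    obtain ⟨s, hs⟩ := h1
    refine ⟨s, ?_⟩
    rw [map_mul, hs, mul_div_cancel₀ _ hϖ]

/-- **every valuation ring of `K' = Frac S` containing (the image of) `R` in which `ϖ` is a non-unit
is the valuation ring of one of the `v_i`.** -/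
theorem SqvkFam.valuationSubring_cases (d : SqvkFam ϖ y Ξ F e G) (V : ValuationSubring K')
    (hR : ∀ r : R, algebraMap S K' (algebraMap R S r) ∈ V)
    (hϖ : algebraMap S K' (algebraMap R S ϖ) ∈ V.nonunits) :
    ∃ i, V = ((d.v i).valuation K').valuationSubring := by
  -- `y ∈ V`
  have hy : algebraMap S K' y ∈ V := by
    let φ : R →+* ↥V := ((algebraMap S K').comp (algebraMap R S)).codRestrict V.toSubring hR
    have h1 : IsIntegral ↥V (algebraMap S K' y) := by
      refine ⟨Ξ.map φ, d.monic.map φ, ?_⟩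
      rw [eval₂_map]
      have h2 : (algebraMap ↥V K').comp φ = (algebraMap S K').comp (algebraMap R S) := by
        ext r; rfl
      rw [h2, ← hom_eval₂, ← aeval_def, d.root, map_zero]
    obtain ⟨z, hz⟩ := IsIntegrallyClosed.isIntegral_iff.mp h1
    rw [← hz]
    exact z.2
  -- `S ⊆ V`
  have hS : ∀ s : S, algebraMap S K' s ∈ V := by
    intro s
    obtain ⟨g, rfl⟩ := d.surj s
    rw [aeval_eq_sum_range, map_sum]
    refine sum_mem fun i _ => ?_
    rw [Algebra.smul_def, map_mul, map_pow]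
    exact V.mul_mem _ _ (hR _) (pow_mem hy i)
  have hG : algebraMap S K' (aeval y G) ∈ V := hS _
  have hprod : ∏ i, algebraMap S K' (aeval y (F i)) ^ e i ∈ V.nonunits := by
    have h1 : ∏ i, algebraMap S K' (aeval y (F i)) ^ e i =
        algebraMap S K' (∏ i, aeval y (F i) ^ e i) := by
      rw [map_prod]
      simp only [map_pow]
    rw [h1, d.prod_eq, map_neg, map_mul, mul_comm]
    exact neg_mem (sqvk_mul_mem_nonunits V hG hϖ)
  -- some factor is a non-unit
  have hex : ∃ i, algebraMap S K' (aeval y (F i)) ∈ V.nonunits := by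
    by_contra hne
    push Not at hne
    have h1 : ∀ i, V.valuation (algebraMap S K' (aeval y (F i))) = 1 := fun i =>
      le_antisymm ((V.valuation_le_one_iff _).mpr (hS _))
        (not_lt.mp fun h => hne i ((V.mem_nonunits_iff).mpr h))
    rw [ValuationSubring.mem_nonunits_iff, map_prod] at hprod
    simp only [map_pow, h1, one_pow, Finset.prod_const_one] at hprod
    exact lt_irrefl _ hprod
  obtain ⟨i, hi⟩ := hex
  exact ⟨i, (d.side i).valuationSubring_eq K' V hS hϖ hi⟩

/-- **`S = R[y]` is the integral closure of `R` in `K'`.** -/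
theorem SqvkFam.mem_range_of_isIntegral (d : SqvkFam ϖ y Ξ F e G) [Algebra R K']
    [IsScalarTower R S K'] {x : K'} (hx : IsIntegral R x) : x ∈ (algebraMap S K').range := by
  haveI := d.isIntegrallyClosed
  have h1 : IsIntegral S x := hx.tower_top
  obtain ⟨z, hz⟩ := IsIntegrallyClosed.isIntegral_iff.mp h1
  exact ⟨z, hz⟩

end Fam

end Fermat.Agent.SQ
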