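import Mathlib
import Fermat.Agent.S18.T.Spec
import Fermat.Agent.SS.Val.Gauss2
import Fermat.Agent.SQ.Val.KummerE

/-!
# Program Q (S36), leaf VAL² : Dedekind–Kummer with exponents, AMBIENT-FIELD STYLE

The package of `KummerE.lean` for a subring `R` of a field `F` (a discrete valuation ring with
uniformiser `ϖ`) and an element `y ∈ F` with `F = Frac R[y]` : `SqvkAmb R ϖ y Ξ Fs e G`
(`Ξ = ∏ Fs i ^ e i + ϖ G`).  Output : valuation rings `V i` of `F` with

* `R[y] = ⋂ V i` (`mem_adjoin_iff`), `R[y]` is the integral closure of `R` in `F`;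
* a uniformiser `π i ∈ {ϖ, Fs i (y)}` of `V i` with `v_i(π i) ^ e i = v_i(ϖ)` (`exists_unif`);
* `Fs i (y) ∈ 𝔪_{V i}`, `Fs i (y) ∈ (V j)ˣ` for `j ≠ i` (`sep`);
* every valuation ring of `F` containing `R` in which `ϖ` is a non-unit is one of the `V i`
  (`cases`); `ϖ R[y] = {x : v_i x ≤ v_i ϖ ∀ i}` (`dvd_iff`);
* residue fields : `κ(V i) = κ(R)[Y]/(F̄s i)` (`exists_sub_mem`, `exists_const_sub_mem`).

Generalises Part I of `SS/Val/Gauss2.lean`.  Prefix `sqvk` / `Sqvk`.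
-/

set_option autoImplicit false
set_option linter.unusedSectionVars false
set_option linter.unusedVariables false
set_option linter.style.haveILetI false
set_option linter.overlappingInstances false

noncomputable section

namespace Fermat.Agent.SQ

open Polynomial IsLocalRing IsDedekindDomain WithZero Fermat.Agent.S18 Fermat.Agent.SS

section Ambient

variable {F : Type*} [Field F] (R : Subring F) [IsDiscreteValuationRing ↥R]
variable {ι : Type*} [Fintype ι] [DecidableEq ι]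

/-- The hypotheses of the Dedekind–Kummer package with exponents for a subring `R ⊂ F` and
`y ∈ F`. -/
structure SqvkAmb (ϖ : ↥R) (y : F) (Ξ : (↥R)[X]) (Fs : ι → (↥R)[X]) (e : ι → ℕ) (G : (↥R)[X]) :
    Prop where
  /-- `ϖ` is a uniformiser of `R` -/
  irr : Irreducible ϖ
  /-- `Ξ` is monic -/
  monic : Ξ.Monic
  /-- `Ξ(y) = 0` -/
  root : aeval y Ξ = 0
  /-- `Ξ` generates the kernel of `R[Y] → F` -/
  ker : ∀ g : (↥R)[X], aeval y g = 0 → Ξ ∣ g
  /-- `Ξ ≡ ∏ Fs i ^ e i mod ϖ` -/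
  fac : Ξ = ∏ i, Fs i ^ e i + C ϖ * G
  /-- the multiplicities are positive -/
  epos : ∀ i, 0 < e i
  /-- the reductions of the `Fs i` are irreducible -/
  irrF : ∀ i, Irreducible ((Fs i).map (residue ↥R))
  /-- the reductions are pairwise coprime -/
  cop : ∀ i j, i ≠ j → IsCoprime ((Fs i).map (residue ↥R)) ((Fs j).map (residue ↥R))
  /-- DEDEKIND'S CRITERION -/
  ded : ∀ i, e i = 1 ∨ IsCoprime ((Fs i).map (residue ↥R)) (G.map (residue ↥R))
  /-- `F = Frac R[y]` -/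
  gen : ∀ x : F, ∃ a b : (↥R)[X], aeval y b ≠ 0 ∧ x * aeval y b = aeval y a

variable {R} {ϖ : ↥R} {y : F} {Ξ : (↥R)[X]} {Fs : ι → (↥R)[X]} {e : ι → ℕ} {G : (↥R)[X]}

theorem SqvkAmb.data (h : SqvkAmb R ϖ y Ξ Fs e G) : SqvkFam ϖ (ssvGen R y) Ξ Fs e G where
  irr := h.irr
  surj := by
    rintro ⟨x, hx⟩
    rw [Algebra.adjoin_singleton_eq_range_aeval] at hx
    obtain ⟨g, rfl⟩ := hx
    exact ⟨g, Subtype.ext (ssv_coe_aeval_gen g)⟩
  monic := h.monic
  root := Subtype.ext (by rw [ssv_coe_aeval_gen]; exact h.root)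
  ker := fun g hg => h.ker g (by rw [← ssv_coe_aeval_gen, hg]; rfl)
  fac := h.fac
  epos := h.epos
  irrF := h.irrF
  cop := h.cop
  ded := h.ded

theorem SqvkAmb.isFractionRing (h : SqvkAmb R ϖ y Ξ Fs e G) :
    IsFractionRing ↥(Algebra.adjoin ↥R {y}) F := by
  haveI : FaithfulSMul ↥(Algebra.adjoin ↥R {y}) F :=
    (faithfulSMul_iff_algebraMap_injective _ _).mpr Subtype.val_injective
  refine IsFractionRing.of_field _ _ fun z => ?_
  obtain ⟨a, b, hb, hab⟩ := h.gen z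
  refine ⟨aeval (ssvGen R y) a, aeval (ssvGen R y) b, ?_⟩
  show z = ((aeval (ssvGen R y) a : ↥(Algebra.adjoin ↥R {y})) : F) /
    ((aeval (ssvGen R y) b : ↥(Algebra.adjoin ↥R {y})) : F)
  rw [ssv_coe_aeval_gen, ssv_coe_aeval_gen, ← hab, mul_div_cancel_right₀ _ hb]

variable [Nonempty ι]

/-- the valuation ring `V i` (the localisation of `R[y]` at `(ϖ, Fs i (y))`) -/
def SqvkAmb.V (h : SqvkAmb R ϖ y Ξ Fs e G) (i : ι) : ValuationSubring F :=
  haveI := h.data.isDedekindDomain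
  haveI := h.isFractionRing
  ((h.data.v i).valuation F).valuationSubring

theorem SqvkAmb.mem_V_iff (h : SqvkAmb R ϖ y Ξ Fs e G) (i : ι) (x : F) :
    haveI := h.data.isDedekindDomain
    haveI := h.isFractionRing
    x ∈ h.V i ↔ (h.data.v i).valuation F x ≤ 1 :=
  Iff.rfl

theorem SqvkAmb.mem_nonunits_V_iff (h : SqvkAmb R ϖ y Ξ Fs e G) (i : ι) (x : F) :
    haveI := h.data.isDedekindDomain
    haveI := h.isFractionRing
    x ∈ (h.V i).nonunits ↔ (h.data.v i).valuation F x < 1 :=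
  ssv_mem_nonunits_iff _ x

/-- the valuation of `V i` is equivalent to the `𝔐_i`-adic valuation -/
theorem SqvkAmb.isEquiv (h : SqvkAmb R ϖ y Ξ Fs e G) (i : ι) :
    haveI := h.data.isDedekindDomain
    haveI := h.isFractionRing
    ((h.data.v i).valuation F).IsEquiv (h.V i).valuation :=
  Valuation.isEquiv_valuation_valuationSubring _

/-- `R[y] = ⋂ V i` -/
theorem SqvkAmb.mem_adjoin_iff (h : SqvkAmb R ϖ y Ξ Fs e G) (x : F) :
    x ∈ Algebra.adjoin ↥R {y} ↔ ∀ i, x ∈ h.V i := by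
  haveI := h.data.isDedekindDomain
  haveI := h.isFractionRing
  have h1 := h.data.mem_range_iff F x
  constructor
  · intro hx
    exact h1.mp ⟨⟨x, hx⟩, rfl⟩
  · intro hx
    obtain ⟨z, rfl⟩ := h1.mpr hx
    exact z.2

theorem SqvkAmb.adjoin_le (h : SqvkAmb R ϖ y Ξ Fs e G) (i : ι) {x : F}
    (hx : x ∈ Algebra.adjoin ↥R {y}) : x ∈ h.V i :=
  (h.mem_adjoin_iff x).mp hx i

theorem SqvkAmb.coe_mem (h : SqvkAmb R ϖ y Ξ Fs e G) (i : ι) (r : ↥R) : (r : F) ∈ h.V i :=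
  h.adjoin_le i (Subalgebra.algebraMap_mem (Algebra.adjoin ↥R {y}) r)

theorem SqvkAmb.aeval_mem_V (h : SqvkAmb R ϖ y Ξ Fs e G) (i : ι) (g : (↥R)[X]) :
    aeval y g ∈ h.V i :=
  h.adjoin_le i (by rw [Algebra.adjoin_singleton_eq_range_aeval]; exact ⟨g, rfl⟩)

/-- `Fs i (y) ∈ 𝔪_{V i}` -/
theorem SqvkAmb.aeval_mem (h : SqvkAmb R ϖ y Ξ Fs e G) (i : ι) :
    aeval y (Fs i) ∈ (h.V i).nonunits := by
  haveI := h.data.isDedekindDomain
  haveI := h.isFractionRing
  rw [h.mem_nonunits_V_iff, ← ssv_coe_aeval_gen]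
  exact ((h.data.side i).valuation_lt_one_iff F _).mpr (sqvk_aeval_mem _ _ _)

/-- `ϖ ∈ 𝔪_{V i}` -/
theorem SqvkAmb.unif_mem (h : SqvkAmb R ϖ y Ξ Fs e G) (i : ι) : (ϖ : F) ∈ (h.V i).nonunits := by
  haveI := h.data.isDedekindDomain
  haveI := h.isFractionRing
  rw [h.mem_nonunits_V_iff]
  exact ((h.data.side i).valuation_lt_one_iff F _).mpr (sqvk_unif_mem _ _ _)

/-- `Fs j (y)` is a unit of `V i` for `i ≠ j` -/
theorem SqvkAmb.aeval_unit (h : SqvkAmb R ϖ y Ξ Fs e G) {i j : ι} (hij : i ≠ j) :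
    (h.V i).valuation (aeval y (Fs j)) = 1 := by
  haveI := h.data.isDedekindDomain
  haveI := h.isFractionRing
  have h1 : (h.data.v i).valuation F (aeval y (Fs j)) = 1 := by
    rw [← ssv_coe_aeval_gen]
    refine le_antisymm (HeightOneSpectrum.valuation_le_one _ _) (not_lt.mp fun hlt => ?_)
    exact h.data.aeval_notMem hij (((h.data.side i).valuation_lt_one_iff F _).mp hlt)
  exact ((h.isEquiv i).eq_one_iff_eq_one).mp h1

/-- **separation** : `Fs i (y)` lies in every `V k`, in `𝔪_{V i}`, and is a unit of `V j`, `j ≠ i` -/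
theorem SqvkAmb.sep (h : SqvkAmb R ϖ y Ξ Fs e G) {i j : ι} (hij : i ≠ j) :
    (∀ k, aeval y (Fs i) ∈ h.V k) ∧ aeval y (Fs i) ∈ (h.V i).nonunits ∧
      (h.V j).valuation (aeval y (Fs i)) = 1 :=
  ⟨fun k => h.aeval_mem_V k _, h.aeval_mem i, h.aeval_unit hij.symm⟩

/-- the `V i` are pairwise distinct -/
theorem SqvkAmb.V_injective (h : SqvkAmb R ϖ y Ξ Fs e G) : Function.Injective h.V := by
  intro i j hij
  by_contra hne
  have h1 := h.aeval_mem i
  rw [hij, ValuationSubring.mem_nonunits_iff, h.aeval_unit (Ne.symm hne)] at h1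
  exact lt_irrefl _ h1

/-- **a uniformiser `π ∈ {ϖ, Fs i (y)}` of `V i` with `v_i(π) ^ e i = v_i(ϖ)`** -/
theorem SqvkAmb.exists_unif (h : SqvkAmb R ϖ y Ξ Fs e G) (i : ι) :
    ∃ π : F, (π = (ϖ : F) ∨ π = aeval y (Fs i)) ∧ S18IsUnif (h.V i) π ∧
      (h.V i).valuation π ^ e i = (h.V i).valuation (ϖ : F) := by
  haveI := h.data.isDedekindDomain
  haveI := h.isFractionRing
  obtain ⟨π₀, hπ₀, hv, hpow⟩ := (h.data.side i).exists_unif
  have hv' : (h.data.v i).valuation F ((π₀ : ↥(Algebra.adjoin ↥R {y})) : F) = exp (-1 : ℤ) :=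
    (HeightOneSpectrum.valuation_of_algebraMap (K := F) (h.data.v i) π₀).trans hv
  have hexp : (exp (-1 : ℤ) : ℤᵐ⁰) < 1 := by
    rw [← exp_zero, exp_lt_exp]; norm_num
  refine ⟨(π₀ : F), ?_, ⟨?_, fun x hx => ?_⟩, ?_⟩
  · rcases hπ₀ with rfl | rfl
    · left; rfl
    · right; exact ssv_coe_aeval_gen _
  · rw [← (h.isEquiv i).lt_one_iff_lt_one, hv']
    exact hexp
  · rw [← (h.isEquiv i).le_iff_le, hv']
    rw [← (h.isEquiv i).lt_one_iff_lt_one] at hx
    have h3 : (1 : ℤᵐ⁰) = exp (-1 : ℤ) * exp 1 := by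
      rw [← exp_add]; norm_num
    rw [h3] at hx
    exact (lt_mul_exp_iff_le (exp_ne_zero)).mp hx
  · rw [← map_pow, ← (h.isEquiv i).eq_iff, map_pow]
    have h1 := HeightOneSpectrum.valuation_of_algebraMap (K := F) (h.data.v i) π₀
    have h2 := HeightOneSpectrum.valuation_of_algebraMap (K := F) (h.data.v i)
      (algebraMap ↥R ↥(Algebra.adjoin ↥R {y}) ϖ)
    have h3 : (h.data.v i).valuation F ((π₀ : ↥(Algebra.adjoin ↥R {y})) : F) =
        (h.data.v i).intValuation π₀ := h1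
    have h4 : (h.data.v i).valuation F ((ϖ : ↥R) : F) =
        (h.data.v i).intValuation (algebraMap ↥R ↥(Algebra.adjoin ↥R {y}) ϖ) := h2
    rw [h3, h4]
    exact hpow

/-- **every valuation ring of `F` containing `R` in which `ϖ` is a non-unit is one of the `V i`** -/
theorem SqvkAmb.cases (h : SqvkAmb R ϖ y Ξ Fs e G) (V : ValuationSubring F)
    (hR : ∀ r : ↥R, (r : F) ∈ V) (hϖ : (ϖ : F) ∈ V.nonunits) : ∃ i, V = h.V i := by
  haveI := h.data.isDedekindDomain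
  haveI := h.isFractionRing
  exact h.data.valuationSubring_cases F V hR hϖ

/-- uniqueness : a valuation ring containing `R` in which `ϖ` and `Fs i (y)` are non-units is
`V i` -/
theorem SqvkAmb.eq_V (h : SqvkAmb R ϖ y Ξ Fs e G) (V : ValuationSubring F)
    (hR : ∀ r : ↥R, (r : F) ∈ V) (hϖ : (ϖ : F) ∈ V.nonunits) (i : ι)
    (hF : aeval y (Fs i) ∈ V.nonunits) : V = h.V i := by
  obtain ⟨j, rfl⟩ := h.cases V hR hϖ
  by_cases hij : j = i
  · rw [hij]
  · exfalso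
    rw [ValuationSubring.mem_nonunits_iff, h.aeval_unit hij] at hF
    exact lt_irrefl _ hF

/-- `ϖ R[y] = {x : v_i x ≤ v_i ϖ ∀ i}` -/
theorem SqvkAmb.dvd_iff (h : SqvkAmb R ϖ y Ξ Fs e G) (x : F) :
    (∃ z ∈ Algebra.adjoin ↥R {y}, x = (ϖ : F) * z) ↔
      ∀ i, (h.V i).valuation x ≤ (h.V i).valuation (ϖ : F) := by
  haveI := h.data.isDedekindDomain
  haveI := h.isFractionRing
  have h1 := h.data.dvd_iff F x
  constructor
  · rintro ⟨z, hz, rfl⟩ i
    rw [map_mul]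
    exact mul_le_of_le_one_right' (((h.V i).valuation_le_one_iff _).mpr (h.adjoin_le i hz))
  · intro hx
    obtain ⟨z, hz⟩ := h1.mpr fun i => ((h.isEquiv i).le_iff_le).mpr (hx i)
    exact ⟨z, z.2, hz⟩

/-- `R[y]` is integrally closed in `F` -/
theorem SqvkAmb.mem_adjoin_of_isIntegral (h : SqvkAmb R ϖ y Ξ Fs e G) {x : F}
    (hx : IsIntegral ↥R x) : x ∈ Algebra.adjoin ↥R {y} := by
  haveI := h.data.isDedekindDomain
  haveI := h.isFractionRing
  obtain ⟨z, rfl⟩ := h.data.mem_range_of_isIntegral F hx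
  exact z.2

/-- every element of `R[y]` is integral over `R` -/
theorem SqvkAmb.isIntegral_of_mem_adjoin (h : SqvkAmb R ϖ y Ξ Fs e G) {x : F}
    (hx : x ∈ Algebra.adjoin ↥R {y}) : IsIntegral ↥R x := by
  have h1 : IsIntegral ↥R y := ⟨Ξ, h.monic, by rw [← aeval_def]; exact h.root⟩
  have h2 : Algebra.adjoin ↥R {y} ≤ integralClosure ↥R F :=
    Algebra.adjoin_le (Set.singleton_subset_iff.mpr h1)
  exact h2 hx

/-- `x` is integral over `R` iff it lies in every `V i` -/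
theorem SqvkAmb.isIntegral_iff (h : SqvkAmb R ϖ y Ξ Fs e G) (x : F) :
    IsIntegral ↥R x ↔ ∀ i, x ∈ h.V i :=
  ⟨fun hx => (h.mem_adjoin_iff x).mp (h.mem_adjoin_of_isIntegral hx),
    fun hx => h.isIntegral_of_mem_adjoin ((h.mem_adjoin_iff x).mpr hx)⟩

/-- the residue field of `V i` is generated by `R` and `y` : `κ(V i) = κ(R)[Y]/(F̄s i)` -/
theorem SqvkAmb.exists_sub_mem (h : SqvkAmb R ϖ y Ξ Fs e G) (i : ι) (hF : (Fs i).Monic) {x : F}
    (hx : x ∈ h.V i) :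
    ∃ g : (↥R)[X], g.degree < (Fs i).degree ∧ x - aeval y g ∈ (h.V i).nonunits := by
  haveI := h.data.isDedekindDomain
  haveI := h.isFractionRing
  obtain ⟨g, hg, hgx⟩ := (h.data.side i).exists_sub_lt F hF ((h.mem_V_iff i x).mp hx)
  refine ⟨g, hg, ?_⟩
  rw [h.mem_nonunits_V_iff, ← ssv_coe_aeval_gen]
  exact hgx

/-- if `Fs i` is monic of degree one then `κ(V i) = κ(R)` -/
theorem SqvkAmb.exists_const_sub_mem (h : SqvkAmb R ϖ y Ξ Fs e G) (i : ι) (hF : (Fs i).Monic)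
    (hdeg : (Fs i).natDegree = 1) {x : F} (hx : x ∈ h.V i) :
    ∃ r : ↥R, x - (r : F) ∈ (h.V i).nonunits := by
  haveI := h.data.isDedekindDomain
  haveI := h.isFractionRing
  obtain ⟨r, hr⟩ := (h.data.side i).exists_const_sub_lt F hF hdeg ((h.mem_V_iff i x).mp hx)
  refine ⟨r, ?_⟩
  rw [h.mem_nonunits_V_iff]
  exact hr

/-- `V i` lies over the valuation ring `R` : for `x ∈ Frac R ⊂ F` (a quotient of elements of `R`),
`x ∈ V i` iff `x ∈ R`; here in the form `V i ∩ R = R`, `𝔪_{V i} ∩ R = ϖ R`. -/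
theorem SqvkAmb.coe_mem_nonunits_iff (h : SqvkAmb R ϖ y Ξ Fs e G) (i : ι) (r : ↥R) :
    (r : F) ∈ (h.V i).nonunits ↔ ϖ ∣ r := by
  constructor
  · intro hr
    by_contra hnd
    have hu : IsUnit r := by
      by_contra hnu
      have h1 : r ∈ maximalIdeal ↥R := (mem_maximalIdeal r).mpr hnu
      rw [h.irr.maximalIdeal_eq, Ideal.mem_span_singleton] at h1
      exact hnd h1
    obtain ⟨u, rfl⟩ := hu
    have h2 : ((u : ↥R) : F) * (((u⁻¹ : (↥R)ˣ) : ↥R) : F) = 1 := by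
      rw [← Subring.coe_mul, Units.mul_inv, Subring.coe_one]
    have h3 := sqvk_mul_mem_nonunits (h.V i) (h.coe_mem i ((u⁻¹ : (↥R)ˣ) : ↥R)) hr
    rw [mul_comm, h2, ValuationSubring.mem_nonunits_iff, map_one] at h3
    exact lt_irrefl _ h3
  · rintro ⟨c, rfl⟩
    rw [Subring.coe_mul, mul_comm]
    exact sqvk_mul_mem_nonunits (h.V i) (h.coe_mem i c) (h.unif_mem i)

end Ambient

end Fermat.Agent.SQ
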