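import Mathlib
import Fermat.Agent.SS.Val.ModGauss
import Fermat.Agent.SQ.Val.GaussE

/-!
# Program Q (S36), leaf VAL² : one step of the tower, over an arbitrary discrete valuation ring of
the base field

`α : F₁ →+* F` a finite extension of fields, `W` a valuation subring of `F₁` which is a discrete
valuation ring (uniformiser `ϖ`), `R = α(W) ⊂ F`.  `y ∈ F` a generator of `F / α(F₁)` whose minimal
polynomial `Ξ` has coefficients in `W` and `Ξ = ∏ Fs i ^ e i + ϖ G` with the `F̄s i` irreducible,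
pairwise coprime, and Dedekind's criterion.  Then `SqvkAmb R …` (`sqvs_amb`), hence the complete
list `V i` of the extensions of `W` to `F` with their ramification indices `e i`
(`sqvs_comap` : `(V i).comap α = W`; `sqvs_cases` : every extension of `W` is one of the `V i`).

Prefix `sqvs`.
-/

set_option autoImplicit false
set_option linter.unusedSectionVars false
set_option linter.unusedVariables false
set_option linter.style.haveILetI false
set_option linter.overlappingInstances false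

noncomputable section

namespace Fermat.Agent.SQ

open Polynomial IsLocalRing Fermat.Agent.S18 Fermat.Agent.SS

section Step

variable {F₁ F : Type*} [Field F₁] [Field F] (α : F₁ →+* F) (W : ValuationSubring F₁)

/-- the image of the valuation ring `W ⊂ F₁` in `F` -/
def sqvsR : Subring F := W.toSubring.map α

/-- `W ≃ α(W)` -/
def sqvsEquiv : ↥W ≃+* ↥(sqvsR α W) :=
  W.toSubring.equivMapOfInjective α α.injective

theorem sqvsEquiv_coe (x : ↥W) : ((sqvsEquiv α W x : ↥(sqvsR α W)) : F) = α (x : F₁) := rfl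

theorem mem_sqvsR {x : F} : x ∈ sqvsR α W ↔ ∃ x₀ : F₁, x₀ ∈ W ∧ α x₀ = x := by
  unfold sqvsR
  rw [Subring.mem_map]
  rfl

instance sqvsR_dvr [IsDiscreteValuationRing ↥W] : IsDiscreteValuationRing ↥(sqvsR α W) :=
  IsDiscreteValuationRing.RingEquivClass.isDiscreteValuationRing (sqvsEquiv α W)

/-- `α(W) → F₁` -/
def sqvsPsi : ↥(sqvsR α W) →+* F₁ :=
  W.subtype.comp (sqvsEquiv α W).symm.toRingHom

theorem sqvsPsi_spec (r : ↥(sqvsR α W)) : α (sqvsPsi α W r) = (r : F) := by
  have h1 := sqvsEquiv_coe α W ((sqvsEquiv α W).symm r)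
  rw [RingEquiv.apply_symm_apply] at h1
  exact h1.symm

theorem sqvsPsi_equiv (x : ↥W) : sqvsPsi α W (sqvsEquiv α W x) = (x : F₁) := by
  unfold sqvsPsi
  rw [RingHom.comp_apply]
  show W.subtype ((sqvsEquiv α W).symm (sqvsEquiv α W x)) = _
  rw [RingEquiv.symm_apply_apply]
  rfl

/-- `F₁ = Frac W` -/
theorem sqvs_frac (c : F₁) :
    ∃ a b : ↥(sqvsR α W), b ≠ 0 ∧ α c * (b : F) = (a : F) := by
  rcases W.mem_or_inv_mem c with hc | hc
  · refine ⟨sqvsEquiv α W ⟨c, hc⟩, 1, one_ne_zero, ?_⟩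
    rw [sqvsEquiv_coe]
    simp
  · by_cases hc0 : c = 0
    · refine ⟨0, 1, one_ne_zero, ?_⟩
      rw [hc0]
      simp
    · refine ⟨1, sqvsEquiv α W ⟨c⁻¹, hc⟩, ?_, ?_⟩
      · intro h0
        have h1 := (sqvsEquiv α W).injective (h0.trans (map_zero _).symm)
        exact inv_ne_zero hc0 (congrArg Subtype.val h1)
      · rw [sqvsEquiv_coe]
        show α c * α c⁻¹ = ((1 : ↥(sqvsR α W)) : F)
        rw [← map_mul, mul_inv_cancel₀ hc0, map_one]
        rfl

variable [IsDiscreteValuationRing ↥W]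

/-- the residue fields of `W` and of `α(W)` -/
theorem sqvs_map_residue (p : (↥W)[X]) :
    (p.map (sqvsEquiv α W).toRingHom).map (residue ↥(sqvsR α W)) =
      (p.map (residue ↥W)).map
        (ResidueField.mapEquiv (sqvsEquiv α W)).toRingHom := by
  rw [Polynomial.map_map, Polynomial.map_map]
  congr 1

theorem sqvs_irreducible_map {p : (↥W)[X]} (hp : Irreducible (p.map (residue ↥W))) :
    Irreducible ((p.map (sqvsEquiv α W).toRingHom).map (residue ↥(sqvsR α W))) := by
  rw [sqvs_map_residue]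
  exact (MulEquiv.irreducible_iff
    (Polynomial.mapEquiv (ResidueField.mapEquiv (sqvsEquiv α W))).toMulEquiv).mpr hp

theorem sqvs_isCoprime_map {p p' : (↥W)[X]}
    (hp : IsCoprime (p.map (residue ↥W)) (p'.map (residue ↥W))) :
    IsCoprime ((p.map (sqvsEquiv α W).toRingHom).map (residue ↥(sqvsR α W)))
      ((p'.map (sqvsEquiv α W).toRingHom).map (residue ↥(sqvsR α W))) := by
  rw [sqvs_map_residue, sqvs_map_residue]
  exact hp.map (mapRingHom (ResidueField.mapEquiv (sqvsEquiv α W)).toRingHom)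

variable {ι : Type*} [Fintype ι] [DecidableEq ι]

/-- **one step of the tower** : the Dedekind–Kummer package with exponents for `R = α(W)` and a
generator `y` of `F / α(F₁)` whose (irreducible) minimal polynomial `Ξ ∈ W[Y]` factors as
`∏ Fs i ^ e i` modulo `ϖ`. -/
theorem sqvs_amb {ϖ : ↥W} (hϖ : Irreducible ϖ) (y : F) (Ξ : (↥W)[X]) (hmonic : Ξ.Monic)
    (hroot : eval₂ α y (Ξ.map W.subtype) = 0)
    (hirr : Irreducible (Ξ.map W.subtype))
    (hgen : ∀ x : F, ∃ p : F₁[X], eval₂ α y p = x)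
    (Fs : ι → (↥W)[X]) (e : ι → ℕ) (G : (↥W)[X])
    (hfac : Ξ = ∏ i, Fs i ^ e i + C ϖ * G) (epos : ∀ i, 0 < e i)
    (irrF : ∀ i, Irreducible ((Fs i).map (residue ↥W)))
    (cop : ∀ i j, i ≠ j → IsCoprime ((Fs i).map (residue ↥W)) ((Fs j).map (residue ↥W)))
    (ded : ∀ i, e i = 1 ∨ IsCoprime ((Fs i).map (residue ↥W)) (G.map (residue ↥W))) :
    SqvkAmb (sqvsR α W) (sqvsEquiv α W ϖ) y (Ξ.map (sqvsEquiv α W).toRingHom)
      (fun i => (Fs i).map (sqvsEquiv α W).toRingHom) e (G.map (sqvsEquiv α W).toRingHom) := by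
  have hKmonic : (Ξ.map W.subtype).Monic := hmonic.map _
  -- minimality
  have hmin : ∀ g : F₁[X], eval₂ α y g = 0 → Ξ.map W.subtype ∣ g := by
    intro g hg
    by_contra hnd
    obtain ⟨a, b, hab⟩ := (hirr.coprime_iff_not_dvd.mpr hnd)
    have h1 := congrArg (eval₂ α y) hab
    rw [eval₂_add, eval₂_mul, eval₂_mul, hroot, hg, mul_zero, mul_zero, add_zero, eval₂_one] at h1
    exact zero_ne_one h1
  have hΞψ : (Ξ.map (sqvsEquiv α W).toRingHom).map (sqvsPsi α W) = Ξ.map W.subtype := by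
    rw [Polynomial.map_map]
    congr 1
    exact RingHom.ext fun x => sqvsPsi_equiv α W x
  obtain ⟨hroot', hker⟩ := ssvmg_ker_of_minpoly (sqvsR α W) α (sqvsPsi α W) (sqvsPsi_spec α W) y
    (Ξ.map W.subtype) hroot hmin (Ξ.map (sqvsEquiv α W).toRingHom) (hmonic.map _) hΞψ
  exact
    { irr := (MulEquiv.irreducible_iff (sqvsEquiv α W).toMulEquiv).mpr hϖ
      monic := hmonic.map _
      root := hroot'
      ker := hker
      fac := by
        rw [hfac, Polynomial.map_add, Polynomial.map_mul, Polynomial.map_prod, map_C]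
        simp only [Polynomial.map_pow]
        rfl
      epos := epos
      irrF := fun i => sqvs_irreducible_map α W (irrF i)
      cop := fun i j hij => sqvs_isCoprime_map α W (cop i j hij)
      ded := fun i => (ded i).imp id fun hc => sqvs_isCoprime_map α W hc
      gen := ssvmg_gen_of_adjoin (sqvsR α W) α (sqvs_frac α W) y hgen }

variable [Nonempty ι] {ϖ : ↥W} {y : F} {Ξ : (↥(sqvsR α W))[X]} {Fs : ι → (↥(sqvsR α W))[X]}
  {e : ι → ℕ} {G : (↥(sqvsR α W))[X]}

/-- **positions** : every `V i` lies over `W` -/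
theorem sqvs_comap (h : SqvkAmb (sqvsR α W) (sqvsEquiv α W ϖ) y Ξ Fs e G) (i : ι) :
    (h.V i).comap α = W := by
  have hle : W ≤ (h.V i).comap α := by
    intro x hx
    exact h.coe_mem i (sqvsEquiv α W ⟨x, hx⟩)
  have htop : (h.V i).comap α ≠ ⊤ := by
    intro htop
    have h1 : ((ϖ : F₁))⁻¹ ∈ (h.V i).comap α := by rw [htop]; exact ValuationSubring.mem_top _
    have h2 : (α (ϖ : F₁))⁻¹ ∈ h.V i := by
      have := (ValuationSubring.mem_comap).mp h1
      rwa [map_inv₀] at this
    have h3 : α (ϖ : F₁) ∈ (h.V i).nonunits := h.unif_mem i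
    have hϖ0 : α (ϖ : F₁) ≠ 0 := by
      intro h0
      have := h.irr.ne_zero
      apply this
      apply Subtype.ext
      exact h0
    have h4 := sqvk_mul_mem_nonunits (h.V i) h2 h3
    rw [inv_mul_cancel₀ hϖ0, ValuationSubring.mem_nonunits_iff, map_one] at h4
    exact lt_irrefl _ h4
  exact (ValuationSubring.eq_of_le_of_ne_top W hle htop).symm

/-- **completeness** : every valuation ring of `F` lying over `W` is one of the `V i` -/
theorem sqvs_cases (h : SqvkAmb (sqvsR α W) (sqvsEquiv α W ϖ) y Ξ Fs e G)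
    (V : ValuationSubring F) (hV : V.comap α = W) : ∃ i, V = h.V i := by
  refine h.cases V (fun r => ?_) ?_
  · obtain ⟨x₀, hx₀, hx₀r⟩ := (mem_sqvsR α W).mp r.2
    rw [← hx₀r]
    have : x₀ ∈ V.comap α := hV ▸ hx₀
    exact this
  · -- `ϖ` is a non-unit of `V`
    have h1 : (ϖ : F₁) ∈ V.comap α := hV ▸ ϖ.2
    have h2 : ((ϖ : F₁))⁻¹ ∉ V.comap α := by
      rw [hV]
      intro h3
      have h4 : IsUnit ϖ := by
        refine ⟨⟨ϖ, ⟨(ϖ : F₁)⁻¹, h3⟩, ?_, ?_⟩, rfl⟩
        · apply Subtype.ext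
          show (ϖ : F₁) * (ϖ : F₁)⁻¹ = 1
          exact mul_inv_cancel₀ (fun h0 => h.irr.ne_zero (Subtype.ext (by
            show α (ϖ : F₁) = 0
            rw [h0, map_zero])))
        · apply Subtype.ext
          show (ϖ : F₁)⁻¹ * (ϖ : F₁) = 1
          exact inv_mul_cancel₀ (fun h0 => h.irr.ne_zero (Subtype.ext (by
            show α (ϖ : F₁) = 0
            rw [h0, map_zero])))
      have h5 : Irreducible ϖ :=
        (MulEquiv.irreducible_iff (sqvsEquiv α W).toMulEquiv).mp h.irr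
      exact h5.not_isUnit h4
    show α (ϖ : F₁) ∈ V.nonunits
    rw [ValuationSubring.mem_nonunits_iff]
    have h3 : V.valuation (α (ϖ : F₁)) ≤ 1 := (V.valuation_le_one_iff _).mpr h1
    refine lt_of_le_of_ne h3 fun h4 => h2 ?_
    show α ((ϖ : F₁))⁻¹ ∈ V
    rw [map_inv₀, ← V.valuation_le_one_iff, map_inv₀, h4, inv_one]

end Step

end Fermat.Agent.SQ
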