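import Mathlib
import Fermat.Agent.SS.Val.ModALRes
import Fermat.Agent.SQ.Val.ModTwo
import Fermat.Agent.SQ.Val.Step
import Fermat.Agent.SQ.Val.Theta

/-!
# Program Q (S36), leaf VAL² (V-C), part 3 : the second step of the tower at field level

`F₁ = F_E(M q) ⊂ F₂ = F_E(M q q)`, `α = ssvmdIncl E (M q) q`, `j_q ∈ F₁`, `j_qq ∈ F₂`.
`Ψ₁ = Φ(j_q, Y) ∈ F₁[Y]`, `Ξ₁ = Ψ₁ /ₘ (Y - j)`.

Prefix `sqvm`.
-/

set_option autoImplicit false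
set_option linter.unusedSectionVars false
set_option linter.unusedVariables false
set_option linter.style.haveILetI false
set_option linter.overlappingInstances false
set_option synthInstance.maxHeartbeats 400000

noncomputable section

namespace Fermat.Agent.SQ

open Polynomial ModularCurve AlgebraicCurve IsLocalRing IntermediateField Fermat.Agent.S24
  Fermat.Agent.G Fermat.Agent.S18 Fermat.Agent.SS

local notation "Qb" => AlgebraicClosure ℚ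

/-- a prime is nonzero (local instance, proof-irrelevant) -/
theorem sqvm_neZero (q : ℕ) [Fact q.Prime] : NeZero q := ⟨(Fact.out : q.Prime).ne_zero⟩

attribute [local instance] sqvm_neZero

section Elements

variable (K : Type*) [Field K] (M q : ℕ) [NeZero M] [NeZero q]

/-- `j(𝐪^{q²})` as an element of `F_K(M q q)` -/
def sqvmY : modularFunctionFieldFullC K (M * q * q) :=
  ⟨qExpand K (q * q) (jqModC K), jqModCd_mem_full K (M * q * q) ⟨M, by ring⟩⟩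

theorem sqvmY_coe : ((sqvmY K M q : modularFunctionFieldFullC K (M * q * q)) : LaurentSeries K) =
    qExpand K (q * q) (jqModC K) := rfl

/-- `j(𝐪^q)` as an element of `F_K(M q q)` -/
def sqvmJq : modularFunctionFieldFullC K (M * q * q) :=
  ⟨qExpand K q (jqModC K), jqModCd_mem_full K (M * q * q) (dvd_mul_left q (M * q))⟩

theorem sqvmJq_coe : ((sqvmJq K M q : modularFunctionFieldFullC K (M * q * q)) : LaurentSeries K) =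
    qExpand K q (jqModC K) := rfl

theorem sqvm_incl_Y : ssvmdIncl K (M * q) q (ssvmmY K M q) = sqvmJq K M q :=
  Subtype.ext (ssvmdIncl_coe K (M * q) q _)

theorem sqvm_incl_J : ssvmdIncl K (M * q) q (ssvmdJ K (M * q)) = ssvmdJ K (M * q * q) :=
  Subtype.ext (ssvmdIncl_coe K (M * q) q _)

end Elements

section Field

variable {q : ℕ} [Fact q.Prime] (𝔸 : ValuationSubring Qb) (E : IntermediateField ℚ Qb)
variable (M : ℕ) [NeZero M]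

/-- `p ↦ p(j_q)`, `A₀[X] → F_E(M q)` -/
def sqvmEvqF : (↥(s18dVal 𝔸 E))[X] →+* ↥(modularFunctionFieldFullC E (M * q)) :=
  (aeval (R := ↥(s18dVal 𝔸 E)) (ssvmmY E M q)).toRingHom

theorem sqvmEvqF_apply (p : (↥(s18dVal 𝔸 E))[X]) :
    sqvmEvqF 𝔸 E M p = aeval (ssvmmY E M q) p := rfl

theorem sqvm_val_evqF :
    ((modularFunctionFieldFullC E (M * q)).val.toRingHom).comp (sqvmEvqF (q := q) 𝔸 E M) =
      (s18vIncl ↥(s18dVal 𝔸 E) E).comp (sqvmEvq ↥(s18dVal 𝔸 E) q) := by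
  apply Polynomial.ringHom_ext
  · intro a
    rw [RingHom.comp_apply, RingHom.comp_apply, sqvmEvq_C, ssvmc_coeffMap_algebraMap]
    simp only [sqvmEvqF, AlgHom.toRingHom_eq_coe, RingHom.coe_coe, aeval_C]
    exact s18v_coe_algebraMap (modularFunctionFieldFullC E (M * q)) a
  · rw [RingHom.comp_apply, RingHom.comp_apply, sqvmEvq_X, ModularCurve.coeffMap_qExpand,
      coeffMap_jqModC]
    simp only [sqvmEvqF, AlgHom.toRingHom_eq_coe, RingHom.coe_coe, aeval_X]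
    rfl

/-- `Ψ₁ = Φ(j_q, Y) ∈ F_E(M q)[Y]` -/
def sqvmPsi (Φ : (↥(s18dVal 𝔸 E))[X][X]) : (↥(modularFunctionFieldFullC E (M * q)))[X] :=
  Φ.map (sqvmEvqF (q := q) 𝔸 E M)

/-- `Φ(j_q, j) = 0` in `F_E(M q)` -/
theorem sqvm_psi_root_j (Φ : (↥(s18dVal 𝔸 E))[X][X])
    (hrj : (Φ.map (sqvmEvq ↥(s18dVal 𝔸 E) q)).eval (jqModC ↥(s18dVal 𝔸 E)) = 0) :
    (sqvmPsi 𝔸 E M Φ).IsRoot (ssvmdJ E (M * q)) := by
  rw [IsRoot.def]
  apply (modularFunctionFieldFullC E (M * q)).val.toRingHom.injective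
  rw [map_zero, sqvmPsi, Polynomial.eval_map, Polynomial.hom_eval₂, sqvm_val_evqF]
  have hy : (modularFunctionFieldFullC E (M * q)).val.toRingHom (ssvmdJ E (M * q)) =
      s18vIncl ↥(s18dVal 𝔸 E) E (jqModC ↥(s18dVal 𝔸 E)) := by
    rw [coeffMap_jqModC]
    rfl
  rw [hy, ← Polynomial.hom_eval₂, ← Polynomial.eval_map, hrj, map_zero]

/-- `Φ(j_q, j_qq) = 0` in `F_E(M q q)` -/
theorem sqvm_psi_root_qq (Φ : (↥(s18dVal 𝔸 E))[X][X])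
    (hrq : (Φ.map (sqvmEvq ↥(s18dVal 𝔸 E) q)).eval
      (qExpand ↥(s18dVal 𝔸 E) (q * q) (jqModC ↥(s18dVal 𝔸 E))) = 0) :
    eval₂ (ssvmdIncl E (M * q) q).toRingHom (sqvmY E M q) (sqvmPsi 𝔸 E M Φ) = 0 := by
  apply (modularFunctionFieldFullC E (M * q * q)).val.toRingHom.injective
  rw [map_zero, sqvmPsi, Polynomial.eval₂_map, Polynomial.hom_eval₂]
  have hc : ((modularFunctionFieldFullC E (M * q * q)).val.toRingHom.comp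
      ((ssvmdIncl E (M * q) q).toRingHom.comp (sqvmEvqF (q := q) 𝔸 E M))) =
      (s18vIncl ↥(s18dVal 𝔸 E) E).comp (sqvmEvq ↥(s18dVal 𝔸 E) q) := by
    rw [← sqvm_val_evqF 𝔸 E M]
    rfl
  rw [hc]
  have hy : (modularFunctionFieldFullC E (M * q * q)).val.toRingHom (sqvmY E M q) =
      s18vIncl ↥(s18dVal 𝔸 E) E
        (qExpand ↥(s18dVal 𝔸 E) (q * q) (jqModC ↥(s18dVal 𝔸 E))) := by
    rw [ModularCurve.coeffMap_qExpand, coeffMap_jqModC]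
    rfl
  rw [hy, ← Polynomial.hom_eval₂, ← Polynomial.eval_map, hrq, map_zero]

/-- `j_qq ≠ j` -/
theorem sqvm_Y_ne_J : sqvmY E M q ≠ ssvmdJ E (M * q * q) := by
  have hq : q.Prime := Fact.out
  intro h
  have h1 := congrArg (fun z : modularFunctionFieldFullC E (M * q * q) =>
    HahnSeries.coeff (z : LaurentSeries E) (-1 : ℤ)) h
  simp only [sqvmY_coe] at h1
  have h2 : ((ssvmdJ E (M * q * q) : modularFunctionFieldFullC E (M * q * q)) :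
      LaurentSeries E) = jqModC E := rfl
  rw [h2, coeff_jqModC_neg_one] at h1
  have h3 : (qExpand E (q * q) (jqModC E)).coeff (-1 : ℤ) = 0 := by
    apply qExpand_coeff_of_not_dvd
    rintro ⟨c, hc⟩
    have h3 : ((q * q : ℕ) : ℤ) ∣ 1 := ⟨-c, by linarith⟩
    have h4 := Int.eq_one_of_dvd_one (by positivity) h3
    have h5 : q * q = 1 := by exact_mod_cast h4
    have h6 : q = 1 := Nat.eq_one_of_mul_eq_one_right h5
    exact hq.one_lt.ne' h6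
  rw [h3] at h1
  exact zero_ne_one h1

/-- `Ξ₁ = Φ(j_q, Y) /ₘ (Y - j) ∈ F_E(M q)[Y]` -/
def sqvmXi (Φ : (↥(s18dVal 𝔸 E))[X][X]) : (↥(modularFunctionFieldFullC E (M * q)))[X] :=
  sqvmPsi (q := q) 𝔸 E M Φ /ₘ (X - C (ssvmdJ E (M * q)))

theorem sqvm_psi_eq_mul (Φ : (↥(s18dVal 𝔸 E))[X][X])
    (hrj : (Φ.map (sqvmEvq ↥(s18dVal 𝔸 E) q)).eval (jqModC ↥(s18dVal 𝔸 E)) = 0) :
    (X - C (ssvmdJ E (M * q))) * sqvmXi (q := q) 𝔸 E M Φ = sqvmPsi 𝔸 E M Φ :=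
  mul_divByMonic_eq_iff_isRoot.mpr (sqvm_psi_root_j 𝔸 E M Φ hrj)

/-- `Ξ₁(j_qq) = 0` -/
theorem sqvm_xi_root (Φ : (↥(s18dVal 𝔸 E))[X][X])
    (hrj : (Φ.map (sqvmEvq ↥(s18dVal 𝔸 E) q)).eval (jqModC ↥(s18dVal 𝔸 E)) = 0)
    (hrq : (Φ.map (sqvmEvq ↥(s18dVal 𝔸 E) q)).eval
      (qExpand ↥(s18dVal 𝔸 E) (q * q) (jqModC ↥(s18dVal 𝔸 E))) = 0) :
    eval₂ (ssvmdIncl E (M * q) q).toRingHom (sqvmY E M q) (sqvmXi (q := q) 𝔸 E M Φ) = 0 := by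
  have h1 := sqvm_psi_root_qq 𝔸 E M Φ hrq
  rw [← sqvm_psi_eq_mul 𝔸 E M Φ hrj, eval₂_mul, eval₂_sub, eval₂_X, eval₂_C] at h1
  rcases mul_eq_zero.mp h1 with h2 | h2
  · exfalso
    apply sqvm_Y_ne_J E M (q := q)
    rw [← sub_eq_zero, ← h2]
    congr 1
  · exact h2

theorem sqvm_psi_monic (Φ : (↥(s18dVal 𝔸 E))[X][X]) (hΦ : Φ.Monic) :
    (sqvmPsi (q := q) 𝔸 E M Φ).Monic := hΦ.map _

theorem sqvm_psi_natDegree (Φ : (↥(s18dVal 𝔸 E))[X][X]) (hΦ : Φ.Monic)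
    (hd : Φ.natDegree = q + 1) : (sqvmPsi (q := q) 𝔸 E M Φ).natDegree = q + 1 := by
  rw [sqvmPsi, hΦ.natDegree_map, hd]

theorem sqvm_xi_monic (Φ : (↥(s18dVal 𝔸 E))[X][X]) (hΦ : Φ.Monic)
    (hrj : (Φ.map (sqvmEvq ↥(s18dVal 𝔸 E) q)).eval (jqModC ↥(s18dVal 𝔸 E)) = 0) :
    (sqvmXi (q := q) 𝔸 E M Φ).Monic := by
  refine Monic.of_mul_monic_left (monic_X_sub_C (ssvmdJ E (M * q))) ?_
  rw [sqvm_psi_eq_mul 𝔸 E M Φ hrj]
  exact sqvm_psi_monic 𝔸 E M Φ hΦ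

theorem sqvm_xi_natDegree (Φ : (↥(s18dVal 𝔸 E))[X][X]) (hΦ : Φ.Monic)
    (hd : Φ.natDegree = q + 1) : (sqvmXi (q := q) 𝔸 E M Φ).natDegree = q := by
  rw [sqvmXi, natDegree_divByMonic _ (monic_X_sub_C _), natDegree_X_sub_C,
    sqvm_psi_natDegree 𝔸 E M Φ hΦ hd, Nat.add_sub_cancel]

end Field

/-! ### Integral structure over a valuation ring `W ∋ j, j_q` of `F_E(M q)` -/

section W

variable {q : ℕ} [Fact q.Prime] (𝔸 : ValuationSubring Qb) (E : IntermediateField ℚ Qb)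
variable (M : ℕ) [NeZero M]
variable (W : ValuationSubring ↥(modularFunctionFieldFullC E (M * q)))
variable (hA : ∀ a : ↥(s18dVal 𝔸 E),
  algebraMap ↥(s18dVal 𝔸 E) ↥(modularFunctionFieldFullC E (M * q)) a ∈ W)
variable (hj : ssvmdJ E (M * q) ∈ W) (hjq : ssvmmY E M q ∈ W)

/-- `A₀ → W` -/
def sqvmIotaW : ↥(s18dVal 𝔸 E) →+* ↥W :=
  (algebraMap ↥(s18dVal 𝔸 E) ↥(modularFunctionFieldFullC E (M * q))).codRestrict W hA

theorem sqvmIotaW_coe (a : ↥(s18dVal 𝔸 E)) : ((sqvmIotaW 𝔸 E M W hA a : ↥W) :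
    ↥(modularFunctionFieldFullC E (M * q))) =
      algebraMap ↥(s18dVal 𝔸 E) ↥(modularFunctionFieldFullC E (M * q)) a := rfl

/-- `p ↦ p(j_q)`, `A₀[X] → W` -/
def sqvmEvW : (↥(s18dVal 𝔸 E))[X] →+* ↥W :=
  eval₂RingHom (sqvmIotaW 𝔸 E M W hA) ⟨ssvmmY E M q, hjq⟩

theorem sqvmEvW_X : sqvmEvW 𝔸 E M W hA hjq X = ⟨ssvmmY E M q, hjq⟩ := by
  simp [sqvmEvW]

theorem sqvmEvW_C (a : ↥(s18dVal 𝔸 E)) :
    sqvmEvW 𝔸 E M W hA hjq (C a) = sqvmIotaW 𝔸 E M W hA a := by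
  simp [sqvmEvW]

theorem sqvm_subtype_evW :
    W.subtype.comp (sqvmEvW 𝔸 E M W hA hjq) = sqvmEvqF (q := q) 𝔸 E M := by
  apply Polynomial.ringHom_ext
  · intro a
    rw [RingHom.comp_apply, sqvmEvW_C]
    simp only [sqvmEvqF, AlgHom.toRingHom_eq_coe, RingHom.coe_coe, aeval_C]
    rfl
  · rw [RingHom.comp_apply, sqvmEvW_X]
    simp only [sqvmEvqF, AlgHom.toRingHom_eq_coe, RingHom.coe_coe, aeval_X]
    rfl

/-- `Ψ_W = Φ(j_q, Y) ∈ W[Y]` -/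
def sqvmPsiW (Φ : (↥(s18dVal 𝔸 E))[X][X]) : (↥W)[X] := Φ.map (sqvmEvW 𝔸 E M W hA hjq)

/-- `Ξ_W = Φ(j_q, Y) /ₘ (Y - j) ∈ W[Y]` -/
def sqvmXiW (Φ : (↥(s18dVal 𝔸 E))[X][X]) : (↥W)[X] :=
  sqvmPsiW 𝔸 E M W hA hjq Φ /ₘ (X - C ⟨ssvmdJ E (M * q), hj⟩)

theorem sqvm_psiW_map (Φ : (↥(s18dVal 𝔸 E))[X][X]) :
    (sqvmPsiW 𝔸 E M W hA hjq Φ).map W.subtype = sqvmPsi 𝔸 E M Φ := by
  rw [sqvmPsiW, Polynomial.map_map, sqvm_subtype_evW, sqvmPsi]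

theorem sqvm_xiW_map (Φ : (↥(s18dVal 𝔸 E))[X][X]) :
    (sqvmXiW 𝔸 E M W hA hj hjq Φ).map W.subtype = sqvmXi 𝔸 E M Φ := by
  rw [sqvmXiW, map_divByMonic _ (monic_X_sub_C _), sqvm_psiW_map, Polynomial.map_sub, map_X,
    map_C, sqvmXi]
  rfl

theorem sqvm_psiW_monic (Φ : (↥(s18dVal 𝔸 E))[X][X]) (hΦ : Φ.Monic) :
    (sqvmPsiW 𝔸 E M W hA hjq Φ).Monic := hΦ.map _

theorem sqvm_psiW_root (Φ : (↥(s18dVal 𝔸 E))[X][X])
    (hrj : (Φ.map (sqvmEvq ↥(s18dVal 𝔸 E) q)).eval (jqModC ↥(s18dVal 𝔸 E)) = 0) :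
    (sqvmPsiW 𝔸 E M W hA hjq Φ).IsRoot ⟨ssvmdJ E (M * q), hj⟩ := by
  rw [IsRoot.def]
  apply Subtype.val_injective
  show W.subtype _ = W.subtype 0
  rw [map_zero, ← Polynomial.eval₂_hom, ← Polynomial.eval_map, sqvm_psiW_map]
  exact sqvm_psi_root_j 𝔸 E M Φ hrj

theorem sqvm_psiW_eq_mul (Φ : (↥(s18dVal 𝔸 E))[X][X])
    (hrj : (Φ.map (sqvmEvq ↥(s18dVal 𝔸 E) q)).eval (jqModC ↥(s18dVal 𝔸 E)) = 0) :
    (X - C (⟨ssvmdJ E (M * q), hj⟩ : ↥W)) * sqvmXiW 𝔸 E M W hA hj hjq Φ =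
      sqvmPsiW 𝔸 E M W hA hjq Φ :=
  mul_divByMonic_eq_iff_isRoot.mpr (sqvm_psiW_root 𝔸 E M W hA hj hjq Φ hrj)

theorem sqvm_xiW_monic (Φ : (↥(s18dVal 𝔸 E))[X][X]) (hΦ : Φ.Monic)
    (hrj : (Φ.map (sqvmEvq ↥(s18dVal 𝔸 E) q)).eval (jqModC ↥(s18dVal 𝔸 E)) = 0) :
    (sqvmXiW 𝔸 E M W hA hj hjq Φ).Monic := by
  refine Monic.of_mul_monic_left (monic_X_sub_C (⟨ssvmdJ E (M * q), hj⟩ : ↥W)) ?_
  rw [sqvm_psiW_eq_mul 𝔸 E M W hA hj hjq Φ hrj]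
  exact sqvm_psiW_monic 𝔸 E M W hA hjq Φ hΦ

/-- Kronecker's identity for `Ψ_W` -/
theorem sqvm_psiW_kron {ϖ : ↥(s18dVal 𝔸 E)} (Φ Φ' : (↥(s18dVal 𝔸 E))[X][X])
    (h : Φ = (X - C (X ^ q)) * (X ^ q - C X) + C (C ϖ) * Φ') :
    sqvmPsiW 𝔸 E M W hA hjq Φ =
      (X - C ((⟨ssvmmY E M q, hjq⟩ : ↥W) ^ q)) * (X ^ q - C (⟨ssvmmY E M q, hjq⟩ : ↥W)) +
        C (sqvmIotaW 𝔸 E M W hA ϖ) * Φ'.map (sqvmEvW 𝔸 E M W hA hjq) := by
  rw [sqvmPsiW, sqvm_kron_map (sqvmEvW 𝔸 E M W hA hjq) q Φ Φ' h, sqvmEvW_X, sqvmEvW_C]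

end W

end Fermat.Agent.SQ
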