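import Mathlib
import Fermat.Agent.SQ.Val.ModTwoField

/-!
# Program Q (S36), leaf VAL² (V-C), part 4 : generic lemmas on discrete valuation subrings and the
two ambient packages

* `sqvm_dvr_heightOne` : the valuation ring of a height-one prime of a Dedekind domain is a DVR;
* `sqvm_irreducible_of_unif`, `sqvm_disc` : a uniformiser (`S18IsUnif`) of a DVR valuation subring
  is irreducible; discreteness `v x = v π ^ m`;
* `sqvm_dvr₁/₂`, `sqvm_isUnif₁/₂` : the two valuation rings of `SsvAmb` are DVRs with uniformiser `ϖ`;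
* `sqvm_dvrE`, `sqvm_isUnif_of_one`, `sqvm_isUnif_of_coprime` : the valuation rings of `SqvkAmb`
  are DVRs, with uniformiser `ϖ` (`e i = 1`) or `Fs i (y)` (Dedekind's criterion), and
  `v_i(Fs i (y)) ^ e i = v_i(ϖ)`.

Prefix `sqvm`.
-/

set_option autoImplicit false
set_option linter.unusedSectionVars false
set_option linter.unusedVariables false
set_option linter.style.haveILetI false
set_option linter.overlappingInstances false

noncomputable section

namespace Fermat.Agent.SQ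

open Polynomial IsLocalRing IsDedekindDomain WithZero Fermat.Agent.S18 Fermat.Agent.SS

section Generic

/-- the valuation ring of a height-one prime of a Dedekind domain is a discrete valuation ring -/
theorem sqvm_dvr_heightOne {S K : Type*} [CommRing S] [IsDedekindDomain S] [Field K] [Algebra S K]
    [IsFractionRing S K] (v : HeightOneSpectrum S) :
    IsDiscreteValuationRing ↥(v.valuation K).valuationSubring := by
  have h := HeightOneSpectrum.valuationSubringAtPrime_eq_valuationSubring (K := K) v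
  have inst : IsDiscreteValuationRing ↥(HeightOneSpectrum.valuationSubringAtPrime K v) :=
    IsLocalization.AtPrime.isDiscreteValuationRing_of_dedekind_domain S v.ne_bot _
  exact h ▸ inst

variable {K : Type*} [Field K]

/-- `x / π ∈ W` for every non-unit `x`, if `π` is a uniformiser -/
theorem sqvm_div_mem_of_unif {W : ValuationSubring K} {π : K} (hπ : S18IsUnif W π) (hπ0 : π ≠ 0)
    {x : K} (hx : x ∈ W.nonunits) : x / π ∈ W := by
  rw [← W.valuation_le_one_iff, map_div₀]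
  have h1 := hπ.2 x ((W.mem_nonunits_iff).mp hx)
  have hv : W.valuation π ≠ 0 := (Valuation.ne_zero_iff _).mpr hπ0
  exact (div_le_one₀ (zero_lt_iff.mpr hv)).mpr h1

/-- a uniformiser (in the sense "divides every non-unit") of a discrete valuation subring is
irreducible -/
theorem sqvm_irreducible_of_dvd (W : ValuationSubring K) [IsDiscreteValuationRing ↥W] {π : K}
    (hπ : π ∈ W.nonunits) (hπ0 : π ≠ 0) (hdvd : ∀ x ∈ W.nonunits, x / π ∈ W) :
    Irreducible (⟨π, W.nonunits_le hπ⟩ : ↥W) := by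
  rw [IsDiscreteValuationRing.irreducible_iff_uniformizer]
  apply le_antisymm
  · intro x hx
    rw [Ideal.mem_span_singleton]
    have hx' : (x : K) ∈ W.nonunits := (W.coe_mem_nonunits_iff).mpr hx
    refine ⟨⟨(x : K) / π, hdvd _ hx'⟩, Subtype.ext ?_⟩
    show (x : K) = π * ((x : K) / π)
    rw [mul_div_cancel₀ _ hπ0]
  · rw [Ideal.span_singleton_le_iff_mem]
    exact (W.coe_mem_nonunits_iff).mp hπ

theorem sqvm_irreducible_of_unif (W : ValuationSubring K) [IsDiscreteValuationRing ↥W] {π : K}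
    (hπ : S18IsUnif W π) (hπ0 : π ≠ 0) :
    Irreducible (⟨π, W.nonunits_le ((W.mem_nonunits_iff).mpr hπ.1)⟩ : ↥W) :=
  sqvm_irreducible_of_dvd W ((W.mem_nonunits_iff).mpr hπ.1) hπ0
    fun x hx => sqvm_div_mem_of_unif hπ hπ0 hx

/-- discreteness of a discrete valuation subring with respect to a uniformiser -/
theorem sqvm_disc (W : ValuationSubring K) [IsDiscreteValuationRing ↥W] {π : K}
    (hπ : S18IsUnif W π) (hπ0 : π ≠ 0) (x : K) (hx : x ≠ 0) :
    ∃ m : ℤ, W.valuation x = W.valuation π ^ m := by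
  have hirr := sqvm_irreducible_of_unif W hπ hπ0
  have key : ∀ z : K, z ≠ 0 → z ∈ W → ∃ n : ℕ, W.valuation z = W.valuation π ^ n := by
    intro z hz0 hz
    have hz0' : (⟨z, hz⟩ : ↥W) ≠ 0 := fun h0 => hz0 (congrArg Subtype.val h0)
    obtain ⟨n, u, hu⟩ := IsDiscreteValuationRing.eq_unit_mul_pow_irreducible hz0' hirr
    refine ⟨n, ?_⟩
    have h1 : z = ((u : ↥W) : K) * π ^ n := by
      have := congrArg Subtype.val hu
      simpa using this
    rw [h1, map_mul, map_pow, W.valuation_unit u, one_mul]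
  rcases W.mem_or_inv_mem x with h | h
  · obtain ⟨n, hn⟩ := key x hx h
    exact ⟨n, by rw [hn, zpow_natCast]⟩
  · obtain ⟨n, hn⟩ := key x⁻¹ (inv_ne_zero hx) h
    refine ⟨-(n : ℤ), ?_⟩
    rw [map_inv₀] at hn
    rw [zpow_neg, zpow_natCast, ← hn, inv_inv]

end Generic

section Amb2

variable {F : Type*} [Field F] {R : Subring F} [IsDiscreteValuationRing ↥R]
variable {ϖ : ↥R} {y : F} {Ξ F₁ F₂ G : (↥R)[X]}

theorem sqvm_dvr₁ (h : SsvAmb R ϖ y Ξ F₁ F₂ G) : IsDiscreteValuationRing ↥h.V₁ := by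
  haveI := h.data.isDedekindDomain
  haveI := h.isFractionRing
  exact sqvm_dvr_heightOne h.data.v₁

theorem sqvm_dvr₂ (h : SsvAmb R ϖ y Ξ F₁ F₂ G) : IsDiscreteValuationRing ↥h.V₂ :=
  sqvm_dvr₁ h.symm

theorem sqvm_unif_ne_zero (h : SsvAmb R ϖ y Ξ F₁ F₂ G) : (ϖ : F) ≠ 0 := fun h0 =>
  h.irr.ne_zero (Subtype.ext h0)

theorem sqvm_isUnif₁ (h : SsvAmb R ϖ y Ξ F₁ F₂ G) : S18IsUnif h.V₁ (ϖ : F) := by
  refine ⟨(h.V₁.mem_nonunits_iff).mp h.unif_mem₁, fun x hx => ?_⟩
  have h1 := h.unif_dvd₁ ((h.V₁.mem_nonunits_iff).mpr hx)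
  rw [← h.V₁.valuation_le_one_iff, map_div₀] at h1
  have hv : h.V₁.valuation (ϖ : F) ≠ 0 := (Valuation.ne_zero_iff _).mpr (sqvm_unif_ne_zero h)
  exact (div_le_one₀ (zero_lt_iff.mpr hv)).mp h1

theorem sqvm_isUnif₂ (h : SsvAmb R ϖ y Ξ F₁ F₂ G) : S18IsUnif h.V₂ (ϖ : F) :=
  sqvm_isUnif₁ h.symm

end Amb2

section AmbE

variable {F : Type*} [Field F] {R : Subring F} [IsDiscreteValuationRing ↥R]
variable {ι : Type*} [Fintype ι] [DecidableEq ι] [Nonempty ι]
variable {ϖ : ↥R} {y : F} {Ξ : (↥R)[X]} {Fs : ι → (↥R)[X]} {e : ι → ℕ} {G : (↥R)[X]}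

theorem sqvm_dvrE (h : SqvkAmb R ϖ y Ξ Fs e G) (i : ι) : IsDiscreteValuationRing ↥(h.V i) := by
  haveI := h.data.isDedekindDomain
  haveI := h.isFractionRing
  exact sqvm_dvr_heightOne (h.data.v i)

theorem sqvm_unif_ne_zeroE (h : SqvkAmb R ϖ y Ξ Fs e G) : (ϖ : F) ≠ 0 := fun h0 =>
  h.irr.ne_zero (Subtype.ext h0)

/-- a generator of valuation `exp (-1)` is a uniformiser -/
theorem sqvm_isUnif_of_exp (h : SqvkAmb R ϖ y Ξ Fs e G) (i : ι) (π : F)
    (hv : haveI := h.data.isDedekindDomain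
      haveI := h.isFractionRing
      (h.data.v i).valuation F π = exp (-1 : ℤ)) : S18IsUnif (h.V i) π := by
  haveI := h.data.isDedekindDomain
  haveI := h.isFractionRing
  have hexp : (exp (-1 : ℤ) : ℤᵐ⁰) < 1 := by
    rw [← exp_zero, exp_lt_exp]; norm_num
  refine ⟨?_, fun x hx => ?_⟩
  · rw [← (h.isEquiv i).lt_one_iff_lt_one, hv]
    exact hexp
  · rw [← (h.isEquiv i).le_iff_le, hv]
    rw [← (h.isEquiv i).lt_one_iff_lt_one] at hx
    have h3 : (1 : ℤᵐ⁰) = exp (-1 : ℤ) * exp 1 := by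
      rw [← exp_add]; norm_num
    rw [h3] at hx
    exact (lt_mul_exp_iff_le (exp_ne_zero)).mp hx

/-- `e i = 1` : `ϖ` is a uniformiser of `V i` -/
theorem sqvm_isUnif_of_one (h : SqvkAmb R ϖ y Ξ Fs e G) (i : ι) (he : e i = 1) :
    S18IsUnif (h.V i) (ϖ : F) := by
  haveI := h.data.isDedekindDomain
  haveI := h.isFractionRing
  refine sqvm_isUnif_of_exp h i _ ?_
  have h2 := HeightOneSpectrum.valuation_of_algebraMap (K := F) (h.data.v i)
    (algebraMap ↥R ↥(Algebra.adjoin ↥R {y}) ϖ)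
  have h4 : (h.data.v i).valuation F ((ϖ : ↥R) : F) =
      (h.data.v i).intValuation (algebraMap ↥R ↥(Algebra.adjoin ↥R {y}) ϖ) := h2
  rw [h4]
  exact (h.data.side i).intValuation_unif_of_one he

/-- Dedekind's criterion at `i` : `Fs i (y)` is a uniformiser of `V i`, and
`v_i(Fs i (y)) ^ e i = v_i(ϖ)` -/
theorem sqvm_isUnif_of_coprime (h : SqvkAmb R ϖ y Ξ Fs e G) (i : ι)
    (hc : IsCoprime ((Fs i).map (residue ↥R)) (G.map (residue ↥R))) :
    S18IsUnif (h.V i) (aeval y (Fs i)) ∧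
      (h.V i).valuation (aeval y (Fs i)) ^ e i = (h.V i).valuation (ϖ : F) := by
  haveI := h.data.isDedekindDomain
  haveI := h.isFractionRing
  have h1 := HeightOneSpectrum.valuation_of_algebraMap (K := F) (h.data.v i)
    (aeval (ssvGen R y) (Fs i))
  have h3 : (h.data.v i).valuation F (aeval y (Fs i)) =
      (h.data.v i).intValuation (aeval (ssvGen R y) (Fs i)) := by
    rw [← ssv_coe_aeval_gen]
    exact h1
  have h2 := HeightOneSpectrum.valuation_of_algebraMap (K := F) (h.data.v i)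
    (algebraMap ↥R ↥(Algebra.adjoin ↥R {y}) ϖ)
  have h4 : (h.data.v i).valuation F ((ϖ : ↥R) : F) =
      (h.data.v i).intValuation (algebraMap ↥R ↥(Algebra.adjoin ↥R {y}) ϖ) := h2
  refine ⟨sqvm_isUnif_of_exp h i _ ?_, ?_⟩
  · rw [h3]
    exact (h.data.side i).intValuation_aeval hc
  · rw [← map_pow, ← (h.isEquiv i).eq_iff, map_pow, h3, h4]
    exact ((h.data.side i).intValuation_unif_eq_pow hc).symm

end AmbE

end Fermat.Agent.SQ
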