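import Mathlib
import Fermat.Agent.SQ.Val.ModTwoGen

/-!
# Program Q (S36), leaf VAL² (V-C), part 5 : the second step of the tower over a discrete valuation
subring `W ∋ j, j_q` of `F_E(M q)`

* `sqvm_inert_fac` : `Ξ_W ≡ Y^q - j_q mod ϖ` if `j_q^q ≡ j mod 𝔪_W`;
* `sqvm_split_fac` : `Ξ_W ≡ (Y - j_q^q)(Y - j)^(q-1) mod ϖ` if `j_q ≡ j^q mod 𝔪_W`;
* `sqvm_xi_irreducible` : `Ξ₁` is irreducible over `F_E(M q)` (from the inert step).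

Prefix `sqvm`.
-/

set_option autoImplicit false
set_option linter.unusedSectionVars false
set_option linter.unusedVariables false
set_option linter.style.haveILetI false
set_option linter.overlappingInstances false
set_option synthInstance.maxHeartbeats 400000

noncomputable section

namespace Fermat.Agent.SQ

open Polynomial ModularCurve AlgebraicCurve IsLocalRing IntermediateField Fermat.Agent.S24
  Fermat.Agent.G Fermat.Agent.S18 Fermat.Agent.SS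

local notation "Qb" => AlgebraicClosure ℚ

attribute [local instance] sqvm_neZero

section StepW

variable {q : ℕ} [Fact q.Prime] (𝔸 : ValuationSubring Qb) (E : IntermediateField ℚ Qb)
  [IsDiscreteValuationRing ↥(s18dVal 𝔸 E)] [CharZero ↥(s18dVal 𝔸 E)]
variable (M : ℕ) [NeZero M]
variable (W : ValuationSubring ↥(modularFunctionFieldFullC E (M * q))) [IsDiscreteValuationRing ↥W]
variable (hA : ∀ a : ↥(s18dVal 𝔸 E),
  algebraMap ↥(s18dVal 𝔸 E) ↥(modularFunctionFieldFullC E (M * q)) a ∈ W)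
variable (hj : ssvmdJ E (M * q) ∈ W) (hjq : ssvmmY E M q ∈ W)
variable {ϖ : ↥(s18dVal 𝔸 E)}

/-- `ϖ` is irreducible in `W` -/
theorem sqvm_iota_irreducible
    (hunif : S18IsUnif W (algebraMap ↥(s18dVal 𝔸 E) ↥(modularFunctionFieldFullC E (M * q)) ϖ))
    (hϖ0 : algebraMap ↥(s18dVal 𝔸 E) ↥(modularFunctionFieldFullC E (M * q)) ϖ ≠ 0) :
    Irreducible (sqvmIotaW 𝔸 E M W hA ϖ) :=
  sqvm_irreducible_of_unif W hunif hϖ0

include hA in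
/-- `q ∈ 𝔪_W` -/
theorem sqvm_natCast_mem (hAq : 𝔸.LiesOverPrime q) (hϖ : Irreducible ϖ)
    (hunif : S18IsUnif W (algebraMap ↥(s18dVal 𝔸 E) ↥(modularFunctionFieldFullC E (M * q)) ϖ)) :
    ((q : ℕ) : ↥W) ∈ maximalIdeal ↥W := by
  have h1 := s18d_natCast_mem 𝔸 E hAq
  rw [hϖ.maximalIdeal_eq, Ideal.mem_span_singleton] at h1
  obtain ⟨c, hc⟩ := h1
  rw [← W.coe_mem_nonunits_iff]
  have h2 : ((((q : ℕ) : ↥W) : ↥W) : ↥(modularFunctionFieldFullC E (M * q))) =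
      algebraMap ↥(s18dVal 𝔸 E) ↥(modularFunctionFieldFullC E (M * q)) ϖ *
        algebraMap ↥(s18dVal 𝔸 E) ↥(modularFunctionFieldFullC E (M * q)) c := by
    rw [← map_mul, ← hc, map_natCast]
    simp
  rw [h2, mul_comm (algebraMap ↥(s18dVal 𝔸 E) ↥(modularFunctionFieldFullC E (M * q)) ϖ) _]
  exact sqvk_mul_mem_nonunits W (hA c) ((W.mem_nonunits_iff).mpr hunif.1)

/-- **the inert step** : `Ξ_W ≡ Y^q - j_q mod ϖ` if `j_q^q ≡ j` -/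
theorem sqvm_inert_fac (hAq : 𝔸.LiesOverPrime q) (hϖ : Irreducible ϖ)
    (hunif : S18IsUnif W (algebraMap ↥(s18dVal 𝔸 E) ↥(modularFunctionFieldFullC E (M * q)) ϖ))
    (hϖ0 : algebraMap ↥(s18dVal 𝔸 E) ↥(modularFunctionFieldFullC E (M * q)) ϖ ≠ 0)
    (Φ Φ' : (↥(s18dVal 𝔸 E))[X][X])
    (hkr : Φ = (X - C (X ^ q)) * (X ^ q - C X) + C (C ϖ) * Φ')
    (hrj : (Φ.map (sqvmEvq ↥(s18dVal 𝔸 E) q)).eval (jqModC ↥(s18dVal 𝔸 E)) = 0)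
    (hcong : ssvmmY E M q ^ q - ssvmdJ E (M * q) ∈ W.nonunits) :
    ∃ G : (↥W)[X], sqvmXiW 𝔸 E M W hA hj hjq Φ =
      (X ^ q - C (⟨ssvmmY E M q, hjq⟩ : ↥W)) + C (sqvmIotaW 𝔸 E M W hA ϖ) * G := by
  have hirr := sqvm_iota_irreducible 𝔸 E M W hA hunif hϖ0
  have hc : (⟨ssvmmY E M q, hjq⟩ : ↥W) ^ q - ⟨ssvmdJ E (M * q), hj⟩ ∈ maximalIdeal ↥W :=
    (W.coe_mem_nonunits_iff).mp hcong
  exact sqvm_step₂ hirr (sqvm_natCast_mem 𝔸 E M W hA hAq hϖ hunif)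
    (sqvmPsiW 𝔸 E M W hA hjq Φ) (Φ'.map (sqvmEvW 𝔸 E M W hA hjq)) ⟨ssvmdJ E (M * q), hj⟩
    ⟨ssvmmY E M q, hjq⟩ (sqvm_psiW_kron 𝔸 E M W hA hjq Φ Φ' hkr)
    (sqvm_psiW_root 𝔸 E M W hA hj hjq Φ hrj) hc

/-- **the split step** : `Ξ_W ≡ (Y - j_q^q)(Y - j)^(q-1) mod ϖ` if `j_q ≡ j^q` -/
theorem sqvm_split_fac (hAq : 𝔸.LiesOverPrime q) (hϖ : Irreducible ϖ)
    (hunif : S18IsUnif W (algebraMap ↥(s18dVal 𝔸 E) ↥(modularFunctionFieldFullC E (M * q)) ϖ))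
    (hϖ0 : algebraMap ↥(s18dVal 𝔸 E) ↥(modularFunctionFieldFullC E (M * q)) ϖ ≠ 0)
    (Φ Φ' : (↥(s18dVal 𝔸 E))[X][X])
    (hkr : Φ = (X - C (X ^ q)) * (X ^ q - C X) + C (C ϖ) * Φ')
    (hrj : (Φ.map (sqvmEvq ↥(s18dVal 𝔸 E) q)).eval (jqModC ↥(s18dVal 𝔸 E)) = 0)
    (hcong : ssvmmY E M q - ssvmdJ E (M * q) ^ q ∈ W.nonunits) :
    ∃ G : (↥W)[X], sqvmXiW 𝔸 E M W hA hj hjq Φ =
      (X - C ((⟨ssvmmY E M q, hjq⟩ : ↥W) ^ q)) * (X - C (⟨ssvmdJ E (M * q), hj⟩ : ↥W)) ^ (q - 1) +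
        C (sqvmIotaW 𝔸 E M W hA ϖ) * G := by
  have hirr := sqvm_iota_irreducible 𝔸 E M W hA hunif hϖ0
  have hc : (⟨ssvmmY E M q, hjq⟩ : ↥W) - ⟨ssvmdJ E (M * q), hj⟩ ^ q ∈ maximalIdeal ↥W :=
    (W.coe_mem_nonunits_iff).mp hcong
  exact sqvm_step₁ hirr (sqvm_natCast_mem 𝔸 E M W hA hAq hϖ hunif)
    (sqvmPsiW 𝔸 E M W hA hjq Φ) (Φ'.map (sqvmEvW 𝔸 E M W hA hjq)) ⟨ssvmdJ E (M * q), hj⟩
    ⟨ssvmmY E M q, hjq⟩ (sqvm_psiW_kron 𝔸 E M W hA hjq Φ Φ' hkr)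
    (sqvm_psiW_root 𝔸 E M W hA hj hjq Φ hrj) hc

set_option maxHeartbeats 1000000 in
/-- **irreducibility of `Ξ₁` over `F_E(M q)`** from the inert step -/
theorem sqvm_xi_irreducible (Φ : (↥(s18dVal 𝔸 E))[X][X]) (hΦ : Φ.Monic)
    (hrj : (Φ.map (sqvmEvq ↥(s18dVal 𝔸 E) q)).eval (jqModC ↥(s18dVal 𝔸 E)) = 0)
    {ϖW : ↥W} (hirr : Irreducible ϖW) (G : (↥W)[X])
    (hfac : sqvmXiW 𝔸 E M W hA hj hjq Φ = (X ^ q - C (⟨ssvmmY E M q, hjq⟩ : ↥W)) + C ϖW * G)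
    (hnp : ∀ b ∈ W, b ^ q - ssvmmY E M q ∉ W.nonunits) :
    Irreducible ((sqvmXiW 𝔸 E M W hA hj hjq Φ).map (residue ↥W)) ∧
      Irreducible (sqvmXi (q := q) 𝔸 E M Φ) := by
  have hq : q.Prime := Fact.out
  have hm := sqvm_xiW_monic 𝔸 E M W hA hj hjq Φ hΦ hrj
  have hred : (sqvmXiW 𝔸 E M W hA hj hjq Φ).map (residue ↥W) =
      X ^ q - C (residue ↥W ⟨ssvmmY E M q, hjq⟩) := by
    rw [hfac]
    simp only [Polynomial.map_add, Polynomial.map_mul, Polynomial.map_sub, Polynomial.map_pow,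
      map_X, map_C, sqvm_res_unif hirr, C_0, zero_mul, add_zero]
  have hirr_red : Irreducible ((sqvmXiW 𝔸 E M W hA hj hjq Φ).map (residue ↥W)) := by
    rw [hred]
    refine X_pow_sub_C_irreducible_of_prime hq fun b hb => ?_
    obtain ⟨b₀, rfl⟩ := residue_surjective b
    refine hnp (b₀ : ↥(modularFunctionFieldFullC E (M * q))) b₀.2 ?_
    have h0 : residue ↥W (b₀ ^ q - ⟨ssvmmY E M q, hjq⟩) = 0 := by
      rw [RingHom.map_sub, RingHom.map_pow, hb, sub_self]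
    have h1 : b₀ ^ q - ⟨ssvmmY E M q, hjq⟩ ∈ maximalIdeal ↥W := (residue_eq_zero_iff _).mp h0
    have h2 : ((b₀ ^ q - ⟨ssvmmY E M q, hjq⟩ : ↥W) : ↥(modularFunctionFieldFullC E (M * q))) ∈
        W.nonunits := (W.coe_mem_nonunits_iff).mpr h1
    exact h2
  refine ⟨hirr_red, ?_⟩
  have h1 : Irreducible (sqvmXiW 𝔸 E M W hA hj hjq Φ) :=
    hm.irreducible_of_irreducible_map (residue ↥W) _ hirr_red
  rw [← sqvm_xiW_map 𝔸 E M W hA hj hjq Φ]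
  exact (hm.irreducible_iff_irreducible_map_fraction_map
    (K := ↥(modularFunctionFieldFullC E (M * q)))).mp h1

end StepW

end Fermat.Agent.SQ
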