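import Mathlib
import Fermat.Agent.SQ.Val.ModTwoStep
import Fermat.Agent.SQ.Val.ModTwoDeg

/-!
# Program Q (S36), leaf VAL² (V-C), part 6 : the two Dedekind–Kummer packages of the second step

`α : F_E(M q) → F_E(M q q)`, `y = j_qq`, `W` a discrete valuation subring of `F_E(M q)` containing
`A₀`, `j`, `j_q`, with uniformiser `ϖ`.

* `sqvm_gen` : `F_E(M q q) = F_E(M q)[j_qq]` as soon as `Ξ₁` is irreducible;
* `sqvm_amb_inert` : if `j_q^q ≡ j mod 𝔪_W` and `j_q` is not a `q`-th power modulo `𝔪_W` then `Ξ₁` is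
  irreducible and `SqvkAmb (α W) … ![Y^q - j_q] ![1]` (index `Fin 1`);
* `sqvm_amb_split` : if `j_q ≡ j^q mod 𝔪_W`, `j_q^q - j ∈ Wˣ` and `Ψ'(j) = ϖ ·` unit then
  `SqvkAmb (α W) … ![Y - j_q^q, Y - j] ![1, q - 1]` (index `Fin 2`), with Dedekind's criterion
  `(Y - j̄, Ḡ) = 1`.

Prefix `sqvm`.
-/

set_option autoImplicit false
set_option linter.unusedSectionVars false
set_option linter.unusedVariables false
set_option linter.style.haveILetI false
set_option linter.overlappingInstances false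
set_option synthInstance.maxHeartbeats 400000

noncomputable section

namespace Fermat.Agent.SQ

open Polynomial ModularCurve AlgebraicCurve IsLocalRing IntermediateField Fermat.Agent.S24
  Fermat.Agent.G Fermat.Agent.S18 Fermat.Agent.SS

local notation "Qb" => AlgebraicClosure ℚ

attribute [local instance] sqvm_neZero

section Gen

variable {q : ℕ} [Fact q.Prime] (𝔸 : ValuationSubring Qb) (E : IntermediateField ℚ Qb)
variable (M : ℕ) [NeZero M]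

set_option maxHeartbeats 1000000 in
/-- **generation** : `F_E(M q q) = F_E(M q)[j_qq]` as soon as `Ξ₁` is irreducible -/
theorem sqvm_gen (hqM : ¬ q ∣ M) (Φ : (↥(s18dVal 𝔸 E))[X][X]) (hΦ : Φ.Monic)
    (hd : Φ.natDegree = q + 1)
    (hrj : (Φ.map (sqvmEvq ↥(s18dVal 𝔸 E) q)).eval (jqModC ↥(s18dVal 𝔸 E)) = 0)
    (hrq : (Φ.map (sqvmEvq ↥(s18dVal 𝔸 E) q)).eval
      (qExpand ↥(s18dVal 𝔸 E) (q * q) (jqModC ↥(s18dVal 𝔸 E))) = 0)
    (hirr : Irreducible (sqvmXi (q := q) 𝔸 E M Φ)) :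
    ∀ x : ↥(modularFunctionFieldFullC E (M * q * q)),
      ∃ p : (↥(modularFunctionFieldFullC E (M * q)))[X],
        eval₂ (ssvmdIncl E (M * q) q).toRingHom (sqvmY E M q) p = x := by
  have hq : q.Prime := Fact.out
  letI algE := algebraAlong (ssvmdIncl E (M * q) q)
  letI modE : Module (modularFunctionFieldFullC E (M * q))
      (modularFunctionFieldFullC E (M * q * q)) := algE.toModule
  have hfr : Module.finrank (modularFunctionFieldFullC E (M * q))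
      (modularFunctionFieldFullC E (M * q * q)) = q := sqvm_finrank E M hqM
  haveI hfd : FiniteDimensional (modularFunctionFieldFullC E (M * q))
      (modularFunctionFieldFullC E (M * q * q)) :=
    Module.finite_of_finrank_pos (by rw [hfr]; exact hq.pos)
  have hintE : IsIntegral (modularFunctionFieldFullC E (M * q)) (sqvmY E M q) :=
    IsIntegral.of_finite _ _
  have hroot : aeval (sqvmY E M q) (sqvmXi (q := q) 𝔸 E M Φ) = 0 :=
    sqvm_xi_root 𝔸 E M Φ hrj hrq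
  have hmin : sqvmXi (q := q) 𝔸 E M Φ =
      minpoly (modularFunctionFieldFullC E (M * q)) (sqvmY E M q) :=
    minpoly.eq_of_irreducible_of_monic hirr hroot (sqvm_xi_monic 𝔸 E M Φ hΦ hrj)
  have hdeg : (minpoly (modularFunctionFieldFullC E (M * q)) (sqvmY E M q)).natDegree = q := by
    rw [← hmin]
    exact sqvm_xi_natDegree 𝔸 E M Φ hΦ hd
  have htop : IntermediateField.adjoin (modularFunctionFieldFullC E (M * q)) {sqvmY E M q} = ⊤ :=
    (Field.primitive_element_iff_minpoly_natDegree_eq _ _).mpr (by rw [hdeg, hfr])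
  intro x
  have hx : x ∈ IntermediateField.adjoin (modularFunctionFieldFullC E (M * q)) {sqvmY E M q} :=
    htop ▸ IntermediateField.mem_top
  have hx' : x ∈ (IntermediateField.adjoin (modularFunctionFieldFullC E (M * q))
      {sqvmY E M q}).toSubalgebra := hx
  rw [IntermediateField.adjoin_simple_toSubalgebra_of_isAlgebraic hintE.isAlgebraic,
    Algebra.adjoin_singleton_eq_range_aeval] at hx'
  obtain ⟨p, hp⟩ := hx'
  exact ⟨p, hp⟩

end Gen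

section AmbW

variable {q : ℕ} [Fact q.Prime] (𝔸 : ValuationSubring Qb) (E : IntermediateField ℚ Qb)
  [IsDiscreteValuationRing ↥(s18dVal 𝔸 E)] [CharZero ↥(s18dVal 𝔸 E)]
variable (M : ℕ) [NeZero M]
variable (W : ValuationSubring ↥(modularFunctionFieldFullC E (M * q))) [IsDiscreteValuationRing ↥W]
variable (hA : ∀ a : ↥(s18dVal 𝔸 E),
  algebraMap ↥(s18dVal 𝔸 E) ↥(modularFunctionFieldFullC E (M * q)) a ∈ W)
variable (hj : ssvmdJ E (M * q) ∈ W) (hjq : ssvmmY E M q ∈ W)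
variable {ϖ : ↥(s18dVal 𝔸 E)}

set_option maxHeartbeats 1000000 in
/-- **the Dedekind–Kummer package of the inert step** -/
theorem sqvm_amb_inert (hAq : 𝔸.LiesOverPrime q) (hϖ : Irreducible ϖ)
    (hunif : S18IsUnif W (algebraMap ↥(s18dVal 𝔸 E) ↥(modularFunctionFieldFullC E (M * q)) ϖ))
    (hϖ0 : algebraMap ↥(s18dVal 𝔸 E) ↥(modularFunctionFieldFullC E (M * q)) ϖ ≠ 0)
    (Φ : (↥(s18dVal 𝔸 E))[X][X]) (hΦ : Φ.Monic)
    (hk : Φ.map (mapRingHom (residue ↥(s18dVal 𝔸 E))) = (X - C (X ^ q)) * (X ^ q - C X))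
    (hrj : (Φ.map (sqvmEvq ↥(s18dVal 𝔸 E) q)).eval (jqModC ↥(s18dVal 𝔸 E)) = 0)
    (hrq : (Φ.map (sqvmEvq ↥(s18dVal 𝔸 E) q)).eval
      (qExpand ↥(s18dVal 𝔸 E) (q * q) (jqModC ↥(s18dVal 𝔸 E))) = 0)
    (hgen : Irreducible (sqvmXi (q := q) 𝔸 E M Φ) →
      ∀ x : ↥(modularFunctionFieldFullC E (M * q * q)),
      ∃ p : (↥(modularFunctionFieldFullC E (M * q)))[X],
        eval₂ (ssvmdIncl E (M * q) q).toRingHom (sqvmY E M q) p = x)
    (hcong : ssvmmY E M q ^ q - ssvmdJ E (M * q) ∈ W.nonunits)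
    (hnp : ∀ b ∈ W, b ^ q - ssvmmY E M q ∉ W.nonunits) :
    Irreducible (sqvmXi (q := q) 𝔸 E M Φ) ∧ ∃ G : (↥W)[X],
      SqvkAmb (sqvsR (ssvmdIncl E (M * q) q).toRingHom W)
        (sqvsEquiv (ssvmdIncl E (M * q) q).toRingHom W (sqvmIotaW 𝔸 E M W hA ϖ)) (sqvmY E M q)
        ((sqvmXiW 𝔸 E M W hA hj hjq Φ).map (sqvsEquiv (ssvmdIncl E (M * q) q).toRingHom W).toRingHom)
        (fun i : Fin 1 => ((fun _ => X ^ q - C (⟨ssvmmY E M q, hjq⟩ : ↥W) : Fin 1 → (↥W)[X]) i).map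
          (sqvsEquiv (ssvmdIncl E (M * q) q).toRingHom W).toRingHom)
        (fun _ => 1) (G.map (sqvsEquiv (ssvmdIncl E (M * q) q).toRingHom W).toRingHom) := by
  have hq : q.Prime := Fact.out
  obtain ⟨Φ', hkr⟩ := sqvm_kron_lift hϖ q Φ hk
  obtain ⟨G, hG⟩ := sqvm_inert_fac 𝔸 E M W hA hj hjq hAq hϖ hunif hϖ0 Φ Φ' hkr hrj hcong
  have hirrW := sqvm_iota_irreducible 𝔸 E M W hA hunif hϖ0
  obtain ⟨hirr_red, hirr⟩ := sqvm_xi_irreducible 𝔸 E M W hA hj hjq Φ hΦ hrj hirrW G hG hnp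
  refine ⟨hirr, G, ?_⟩
  refine sqvs_amb (ssvmdIncl E (M * q) q).toRingHom W hirrW (sqvmY E M q)
    (sqvmXiW 𝔸 E M W hA hj hjq Φ) (sqvm_xiW_monic 𝔸 E M W hA hj hjq Φ hΦ hrj) ?_ ?_ (hgen hirr)
    (fun _ => X ^ q - C (⟨ssvmmY E M q, hjq⟩ : ↥W)) (fun _ => 1) G ?_ (fun _ => one_pos) ?_ ?_
    (fun _ => Or.inl rfl)
  · rw [sqvm_xiW_map]
    exact sqvm_xi_root 𝔸 E M Φ hrj hrq
  · rw [sqvm_xiW_map]
    exact hirr
  · rw [Fin.prod_univ_one, pow_one]
    exact hG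
  · intro _
    have h1 : (sqvmXiW 𝔸 E M W hA hj hjq Φ).map (residue ↥W) =
        (X ^ q - C (⟨ssvmmY E M q, hjq⟩ : ↥W)).map (residue ↥W) := by
      rw [hG]
      simp only [Polynomial.map_add, Polynomial.map_mul, Polynomial.map_sub, Polynomial.map_pow,
        map_X, map_C, sqvm_res_unif hirrW, C_0, zero_mul, add_zero]
    rw [← h1]
    exact hirr_red
  · intro i j hij
    exact absurd (Subsingleton.elim i j) hij

/-- the value of `Ψ_W'` at `j`, in `F_E(M q)` -/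
theorem sqvm_coe_derivative_eval (Φ : (↥(s18dVal 𝔸 E))[X][X]) :
    (((derivative (sqvmPsiW 𝔸 E M W hA hjq Φ)).eval ⟨ssvmdJ E (M * q), hj⟩ : ↥W) :
      ↥(modularFunctionFieldFullC E (M * q))) =
      (derivative (sqvmPsi (q := q) 𝔸 E M Φ)).eval (ssvmdJ E (M * q)) := by
  rw [← sqvm_psiW_map 𝔸 E M W hA hjq Φ, derivative_map]
  exact (eval_map_apply W.subtype (⟨ssvmdJ E (M * q), hj⟩ : ↥W)).symm

set_option maxHeartbeats 1000000 in
/-- **Dedekind's criterion at `Y - j`** in the split step -/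
theorem sqvm_split_coprime (Φ : (↥(s18dVal 𝔸 E))[X][X])
    (hrj : (Φ.map (sqvmEvq ↥(s18dVal 𝔸 E) q)).eval (jqModC ↥(s18dVal 𝔸 E)) = 0)
    {ϖW : ↥W} (hϖW0 : ϖW ≠ 0) (G : (↥W)[X])
    (hfac : sqvmXiW 𝔸 E M W hA hj hjq Φ =
      (X - C ((⟨ssvmmY E M q, hjq⟩ : ↥W) ^ q)) * (X - C (⟨ssvmdJ E (M * q), hj⟩ : ↥W)) ^ (q - 1) +
        C ϖW * G)
    (v : ↥(modularFunctionFieldFullC E (M * q))) (hv : v ∈ W) (hv' : v⁻¹ ∈ W) (hv0 : v ≠ 0)
    (hder : (derivative (sqvmPsi (q := q) 𝔸 E M Φ)).eval (ssvmdJ E (M * q)) =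
      (ϖW : ↥(modularFunctionFieldFullC E (M * q))) * v) :
    IsCoprime ((X - C (⟨ssvmdJ E (M * q), hj⟩ : ↥W)).map (residue ↥W)) (G.map (residue ↥W)) := by
  have hq : q.Prime := Fact.out
  have hq2 : q - 1 ≠ 0 := by have := hq.two_le; omega
  have h1 : (sqvmXiW 𝔸 E M W hA hj hjq Φ).eval ⟨ssvmdJ E (M * q), hj⟩ =
      ϖW * G.eval ⟨ssvmdJ E (M * q), hj⟩ := by
    rw [hfac]
    simp only [eval_add, eval_mul, eval_pow, eval_sub, eval_X, eval_C, sub_self, zero_pow hq2,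
      mul_zero, zero_add]
  have h2 : (sqvmXiW 𝔸 E M W hA hj hjq Φ).eval ⟨ssvmdJ E (M * q), hj⟩ =
      (derivative (sqvmPsiW 𝔸 E M W hA hjq Φ)).eval ⟨ssvmdJ E (M * q), hj⟩ :=
    sqvm_eval_div (sqvm_psiW_root 𝔸 E M W hA hj hjq Φ hrj)
  have h3 : ((G.eval ⟨ssvmdJ E (M * q), hj⟩ : ↥W) : ↥(modularFunctionFieldFullC E (M * q))) = v := by
    have h4 := congrArg (Subtype.val : ↥W → ↥(modularFunctionFieldFullC E (M * q))) (h1.symm.trans h2)
    rw [sqvm_coe_derivative_eval, hder] at h4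
    have hϖ0 : (ϖW : ↥(modularFunctionFieldFullC E (M * q))) ≠ 0 := fun h0 =>
      hϖW0 (Subtype.ext h0)
    exact mul_left_cancel₀ hϖ0 h4
  have hunit : IsUnit (G.eval ⟨ssvmdJ E (M * q), hj⟩) := by
    refine ⟨⟨G.eval ⟨ssvmdJ E (M * q), hj⟩, ⟨v⁻¹, hv'⟩, ?_, ?_⟩, rfl⟩
    · apply Subtype.ext
      show ((G.eval ⟨ssvmdJ E (M * q), hj⟩ : ↥W) : ↥(modularFunctionFieldFullC E (M * q))) * v⁻¹ = 1
      rw [h3, mul_inv_cancel₀ hv0]
    · apply Subtype.ext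
      show v⁻¹ * ((G.eval ⟨ssvmdJ E (M * q), hj⟩ : ↥W) : ↥(modularFunctionFieldFullC E (M * q))) = 1
      rw [h3, inv_mul_cancel₀ hv0]
  rw [Polynomial.map_sub, map_X, map_C]
  rw [(irreducible_X_sub_C _).coprime_iff_not_dvd, dvd_iff_isRoot, IsRoot.def, eval_map_apply]
  intro h0
  exact ((residue_eq_zero_iff _).mp h0) hunit

set_option maxHeartbeats 1000000 in
/-- **the Dedekind–Kummer package of the split step** -/
theorem sqvm_amb_split (hAq : 𝔸.LiesOverPrime q) (hϖ : Irreducible ϖ)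
    (hunif : S18IsUnif W (algebraMap ↥(s18dVal 𝔸 E) ↥(modularFunctionFieldFullC E (M * q)) ϖ))
    (hϖ0 : algebraMap ↥(s18dVal 𝔸 E) ↥(modularFunctionFieldFullC E (M * q)) ϖ ≠ 0)
    (Φ : (↥(s18dVal 𝔸 E))[X][X]) (hΦ : Φ.Monic)
    (hk : Φ.map (mapRingHom (residue ↥(s18dVal 𝔸 E))) = (X - C (X ^ q)) * (X ^ q - C X))
    (hrj : (Φ.map (sqvmEvq ↥(s18dVal 𝔸 E) q)).eval (jqModC ↥(s18dVal 𝔸 E)) = 0)
    (hrq : (Φ.map (sqvmEvq ↥(s18dVal 𝔸 E) q)).eval
      (qExpand ↥(s18dVal 𝔸 E) (q * q) (jqModC ↥(s18dVal 𝔸 E))) = 0)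
    (hirr : Irreducible (sqvmXi (q := q) 𝔸 E M Φ))
    (hgen : ∀ x : ↥(modularFunctionFieldFullC E (M * q * q)),
      ∃ p : (↥(modularFunctionFieldFullC E (M * q)))[X],
        eval₂ (ssvmdIncl E (M * q) q).toRingHom (sqvmY E M q) p = x)
    (hcong : ssvmmY E M q - ssvmdJ E (M * q) ^ q ∈ W.nonunits)
    (hunit : ssvmmY E M q ^ q - ssvmdJ E (M * q) ∉ W.nonunits)
    (v : ↥(modularFunctionFieldFullC E (M * q))) (hv : v ∈ W) (hv' : v⁻¹ ∈ W) (hv0 : v ≠ 0)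
    (hder : (derivative (sqvmPsi (q := q) 𝔸 E M Φ)).eval (ssvmdJ E (M * q)) =
      algebraMap ↥(s18dVal 𝔸 E) ↥(modularFunctionFieldFullC E (M * q)) ϖ * v) :
    ∃ G : (↥W)[X],
      SqvkAmb (sqvsR (ssvmdIncl E (M * q) q).toRingHom W)
        (sqvsEquiv (ssvmdIncl E (M * q) q).toRingHom W (sqvmIotaW 𝔸 E M W hA ϖ)) (sqvmY E M q)
        ((sqvmXiW 𝔸 E M W hA hj hjq Φ).map (sqvsEquiv (ssvmdIncl E (M * q) q).toRingHom W).toRingHom)
        (fun i : Fin 2 => ((![X - C ((⟨ssvmmY E M q, hjq⟩ : ↥W) ^ q),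
          X - C (⟨ssvmdJ E (M * q), hj⟩ : ↥W)] : Fin 2 → (↥W)[X]) i).map
          (sqvsEquiv (ssvmdIncl E (M * q) q).toRingHom W).toRingHom)
        ![1, q - 1] (G.map (sqvsEquiv (ssvmdIncl E (M * q) q).toRingHom W).toRingHom) ∧
      IsCoprime ((X - C (⟨ssvmdJ E (M * q), hj⟩ : ↥W)).map (residue ↥W)) (G.map (residue ↥W)) := by
  have hq : q.Prime := Fact.out
  have hq1 : 0 < q - 1 := by have := hq.two_le; omega
  obtain ⟨Φ', hkr⟩ := sqvm_kron_lift hϖ q Φ hk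
  obtain ⟨G, hG⟩ := sqvm_split_fac 𝔸 E M W hA hj hjq hAq hϖ hunif hϖ0 Φ Φ' hkr hrj hcong
  have hirrW := sqvm_iota_irreducible 𝔸 E M W hA hunif hϖ0
  have hcop := sqvm_split_coprime 𝔸 E M W hA hj hjq Φ hrj hirrW.ne_zero G hG v hv hv' hv0 hder
  -- the two linear factors are coprime modulo `𝔪_W`
  have hcop01 : IsCoprime ((X - C ((⟨ssvmmY E M q, hjq⟩ : ↥W) ^ q)).map (residue ↥W))
      ((X - C (⟨ssvmdJ E (M * q), hj⟩ : ↥W)).map (residue ↥W)) := by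
    simp only [Polynomial.map_sub, Polynomial.map_X, Polynomial.map_C]
    apply isCoprime_X_sub_C_of_isUnit_sub
    rw [← RingHom.map_sub, isUnit_iff_ne_zero]
    intro h0
    apply hunit
    have h1 := (residue_eq_zero_iff _).mp h0
    exact (W.coe_mem_nonunits_iff).mpr h1
  refine ⟨G, ?_, hcop⟩
  refine sqvs_amb (ssvmdIncl E (M * q) q).toRingHom W hirrW (sqvmY E M q)
    (sqvmXiW 𝔸 E M W hA hj hjq Φ) (sqvm_xiW_monic 𝔸 E M W hA hj hjq Φ hΦ hrj) ?_ ?_ hgen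
    ![X - C ((⟨ssvmmY E M q, hjq⟩ : ↥W) ^ q), X - C (⟨ssvmdJ E (M * q), hj⟩ : ↥W)]
    ![1, q - 1] G ?_ ?_ ?_ ?_ ?_
  · rw [sqvm_xiW_map]
    exact sqvm_xi_root 𝔸 E M Φ hrj hrq
  · rw [sqvm_xiW_map]
    exact hirr
  · rw [Fin.prod_univ_two]
    simp only [Matrix.cons_val_zero, Matrix.cons_val_one, pow_one]
    exact hG
  · intro i
    fin_cases i
    · exact one_pos
    · exact hq1
  · intro i
    fin_cases i
    · show Irreducible ((X - C ((⟨ssvmmY E M q, hjq⟩ : ↥W) ^ q)).map (residue ↥W))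
      simp only [Polynomial.map_sub, Polynomial.map_X, Polynomial.map_C]
      exact irreducible_X_sub_C _
    · show Irreducible ((X - C (⟨ssvmdJ E (M * q), hj⟩ : ↥W)).map (residue ↥W))
      simp only [Polynomial.map_sub, Polynomial.map_X, Polynomial.map_C]
      exact irreducible_X_sub_C _
  · intro i j hij
    fin_cases i <;> fin_cases j
    · exact absurd rfl hij
    · exact hcop01
    · exact hcop01.symm
    · exact absurd rfl hij
  · intro i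
    fin_cases i
    · exact Or.inl rfl
    · exact Or.inr hcop

end AmbW

end Fermat.Agent.SQ
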