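import Mathlib
import Fermat.Agent.SS.Val.ModALRes
import Fermat.Agent.SQ.Val.ModTwoField
import Fermat.Agent.SQ.Val.Theta

/-!
# Program Q (S36), leaf VAL² (V-C) : two self-contained inputs of the second step of the tower

* `sqvmi_not_pow` : `j_q = j(𝐪^q)` is not a `q`-th power in the residue field of the second
  valuation ring `V₂` of `F_E(M q)`;
* `sqvmi_ded_unit` : Dedekind's criterion at field level : `Φ_Y(j_q, j) = q · u`, `u` a unit of the
  Gauss ring of `F_E(M q)`.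

Prefix `sqvmi`.
-/

set_option autoImplicit false
set_option linter.unusedSectionVars false
set_option linter.unusedVariables false
set_option linter.style.haveILetI false
set_option linter.overlappingInstances false
set_option synthInstance.maxHeartbeats 400000

noncomputable section

namespace Fermat.Agent.SQ

open Polynomial ModularCurve AlgebraicCurve IsLocalRing IntermediateField Fermat.Agent.S24
  Fermat.Agent.G Fermat.Agent.S18 Fermat.Agent.SS

local notation "Qb" => AlgebraicClosure ℚ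

attribute [local instance] sqvm_neZero

variable {q : ℕ} [Fact q.Prime] (𝔸 : ValuationSubring Qb) (E : IntermediateField ℚ Qb)
  [IsDiscreteValuationRing ↥(s18dVal 𝔸 E)] [CharZero ↥(s18dVal 𝔸 E)]
variable (M : ℕ) [NeZero M]

set_option maxHeartbeats 2000000 in
/-- **(S1)** : `j_q` is not a `q`-th power modulo `𝔪_{V₂}` -/
theorem sqvmi_not_pow (hA : 𝔸.LiesOverPrime q) (hqM : ¬ q ∣ M) {ϖ : ↥(s18dVal 𝔸 E)}
    (hϖ : Irreducible ϖ) (Ξ G : (↥(ssvmmR 𝔸 E M q))[X])
    (h : SsvAmb (ssvmmR 𝔸 E M q) (ssvmgRUnif (ssvmm_le E M q) ϖ) (ssvmmY E M q) Ξ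
        (X - C (ssvmmJ 𝔸 E M q ^ q)) (X ^ q - C (ssvmmJ 𝔸 E M q)) G)
    (b : ↥(modularFunctionFieldFullC E (M * q))) (hb : b ∈ h.V₂) :
    b ^ q - ssvmmY E M q ∉ h.V₂.nonunits := by
  have hq : q.Prime := Fact.out
  haveI : CharP (ResidueField ↥(s18dVal 𝔸 E)) q := s18v_charP hϖ (s18d_natCast_mem 𝔸 E hA)
  obtain ⟨σ, hσα, hσβ⟩ := ssvmf_exists_sigma E M hqM
  intro hmem
  rw [(ssvmf_mem₂_iff 𝔸 E M hA hqM hϖ σ hσα hσβ Ξ G h _).2] at hmem
  obtain ⟨hx, h0⟩ := hmem
  have hσb : σ b ∈ s18vO ↥(s18dVal 𝔸 E) (modularFunctionFieldFullC E (M * (M * q))) :=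
    (ssvmf_mem₂_iff 𝔸 E M hA hqM hϖ σ hσα hσβ Ξ G h b).1.mp hb
  have hjO : ssvmdJ E M ∈ s18vO ↥(s18dVal 𝔸 E) (modularFunctionFieldFullC E M) :=
    ⟨jqModC ↥(s18dVal 𝔸 E), 1, ssvmm_incl_jqModC_mem 𝔸 E M, by rw [map_one]; exact one_mem _,
      by rw [map_one]; exact one_ne_zero, by
        rw [map_one, mul_one, coeffMap_jqModC]
        rfl⟩
  have hjred : s18vcRed (modularFunctionFieldFullC E M) ⟨ssvmdJ E M, hjO⟩ =
      jqModC (ResidueField ↥(s18dVal 𝔸 E)) := by
    rw [s18vcRed_incl _ _ (jqModC ↥(s18dVal 𝔸 E)) (by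
      rw [coeffMap_jqModC]
      rfl), coeffMap_jqModC]
  obtain ⟨h₁, hr₁⟩ := ssvmf_qExpand_mem M (modularFunctionFieldFullC E M)
    (modularFunctionFieldFullC E (M * (M * q))) (ssvmf_map_small E M q) (ssvmdJ E M) hjO
  have ey : σ (ssvmmY E M q) = ⟨qExpand E M ((ssvmdJ E M : modularFunctionFieldFullC E M) :
      LaurentSeries E), ssvmf_map_small E M q _ (ssvmdJ E M).2⟩ := by
    have e1 : ssvmmY E M q = ssvmfPhi E M q (ssvmdJ E M) := Subtype.ext rfl
    rw [e1]
    exact Subtype.ext (hσβ _)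
  have e2 : (⟨σ (b ^ q - ssvmmY E M q), hx⟩ :
      ↥(s18vO ↥(s18dVal 𝔸 E) (modularFunctionFieldFullC E (M * (M * q))))) =
      ⟨σ b, hσb⟩ ^ q - ⟨_, h₁⟩ := by
    apply Subtype.ext
    show σ (b ^ q - ssvmmY E M q) = σ b ^ q - _
    rw [map_sub, map_pow, ey]
  rw [e2, map_sub, map_pow, hr₁, hjred, gcjf_pow_char (ResidueField ↥(s18dVal 𝔸 E)) q,
    sub_eq_zero] at h0
  have h1 := congrArg (fun z : LaurentSeries (ResidueField ↥(s18dVal 𝔸 E)) =>
    z.coeff ((M : ℤ) * (-1))) h0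
  simp only [qExpand_coeff_mul, coeff_jqModC_neg_one] at h1
  rw [qExpand_coeff_of_not_dvd] at h1
  · exact zero_ne_one h1
  · rw [mul_neg_one, dvd_neg]
    exact_mod_cast hqM

set_option maxHeartbeats 2000000 in
/-- **(S3)** : Dedekind's criterion at field level : `Φ_Y(j_q, j) = q · u` with `u` a unit of the
Gauss ring of `F_E(M q)` -/
theorem sqvmi_ded_unit (hA : 𝔸.LiesOverPrime q) {ϖ : ↥(s18dVal 𝔸 E)} (hϖ : Irreducible ϖ)
    (Φ : (↥(s18dVal 𝔸 E))[X][X])
    (hk : Φ.map (mapRingHom (residue ↥(s18dVal 𝔸 E))) = (X - C (X ^ q)) * (X ^ q - C X))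
    (hrj : (Φ.map (sqvmEvq ↥(s18dVal 𝔸 E) q)).eval (jqModC ↥(s18dVal 𝔸 E)) = 0) :
    ∃ u : ↥(modularFunctionFieldFullC E (M * q)),
      u ∈ s18vO ↥(s18dVal 𝔸 E) (modularFunctionFieldFullC E (M * q)) ∧
      u⁻¹ ∈ s18vO ↥(s18dVal 𝔸 E) (modularFunctionFieldFullC E (M * q)) ∧
      (derivative (sqvmPsi (q := q) 𝔸 E M Φ)).eval (ssvmdJ E (M * q)) =
        (q : ↥(modularFunctionFieldFullC E (M * q))) * u := by
  have hq : q.Prime := Fact.out
  haveI : CharP (ResidueField ↥(s18dVal 𝔸 E)) q := s18v_charP hϖ (s18d_natCast_mem 𝔸 E hA)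
  have hroot : sqvtEv (qExpand ↥(s18dVal 𝔸 E) q (jqModC ↥(s18dVal 𝔸 E)))
      (jqModC ↥(s18dVal 𝔸 E)) Φ = 0 := by
    rw [sqvtEv_apply, ← sqvmEvq_eq_aeval, ← Polynomial.eval_map]
    exact hrj
  obtain ⟨U, hU, hU0⟩ := sqvt_dedekind (residue ↥(s18dVal 𝔸 E)) q Φ hk hroot
  -- the series of `Φ_Y(j_q, j)`
  have hDval : (((derivative (sqvmPsi (q := q) 𝔸 E M Φ)).eval (ssvmdJ E (M * q)) :
      ↥(modularFunctionFieldFullC E (M * q))) : LaurentSeries E) =
      (q : LaurentSeries E) * s18vIncl ↥(s18dVal 𝔸 E) E U := by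
    have hy : (modularFunctionFieldFullC E (M * q)).val.toRingHom (ssvmdJ E (M * q)) =
        s18vIncl ↥(s18dVal 𝔸 E) E (jqModC ↥(s18dVal 𝔸 E)) := by
      rw [coeffMap_jqModC]
      rfl
    show (modularFunctionFieldFullC E (M * q)).val.toRingHom _ = _
    rw [sqvmPsi, Polynomial.derivative_map, Polynomial.eval_map, Polynomial.hom_eval₂,
      sqvm_val_evqF, hy, ← Polynomial.hom_eval₂, sqvmEvq_eq_aeval, ← sqvtEv_apply, hU, map_mul,
      map_natCast]
  have hq0 : (q : ↥(modularFunctionFieldFullC E (M * q))) ≠ 0 := by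
    intro h0
    have h1 := congrArg (fun z : ↥(modularFunctionFieldFullC E (M * q)) =>
      (z : LaurentSeries E)) h0
    simp only [ZeroMemClass.coe_zero] at h1
    have h2 : ((q : ↥(modularFunctionFieldFullC E (M * q))) : LaurentSeries E) =
        algebraMap E (LaurentSeries E) (q : E) := by
      rw [map_natCast]
      rfl
    rw [h2] at h1
    have h3 := (algebraMap E (LaurentSeries E)).injective (h1.trans (map_zero _).symm)
    exact hq.ne_zero (by exact_mod_cast h3)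
  have hq0' : (q : LaurentSeries E) ≠ 0 := by
    intro h0
    apply hq0
    apply Subtype.ext
    rw [ZeroMemClass.coe_zero, ← h0]
    rfl
  set D := (derivative (sqvmPsi (q := q) 𝔸 E M Φ)).eval (ssvmdJ E (M * q)) with hD
  have hu : ((D / (q : ↥(modularFunctionFieldFullC E (M * q))) :
      ↥(modularFunctionFieldFullC E (M * q))) : LaurentSeries E) =
      s18vIncl ↥(s18dVal 𝔸 E) E U := by
    have h1 : ((D / (q : ↥(modularFunctionFieldFullC E (M * q))) :
        ↥(modularFunctionFieldFullC E (M * q))) : LaurentSeries E) =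
        (D : LaurentSeries E) / (q : LaurentSeries E) := rfl
    rw [h1, hDval, mul_div_cancel_left₀ _ hq0']
  have hUmem : s18vIncl ↥(s18dVal 𝔸 E) E U ∈ modularFunctionFieldFullC E (M * q) := by
    rw [← hu]
    exact SetLike.coe_mem _
  have hU1 : s18vIncl ↥(s18dVal 𝔸 E) E U ≠ 0 := by
    intro h0
    apply hU0
    ext n
    have h1 := congrArg (fun z : LaurentSeries E => z.coeff n) h0
    simp only [coeffMap_coeff, HahnSeries.coeff_zero] at h1 ⊢
    have hz : U.coeff n = 0 :=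
      IsFractionRing.injective ↥(s18dVal 𝔸 E) ↥E (h1.trans (map_zero _).symm)
    rw [hz, map_zero]
  refine ⟨D / (q : ↥(modularFunctionFieldFullC E (M * q))), ?_, ?_, ?_⟩
  · refine ⟨U, 1, hUmem, by rw [map_one]; exact one_mem _, by rw [map_one]; exact one_ne_zero, ?_⟩
    rw [map_one, mul_one, hu]
  · refine ⟨1, U, by rw [map_one]; exact one_mem _, hUmem, hU0, ?_⟩
    have h1 : (((D / (q : ↥(modularFunctionFieldFullC E (M * q))))⁻¹ :
        ↥(modularFunctionFieldFullC E (M * q))) : LaurentSeries E) =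
        ((D / (q : ↥(modularFunctionFieldFullC E (M * q))) :
          ↥(modularFunctionFieldFullC E (M * q))) : LaurentSeries E)⁻¹ := rfl
    rw [h1, hu, map_one, inv_mul_cancel₀ hU1]
  · rw [mul_div_cancel₀ _ hq0]

end Fermat.Agent.SQ
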