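import Mathlib
import Fermat.Agent.SQ.Val.ModTwoGen

/-!
# Program Q (S36), leaf VAL² (V-C)+(V-E), part 7 : the output of one step of the tower, abstractly

`α : F₁ →+* F`, `W₁, W₂` discrete valuation subrings of `F₁`, `y ∈ F`, and the two Dedekind–Kummer
packages `h₁ : SqvkAmb (α W₁) … ![Y - a, Y - b] ![1, q - 1]` (with Dedekind's criterion at `Y - b`)
and `h₃ : SqvkAmb (α W₂) … ![Y^q - c] ![1]`.  Output `SqvmOut` : the three valuation rings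
`V₁ = h₁.V 0`, `V₂ = h₁.V 1`, `V₃ = h₃.V 0` with uniformisers `ϖ`, `y - b`, `ϖ`,
`v₂(y - b)^(q-1) = v₂(ϖ)`, discreteness, positions, completeness, separation, residue fields
(`κ(V₁) = κ(V₂) = κ(W₁)`, `κ(V₃)^q ⊆ κ(W₂)`) and the congruences of `y`.

Prefix `sqvm`.
-/

set_option autoImplicit false
set_option linter.unusedSectionVars false
set_option linter.unusedVariables false
set_option linter.style.haveILetI false
set_option linter.overlappingInstances false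

noncomputable section

namespace Fermat.Agent.SQ

open Polynomial IsLocalRing Fermat.Agent.S18 Fermat.Agent.SS

section Out

variable {F₁ F : Type*} [Field F₁] [Field F]

/-- THE OUTPUT OF THE SECOND STEP OF THE TOWER, in field form : the three valuation rings
`V₁, V₂ | W₁`, `V₃ | W₂` of `F` along `α : F₁ →+* F`, their uniformisers, discreteness, positions,
completeness, separation, residue fields and the congruences for the generator `y`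
(`y ≡ a` at `V₁`, `y ≡ b` at `V₂`, `y ^ q ≡ c` at `V₃`). -/
structure SqvmOut (α : F₁ →+* F) (W₁ W₂ : ValuationSubring F₁) (ϖF y a b c : F) (q : ℕ)
    (V₁ V₂ V₃ : ValuationSubring F) : Prop where
  unif₁ : S18IsUnif V₁ ϖF
  unif₂ : S18IsUnif V₂ (y - b)
  unif₃ : S18IsUnif V₃ ϖF
  pow₂ : V₂.valuation (y - b) ^ (q - 1) = V₂.valuation ϖF
  disc₁ : ∀ x : F, x ≠ 0 → ∃ m : ℤ, V₁.valuation x = V₁.valuation ϖF ^ m
  disc₂ : ∀ x : F, x ≠ 0 → ∃ m : ℤ, V₂.valuation x = V₂.valuation (y - b) ^ m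
  disc₃ : ∀ x : F, x ≠ 0 → ∃ m : ℤ, V₃.valuation x = V₃.valuation ϖF ^ m
  pos₁ : V₁.comap α = W₁
  pos₂ : V₂.comap α = W₁
  pos₃ : V₃.comap α = W₂
  cases₁ : ∀ V : ValuationSubring F, V.comap α = W₁ → V = V₁ ∨ V = V₂
  cases₂ : ∀ V : ValuationSubring F, V.comap α = W₂ → V = V₃
  sep₁₂ : ∃ u : F, u ∈ V₁.nonunits ∧ V₂.valuation u = 1
  sep₂₁ : ∃ u : F, u ∈ V₂.nonunits ∧ V₁.valuation u = 1
  res₁ : ∀ x ∈ V₁, ∃ r ∈ W₁, x - α r ∈ V₁.nonunits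
  res₂ : ∀ x ∈ V₂, ∃ r ∈ W₁, x - α r ∈ V₂.nonunits
  ins₃ : ∀ x ∈ V₃, ∃ r ∈ W₂, x ^ q - α r ∈ V₃.nonunits
  cong₁ : y - a ∈ V₁.nonunits
  cong₂ : y - b ∈ V₂.nonunits
  cong₃ : y ^ q - c ∈ V₃.nonunits

variable (α : F₁ →+* F) (W : ValuationSubring F₁) [IsDiscreteValuationRing ↥W]
variable {ι : Type*} [Fintype ι] [DecidableEq ι] [Nonempty ι]
variable {ϖ : ↥W} {y : F} {Ξ : (↥(sqvsR α W))[X]} {Fs : ι → (↥(sqvsR α W))[X]}
  {e : ι → ℕ} {G : (↥(sqvsR α W))[X]}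

/-- `κ(V i) = ᾱ κ(W)` at a linear factor -/
theorem sqvm_res_of_linear (h : SqvkAmb (sqvsR α W) (sqvsEquiv α W ϖ) y Ξ Fs e G) (i : ι)
    {a : ↥(sqvsR α W)} (hF : Fs i = X - C a) :
    ∀ x ∈ h.V i, ∃ r ∈ W, x - α r ∈ (h.V i).nonunits := by
  intro x hx
  obtain ⟨r, hr⟩ := h.exists_const_sub_mem i (by rw [hF]; exact monic_X_sub_C a)
    (by rw [hF]; exact natDegree_X_sub_C a) hx
  obtain ⟨r₀, hr₀, hr₀r⟩ := (mem_sqvsR α W).mp r.2
  exact ⟨r₀, hr₀, by rw [hr₀r]; exact hr⟩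

theorem sqvm_aeval_X_sub_C {R : Subring F} (y : F) (a : ↥R) :
    aeval y (X - C a : (↥R)[X]) = y - (a : F) := by
  rw [map_sub, aeval_X, aeval_C]
  rfl

theorem sqvm_aeval_X_pow_sub_C {R : Subring F} (y : F) (a : ↥R) (n : ℕ) :
    aeval y (X ^ n - C a : (↥R)[X]) = y ^ n - (a : F) := by
  rw [map_sub, map_pow, aeval_X, aeval_C]
  rfl

/-- `κ(V i)^q ⊆ ᾱ κ(W)` at a purely inseparable factor `Y^q - c` -/
theorem sqvm_ins_of_insep (h : SqvkAmb (sqvsR α W) (sqvsEquiv α W ϖ) y Ξ Fs e G) (i : ι)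
    {q : ℕ} (hq : q.Prime) (hqW : (q : F₁) ∈ W.nonunits)
    {c : ↥(sqvsR α W)} (hF : Fs i = X ^ q - C c) :
    ∀ x ∈ h.V i, ∃ r ∈ W, x ^ q - α r ∈ (h.V i).nonunits := by
  haveI : Fact q.Prime := ⟨hq⟩
  have hRV : sqvsR α W ≤ (h.V i).toSubring := fun r hr => h.coe_mem i ⟨r, hr⟩
  have hyV : y ∈ h.V i := by
    have := h.aeval_mem_V i X
    rwa [aeval_X] at this
  -- the residue characteristic is `q`
  have hqV : ((q : ℕ) : F) ∈ (h.V i).nonunits := by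
    have h1 : (q : F₁) ∈ ((h.V i).comap α).nonunits := by rw [sqvs_comap α W h i]; exact hqW
    have h2 := (ssvma_nonunits_comap (h.V i) α (q : F₁)).mp h1
    rwa [map_natCast] at h2
  haveI : CharP (ResidueField ↥(h.V i)) q := by
    rw [CharP.charP_iff_prime_eq_zero hq]
    have h1 : ((q : ℕ) : ↥(h.V i)) ∈ maximalIdeal ↥(h.V i) := by
      rw [← (h.V i).coe_mem_nonunits_iff]
      have h2 : ((((q : ℕ) : ↥(h.V i)) : ↥(h.V i)) : F) = ((q : ℕ) : F) := by simp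
      rw [h2]
      exact hqV
    have : residue ↥(h.V i) ((q : ℕ) : ↥(h.V i)) = 0 := (residue_eq_zero_iff _).mpr h1
    simpa using this
  -- the key claim
  have hcong : y ^ q - (c : F) ∈ (h.V i).nonunits := by
    have := h.aeval_mem i
    rwa [hF, sqvm_aeval_X_pow_sub_C] at this
  have hcV : (c : F) ∈ h.V i := h.coe_mem i c
  have hyq : residue ↥(h.V i) ⟨y, hyV⟩ ^ q = residue ↥(h.V i) ⟨(c : F), hcV⟩ := by
    rw [← map_pow, ← sub_eq_zero, ← map_sub, residue_eq_zero_iff, ← (h.V i).coe_mem_nonunits_iff]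
    exact hcong
  have key : ∀ g : (↥(sqvsR α W))[X], ∃ r : ↥(sqvsR α W),
      residue ↥(h.V i) ⟨aeval y g, h.aeval_mem_V i g⟩ ^ q =
        residue ↥(h.V i) ⟨(r : F), h.coe_mem i r⟩ := by
    intro g
    induction g using Polynomial.induction_on' with
    | add p p' hp hp' =>
      obtain ⟨r, hr⟩ := hp
      obtain ⟨r', hr'⟩ := hp'
      refine ⟨r + r', ?_⟩
      have e1 : (⟨aeval y (p + p'), h.aeval_mem_V i (p + p')⟩ : ↥(h.V i)) =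
          ⟨aeval y p, h.aeval_mem_V i p⟩ + ⟨aeval y p', h.aeval_mem_V i p'⟩ :=
        Subtype.ext (map_add _ _ _)
      have e2 : (⟨((r + r' : ↥(sqvsR α W)) : F), h.coe_mem i (r + r')⟩ : ↥(h.V i)) =
          ⟨(r : F), h.coe_mem i r⟩ + ⟨(r' : F), h.coe_mem i r'⟩ := Subtype.ext rfl
      rw [e1, e2, map_add, map_add, add_pow_char, hr, hr']
    | monomial n s =>
      refine ⟨s ^ q * c ^ n, ?_⟩
      have e1 : (⟨aeval y (monomial n s), h.aeval_mem_V i (monomial n s)⟩ : ↥(h.V i)) =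
          ⟨(s : F), h.coe_mem i s⟩ * ⟨y, hyV⟩ ^ n := by
        apply Subtype.ext
        show aeval y (monomial n s) = (s : F) * y ^ n
        rw [aeval_monomial]
        rfl
      have e2 : (⟨((s ^ q * c ^ n : ↥(sqvsR α W)) : F), h.coe_mem i (s ^ q * c ^ n)⟩ :
          ↥(h.V i)) = ⟨(s : F), h.coe_mem i s⟩ ^ q * ⟨(c : F), hcV⟩ ^ n := Subtype.ext rfl
      rw [e1, e2, map_mul, map_mul, map_pow, map_pow, map_pow, mul_pow, ← pow_mul, mul_comm n q,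
        pow_mul, hyq]
  intro x hx
  have hmonic : (Fs i).Monic := by rw [hF]; exact monic_X_pow_sub_C c hq.ne_zero
  obtain ⟨g, -, hg⟩ := h.exists_sub_mem i hmonic hx
  obtain ⟨r, hr⟩ := key g
  obtain ⟨r₀, hr₀, hr₀r⟩ := (mem_sqvsR α W).mp r.2
  refine ⟨r₀, hr₀, ?_⟩
  rw [hr₀r]
  have h1 : residue ↥(h.V i) ⟨x, hx⟩ = residue ↥(h.V i) ⟨aeval y g, h.aeval_mem_V i g⟩ := by
    rw [← sub_eq_zero, ← map_sub, residue_eq_zero_iff, ← (h.V i).coe_mem_nonunits_iff]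
    exact hg
  have h2 : residue ↥(h.V i) (⟨x, hx⟩ ^ q - ⟨(r : F), h.coe_mem i r⟩) = 0 := by
    rw [map_sub, map_pow, h1, hr, sub_self]
  have h3 := (residue_eq_zero_iff _).mp h2
  rw [← (h.V i).coe_mem_nonunits_iff] at h3
  exact h3

end Out

section Assemble

variable {F₁ F : Type*} [Field F₁] [Field F]
variable (α : F₁ →+* F) (W₁ W₂ : ValuationSubring F₁) [IsDiscreteValuationRing ↥W₁]
  [IsDiscreteValuationRing ↥W₂]
variable {ϖ₁ : ↥W₁} {ϖ₂ : ↥W₂} {ϖF : F} {y : F} {q : ℕ}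
variable {Ξ₁ G₁ : (↥(sqvsR α W₁))[X]} {Fs₁ : Fin 2 → (↥(sqvsR α W₁))[X]} {e₁ : Fin 2 → ℕ}
variable {Ξ₂ G₂ : (↥(sqvsR α W₂))[X]} {Fs₂ : Fin 1 → (↥(sqvsR α W₂))[X]} {e₂ : Fin 1 → ℕ}

/-- **the output of the second step from the two Dedekind–Kummer packages** -/
theorem sqvm_out (hq : q.Prime) (hqW₂ : (q : F₁) ∈ W₂.nonunits)
    (hϖ₁ : α (ϖ₁ : F₁) = ϖF) (hϖ₂ : α (ϖ₂ : F₁) = ϖF)
    (h₁ : SqvkAmb (sqvsR α W₁) (sqvsEquiv α W₁ ϖ₁) y Ξ₁ Fs₁ e₁ G₁)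
    {a b : ↥(sqvsR α W₁)} (hF0 : Fs₁ 0 = X - C a) (hF1 : Fs₁ 1 = X - C b)
    (he0 : e₁ 0 = 1) (he1 : e₁ 1 = q - 1)
    (hcop : IsCoprime ((Fs₁ 1).map (residue ↥(sqvsR α W₁))) (G₁.map (residue ↥(sqvsR α W₁))))
    (h₃ : SqvkAmb (sqvsR α W₂) (sqvsEquiv α W₂ ϖ₂) y Ξ₂ Fs₂ e₂ G₂)
    {c : ↥(sqvsR α W₂)} (hF : Fs₂ 0 = X ^ q - C c) (he : e₂ 0 = 1) :
    SqvmOut α W₁ W₂ ϖF y (a : F) (b : F) (c : F) q (h₁.V 0) (h₁.V 1) (h₃.V 0) := by
  have hcoe₁ : ((sqvsEquiv α W₁ ϖ₁ : ↥(sqvsR α W₁)) : F) = ϖF := by rw [sqvsEquiv_coe, hϖ₁]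
  have hcoe₂ : ((sqvsEquiv α W₂ ϖ₂ : ↥(sqvsR α W₂)) : F) = ϖF := by rw [sqvsEquiv_coe, hϖ₂]
  have hϖF0 : ϖF ≠ 0 := hcoe₁ ▸ sqvm_unif_ne_zeroE h₁
  have hu₁ : S18IsUnif (h₁.V 0) ϖF := hcoe₁ ▸ sqvm_isUnif_of_one h₁ 0 he0
  have hu₃ : S18IsUnif (h₃.V 0) ϖF := hcoe₂ ▸ sqvm_isUnif_of_one h₃ 0 he
  obtain ⟨hu₂, hpow₂⟩ := sqvm_isUnif_of_coprime h₁ 1 hcop
  rw [hF1, sqvm_aeval_X_sub_C, he1, hcoe₁] at hpow₂
  rw [hF1, sqvm_aeval_X_sub_C] at hu₂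
  have hπ0 : y - (b : F) ≠ 0 := by
    intro h0
    rw [h0, map_zero, zero_pow (by have := hq.two_le; omega)] at hpow₂
    exact (Valuation.ne_zero_iff _).mpr hϖF0 hpow₂.symm
  haveI := sqvm_dvrE h₁ 0
  haveI := sqvm_dvrE h₁ 1
  haveI := sqvm_dvrE h₃ 0
  exact
    { unif₁ := hu₁
      unif₂ := hu₂
      unif₃ := hu₃
      pow₂ := hpow₂
      disc₁ := sqvm_disc (h₁.V 0) hu₁ hϖF0
      disc₂ := sqvm_disc (h₁.V 1) hu₂ hπ0
      disc₃ := sqvm_disc (h₃.V 0) hu₃ hϖF0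
      pos₁ := sqvs_comap α W₁ h₁ 0
      pos₂ := sqvs_comap α W₁ h₁ 1
      pos₃ := sqvs_comap α W₂ h₃ 0
      cases₁ := by
        intro V hV
        obtain ⟨i, rfl⟩ := sqvs_cases α W₁ h₁ V hV
        fin_cases i
        · exact Or.inl rfl
        · exact Or.inr rfl
      cases₂ := by
        intro V hV
        obtain ⟨i, rfl⟩ := sqvs_cases α W₂ h₃ V hV
        fin_cases i
        rfl
      sep₁₂ := ⟨aeval y (Fs₁ 0), (h₁.sep (i := 0) (j := 1) (by decide)).2.1,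
        (h₁.sep (i := 0) (j := 1) (by decide)).2.2⟩
      sep₂₁ := ⟨aeval y (Fs₁ 1), (h₁.sep (i := 1) (j := 0) (by decide)).2.1,
        (h₁.sep (i := 1) (j := 0) (by decide)).2.2⟩
      res₁ := sqvm_res_of_linear α W₁ h₁ 0 hF0
      res₂ := sqvm_res_of_linear α W₁ h₁ 1 hF1
      ins₃ := sqvm_ins_of_insep α W₂ h₃ 0 hq hqW₂ hF
      cong₁ := by
        have := h₁.aeval_mem 0
        rwa [hF0, sqvm_aeval_X_sub_C] at this
      cong₂ := by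
        have := h₁.aeval_mem 1
        rwa [hF1, sqvm_aeval_X_sub_C] at this
      cong₃ := by
        have := h₃.aeval_mem 0
        rwa [hF, sqvm_aeval_X_pow_sub_C] at this }

end Assemble

end Fermat.Agent.SQ
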