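import Mathlib
import Fermat.Agent.SQ.Val.ModTwoAmb
import Fermat.Agent.SQ.Val.ModTwoIn
import Fermat.Agent.SQ.Val.ModTwoOut

/-!
# Program Q (S36), leaf VAL² (V-C)+(V-E), part 8 : the two valuation rings `V₁, V₂` of
`F_E(M q)` (the level-one package `ssvmm_amb`) as base rings of the second step

Membership of `A₀`, `j`, `j_q` in `h.V₁`, `h.V₂`, the uniformiser `ϖ`, the Frobenius congruences
`j_q ≡ j^q` (`V₁`), `j_q^q ≡ j` (`V₂`), and `Ψ'(j) ≠ 0`.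

Prefix `sqvm`.
-/

set_option autoImplicit false
set_option linter.unusedSectionVars false
set_option linter.unusedVariables false
set_option linter.style.haveILetI false
set_option linter.overlappingInstances false
set_option synthInstance.maxHeartbeats 400000

noncomputable section

namespace Fermat.Agent.SQ

open Polynomial ModularCurve AlgebraicCurve IsLocalRing IntermediateField Fermat.Agent.S24
  Fermat.Agent.G Fermat.Agent.S18 Fermat.Agent.SS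

local notation "Qb" => AlgebraicClosure ℚ

attribute [local instance] sqvm_neZero

section Inst

variable {q : ℕ} [Fact q.Prime] (𝔸 : ValuationSubring Qb) (E : IntermediateField ℚ Qb)
  [IsDiscreteValuationRing ↥(s18dVal 𝔸 E)] [CharZero ↥(s18dVal 𝔸 E)]
variable (M : ℕ) [NeZero M] {ϖ : ↥(s18dVal 𝔸 E)}
variable {Ξ G : (↥(ssvmmR 𝔸 E M q))[X]}
variable (h : SsvAmb (ssvmmR 𝔸 E M q) (ssvmgRUnif (ssvmm_le E M q) ϖ) (ssvmmY E M q) Ξ
  (X - C (ssvmmJ 𝔸 E M q ^ q)) (X ^ q - C (ssvmmJ 𝔸 E M q)) G)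

/-- the Gauss ring of `F_E(M)` lies in both valuation rings -/
theorem sqvm_R_mem (r : ↥(ssvmmR 𝔸 E M q)) :
    (r : ↥(modularFunctionFieldFullC E (M * q))) ∈ h.V₁ ∧
      (r : ↥(modularFunctionFieldFullC E (M * q))) ∈ h.V₂ :=
  (h.mem_adjoin_iff _).mp
    (Subalgebra.algebraMap_mem (Algebra.adjoin ↥(ssvmmR 𝔸 E M q) {ssvmmY E M q}) r)

/-- transport of a property along an equality, with explicit motive (no `rw`) -/
theorem sqvm_subst {α : Sort*} {a b : α} (P : α → Prop) (e : a = b) (ha : P a) : P b := e ▸ ha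

theorem sqvm_hA (a : ↥(s18dVal 𝔸 E)) :
    algebraMap ↥(s18dVal 𝔸 E) ↥(modularFunctionFieldFullC E (M * q)) a ∈ h.V₁ ∧
      algebraMap ↥(s18dVal 𝔸 E) ↥(modularFunctionFieldFullC E (M * q)) a ∈ h.V₂ :=
  sqvm_subst (fun z => z ∈ h.V₁ ∧ z ∈ h.V₂) (ssvmgRUnif_coe (ssvmm_le E M q) a)
    (sqvm_R_mem 𝔸 E M h (ssvmgRUnif (ssvmm_le E M q) a))

theorem sqvm_hj : ssvmdJ E (M * q) ∈ h.V₁ ∧ ssvmdJ E (M * q) ∈ h.V₂ :=
  sqvm_subst (fun z => z ∈ h.V₁ ∧ z ∈ h.V₂) (ssvmmJ_coe 𝔸 E M q)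
    (sqvm_R_mem 𝔸 E M h (ssvmmJ 𝔸 E M q))

theorem sqvm_hjq : ssvmmY E M q ∈ h.V₁ ∧ ssvmmY E M q ∈ h.V₂ :=
  (h.mem_adjoin_iff _).mp (Algebra.subset_adjoin (Set.mem_singleton _))

theorem sqvm_hunif :
    S18IsUnif h.V₁ (algebraMap ↥(s18dVal 𝔸 E) ↥(modularFunctionFieldFullC E (M * q)) ϖ) ∧
    S18IsUnif h.V₂ (algebraMap ↥(s18dVal 𝔸 E) ↥(modularFunctionFieldFullC E (M * q)) ϖ) :=
  sqvm_subst (fun z => S18IsUnif h.V₁ z ∧ S18IsUnif h.V₂ z) (ssvmgRUnif_coe (ssvmm_le E M q) ϖ)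
    ⟨sqvm_isUnif₁ h, sqvm_isUnif₂ h⟩

include h in
theorem sqvm_hϖ0 :
    algebraMap ↥(s18dVal 𝔸 E) ↥(modularFunctionFieldFullC E (M * q)) ϖ ≠ 0 :=
  sqvm_subst (fun z => z ≠ 0) (ssvmgRUnif_coe (ssvmm_le E M q) ϖ) (sqvm_unif_ne_zero h)

/-- `j_q ≡ j^q` at `V₁`, `j_q^q - j` is a unit of `V₁` -/
theorem sqvm_cong_V₁ : ssvmmY E M q - ssvmdJ E (M * q) ^ q ∈ h.V₁.nonunits ∧
    ssvmmY E M q ^ q - ssvmdJ E (M * q) ∉ h.V₁.nonunits := by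
  have e1 : aeval (ssvmmY E M q) (X - C (ssvmmJ 𝔸 E M q ^ q) : (↥(ssvmmR 𝔸 E M q))[X]) =
      ssvmmY E M q - ssvmdJ E (M * q) ^ q :=
    (ssvma_aeval_sub_C_pow _ _ _ _).trans (congrArg (fun z => ssvmmY E M q - z ^ q)
      (ssvmmJ_coe 𝔸 E M q))
  have e2 : aeval (ssvmmY E M q) (X ^ q - C (ssvmmJ 𝔸 E M q) : (↥(ssvmmR 𝔸 E M q))[X]) =
      ssvmmY E M q ^ q - ssvmdJ E (M * q) :=
    (ssvma_aeval_pow_sub_C _ _ _ _).trans (congrArg (fun z => ssvmmY E M q ^ q - z)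
      (ssvmmJ_coe 𝔸 E M q))
  exact ⟨sqvm_subst (fun z => z ∈ h.V₁.nonunits) e1 h.aeval₁_mem,
    sqvm_subst (fun z => z ∉ h.V₁.nonunits) e2 h.aeval₂_unit.2⟩

/-- `j_q^q ≡ j` at `V₂` -/
theorem sqvm_cong_V₂ : ssvmmY E M q ^ q - ssvmdJ E (M * q) ∈ h.V₂.nonunits := by
  have e2 : aeval (ssvmmY E M q) (X ^ q - C (ssvmmJ 𝔸 E M q) : (↥(ssvmmR 𝔸 E M q))[X]) =
      ssvmmY E M q ^ q - ssvmdJ E (M * q) :=
    (ssvma_aeval_pow_sub_C _ _ _ _).trans (congrArg (fun z => ssvmmY E M q ^ q - z)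
      (ssvmmJ_coe 𝔸 E M q))
  exact sqvm_subst (fun z => z ∈ h.V₂.nonunits) e2 h.aeval₂_mem

/-- `α ∘ algebraMap = algebraMap` -/
theorem sqvm_incl_algebraMap (a : ↥(s18dVal 𝔸 E)) :
    (ssvmdIncl E (M * q) q).toRingHom
      (algebraMap ↥(s18dVal 𝔸 E) ↥(modularFunctionFieldFullC E (M * q)) a) =
      algebraMap ↥(s18dVal 𝔸 E) ↥(modularFunctionFieldFullC E (M * q * q)) a := by
  apply Subtype.ext
  show ((ssvmdIncl E (M * q) q _ : modularFunctionFieldFullC E (M * q * q)) : LaurentSeries E) = _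
  rw [ssvmdIncl_coe, s18v_coe_algebraMap, s18v_coe_algebraMap]

/-- the value of `Ψ /ₘ (Y - j)` at `j` is `Ψ'(j)` (any commutative ring) -/
theorem sqvm_eval_div' {S : Type*} [CommRing S] {Ψ : S[X]} {j : S} (hroot : Ψ.IsRoot j) :
    (Ψ /ₘ (X - C j)).eval j = (derivative Ψ).eval j := by
  have h1 : (X - C j) * (Ψ /ₘ (X - C j)) = Ψ := mul_divByMonic_eq_iff_isRoot.mpr hroot
  conv_rhs => rw [← h1]
  rw [derivative_mul, eval_add, eval_mul, eval_mul, derivative_sub, derivative_X, derivative_C,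
    sub_zero, eval_one, one_mul, eval_sub, eval_X, eval_C, sub_self, zero_mul, add_zero]

/-- `Ψ'(j) ≠ 0` as soon as `Ξ₁` is irreducible -/
theorem sqvm_derivative_ne_zero (Φ : (↥(s18dVal 𝔸 E))[X][X]) (hΦ : Φ.Monic)
    (hd : Φ.natDegree = q + 1)
    (hrj : (Φ.map (sqvmEvq ↥(s18dVal 𝔸 E) q)).eval (jqModC ↥(s18dVal 𝔸 E)) = 0)
    (hirr : Irreducible (sqvmXi (q := q) 𝔸 E M Φ)) :
    (derivative (sqvmPsi (q := q) 𝔸 E M Φ)).eval (ssvmdJ E (M * q)) ≠ 0 := by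
  have hq : q.Prime := Fact.out
  intro h0
  have h1 : (sqvmXi (q := q) 𝔸 E M Φ).IsRoot (ssvmdJ E (M * q)) := by
    rw [IsRoot.def, sqvmXi, sqvm_eval_div' (sqvm_psi_root_j 𝔸 E M Φ hrj), h0]
  have h2 := degree_eq_one_of_irreducible_of_root hirr h1
  have h3 : (sqvmXi (q := q) 𝔸 E M Φ).natDegree = 1 := natDegree_eq_of_degree_eq_some h2
  rw [sqvm_xi_natDegree 𝔸 E M Φ hΦ hd] at h3
  exact hq.one_lt.ne' h3

end Inst

end Fermat.Agent.SQ
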