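import Mathlib
import Fermat.Agent.SQ.Val.ModTwoInst

/-!
# Program Q (S36), leaf VAL² (V-C)+(V-E), part 9 : THE THREE VALUATIONS OF `F_E(M q q)`

`sqvm_main` : for the level-one package `h` (`ssvmm_amb`; `W₁ = h.V₁`, `W₂ = h.V₂` the two
extensions of the Gauss valuation to `F_E(M q)`), `q` unramified in `A₀` (`Associated q ϖ`) :
there are valuation rings `V₁, V₂, V₃` of `F_E(M q q)` with
`SqvmOut α W₁ W₂ ϖ j_qq (j_q^q) j j_q q V₁ V₂ V₃` (`α = ssvmdIncl E (M q) q`) :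
uniformisers `ϖ`, `j_qq - j`, `ϖ`; `v₂(j_qq - j)^(q-1) = v₂(ϖ)`; discreteness; positions
`V₁, V₂ | W₁`, `V₃ | W₂`; completeness; separation; `κ(V₁) = κ(V₂) = κ(W₁)`, `κ(V₃)^q ⊆ κ(W₂)`;
`j_qq ≡ j_q^q` (`V₁`), `j_qq ≡ j` (`V₂`), `j_qq^q ≡ j_q` (`V₃`).

Prefix `sqvm`.
-/

set_option autoImplicit false
set_option linter.unusedSectionVars false
set_option linter.unusedVariables false
set_option linter.style.haveILetI false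
set_option linter.overlappingInstances false
set_option synthInstance.maxHeartbeats 400000

noncomputable section

namespace Fermat.Agent.SQ

open Polynomial ModularCurve AlgebraicCurve IsLocalRing IntermediateField Fermat.Agent.S24
  Fermat.Agent.G Fermat.Agent.S18 Fermat.Agent.SS

local notation "Qb" => AlgebraicClosure ℚ

attribute [local instance] sqvm_neZero

section Wrap

variable {F₁ F : Type*} [Field F₁] [Field F]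
variable (α : F₁ →+* F) (W₁ W₂ : ValuationSubring F₁) [IsDiscreteValuationRing ↥W₁]
  [IsDiscreteValuationRing ↥W₂]
variable {ϖ₁ : ↥W₁} {ϖ₂ : ↥W₂} {ϖF : F} {y : F} {q : ℕ}
variable {Ξ₁ G₁ : (↥W₁)[X]} {Fs₁ : Fin 2 → (↥W₁)[X]} {e₁ : Fin 2 → ℕ}
variable {Ξ₂ G₂ : (↥W₂)[X]} {Fs₂ : Fin 1 → (↥W₂)[X]} {e₂ : Fin 1 → ℕ}

/-- `sqvm_out` for packages coming from `sqvs_amb` (polynomials over `W₁`, `W₂`) -/
theorem sqvm_out' (hq : q.Prime) (hqW₂ : (q : F₁) ∈ W₂.nonunits)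
    (hϖ₁ : α (ϖ₁ : F₁) = ϖF) (hϖ₂ : α (ϖ₂ : F₁) = ϖF)
    (h₁ : SqvkAmb (sqvsR α W₁) (sqvsEquiv α W₁ ϖ₁) y (Ξ₁.map (sqvsEquiv α W₁).toRingHom)
      (fun i => (Fs₁ i).map (sqvsEquiv α W₁).toRingHom) e₁
      (G₁.map (sqvsEquiv α W₁).toRingHom))
    {a b : ↥W₁} (hF0 : Fs₁ 0 = X - C a) (hF1 : Fs₁ 1 = X - C b)
    (he0 : e₁ 0 = 1) (he1 : e₁ 1 = q - 1)
    (hcop : IsCoprime ((Fs₁ 1).map (residue ↥W₁)) (G₁.map (residue ↥W₁)))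
    (h₃ : SqvkAmb (sqvsR α W₂) (sqvsEquiv α W₂ ϖ₂) y (Ξ₂.map (sqvsEquiv α W₂).toRingHom)
      (fun i => (Fs₂ i).map (sqvsEquiv α W₂).toRingHom) e₂
      (G₂.map (sqvsEquiv α W₂).toRingHom))
    {c : ↥W₂} (hF : Fs₂ 0 = X ^ q - C c) (he : e₂ 0 = 1)
    {a' b' c' : F} (ea : α (a : F₁) = a') (eb : α (b : F₁) = b') (ec : α (c : F₁) = c') :
    SqvmOut α W₁ W₂ ϖF y a' b' c' q (h₁.V 0) (h₁.V 1) (h₃.V 0) := by
  subst ea eb ec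
  refine sqvm_out α W₁ W₂ hq hqW₂ hϖ₁ hϖ₂ h₁ (a := sqvsEquiv α W₁ a) (b := sqvsEquiv α W₁ b)
    ?_ ?_ he0 he1 (sqvs_isCoprime_map α W₁ hcop) h₃ (c := sqvsEquiv α W₂ c) ?_ he
  · show (Fs₁ 0).map (sqvsEquiv α W₁).toRingHom = _
    rw [hF0, Polynomial.map_sub, map_X, map_C]
    rfl
  · show (Fs₁ 1).map (sqvsEquiv α W₁).toRingHom = _
    rw [hF1, Polynomial.map_sub, map_X, map_C]
    rfl
  · show (Fs₂ 0).map (sqvsEquiv α W₂).toRingHom = _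
    rw [hF, Polynomial.map_sub, Polynomial.map_pow, map_X, map_C]
    rfl

end Wrap

section Main

variable {q : ℕ} [Fact q.Prime] (𝔸 : ValuationSubring Qb) (E : IntermediateField ℚ Qb)
  [IsDiscreteValuationRing ↥(s18dVal 𝔸 E)] [CharZero ↥(s18dVal 𝔸 E)]
variable (M : ℕ) [NeZero M] {ϖ : ↥(s18dVal 𝔸 E)}
variable {Ξ G : (↥(ssvmmR 𝔸 E M q))[X]}
variable (h : SsvAmb (ssvmmR 𝔸 E M q) (ssvmgRUnif (ssvmm_le E M q) ϖ) (ssvmmY E M q) Ξ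
  (X - C (ssvmmJ 𝔸 E M q ^ q)) (X ^ q - C (ssvmmJ 𝔸 E M q)) G)

/-- `q ∈ 𝔪_{V₂}` -/
theorem sqvm_natCast_mem_V₂ (hAq : 𝔸.LiesOverPrime q) (hϖ : Irreducible ϖ) :
    ((q : ℕ) : ↥(modularFunctionFieldFullC E (M * q))) ∈ h.V₂.nonunits := by
  haveI := sqvm_dvr₂ h
  have h1 := sqvm_natCast_mem 𝔸 E M h.V₂ (fun a => (sqvm_hA 𝔸 E M h a).2) hAq hϖ
    (sqvm_hunif 𝔸 E M h).2
  have h2 := (h.V₂.coe_mem_nonunits_iff).mpr h1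
  have h3 : ((((q : ℕ) : ↥h.V₂) : ↥h.V₂) : ↥(modularFunctionFieldFullC E (M * q))) =
      ((q : ℕ) : ↥(modularFunctionFieldFullC E (M * q))) := by simp
  exact sqvm_subst (fun z => z ∈ h.V₂.nonunits) h3 h2

set_option maxHeartbeats 2000000 in
/-- Dedekind's criterion, in the form needed by the split step -/
theorem sqvm_hder (hAq : 𝔸.LiesOverPrime q) (hϖ : Irreducible ϖ)
    (hunr : Associated ((q : ℕ) : ↥(s18dVal 𝔸 E)) ϖ)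
    (Φ : (↥(s18dVal 𝔸 E))[X][X]) (hΦ : Φ.Monic) (hd : Φ.natDegree = q + 1)
    (hk : Φ.map (mapRingHom (residue ↥(s18dVal 𝔸 E))) = (X - C (X ^ q)) * (X ^ q - C X))
    (hrj : (Φ.map (sqvmEvq ↥(s18dVal 𝔸 E) q)).eval (jqModC ↥(s18dVal 𝔸 E)) = 0)
    (hirr : Irreducible (sqvmXi (q := q) 𝔸 E M Φ)) :
    ∃ v : ↥(modularFunctionFieldFullC E (M * q)), v ∈ h.V₁ ∧ v⁻¹ ∈ h.V₁ ∧ v ≠ 0 ∧
      (derivative (sqvmPsi (q := q) 𝔸 E M Φ)).eval (ssvmdJ E (M * q)) =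
        algebraMap ↥(s18dVal 𝔸 E) ↥(modularFunctionFieldFullC E (M * q)) ϖ * v := by
  have key := sqvmi_ded_unit 𝔸 E M hAq hϖ Φ hk hrj
  obtain ⟨u, hu, hu', hder⟩ := key
  have hne := sqvm_derivative_ne_zero 𝔸 E M Φ hΦ hd hrj hirr
  obtain ⟨c, hc⟩ := hunr.symm
  -- `ϖ * c = q`
  have hu0 : u ≠ 0 := by
    rintro rfl
    rw [mul_zero] at hder
    exact hne hder
  have hcF : algebraMap ↥(s18dVal 𝔸 E) ↥(modularFunctionFieldFullC E (M * q)) (c : ↥(s18dVal 𝔸 E)) *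
      algebraMap ↥(s18dVal 𝔸 E) ↥(modularFunctionFieldFullC E (M * q))
        ((c⁻¹ : (↥(s18dVal 𝔸 E))ˣ) : ↥(s18dVal 𝔸 E)) = 1 := by
    rw [← map_mul, Units.mul_inv, map_one]
  have hc0 : algebraMap ↥(s18dVal 𝔸 E) ↥(modularFunctionFieldFullC E (M * q))
      (c : ↥(s18dVal 𝔸 E)) ≠ 0 := left_ne_zero_of_mul_eq_one hcF
  have hcinv : (algebraMap ↥(s18dVal 𝔸 E) ↥(modularFunctionFieldFullC E (M * q))
      (c : ↥(s18dVal 𝔸 E)))⁻¹ = algebraMap ↥(s18dVal 𝔸 E) ↥(modularFunctionFieldFullC E (M * q))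
        ((c⁻¹ : (↥(s18dVal 𝔸 E))ˣ) : ↥(s18dVal 𝔸 E)) := inv_eq_of_mul_eq_one_right hcF
  refine ⟨algebraMap ↥(s18dVal 𝔸 E) ↥(modularFunctionFieldFullC E (M * q)) (c : ↥(s18dVal 𝔸 E)) * u,
    ?_, ?_, mul_ne_zero hc0 hu0, ?_⟩
  · exact h.V₁.mul_mem _ _ (sqvm_hA 𝔸 E M h c).1
      ((ssvma_mem₁_iff 𝔸 E M hAq hϖ Ξ G h u).1.mpr hu)
  · rw [mul_inv, hcinv]
    exact h.V₁.mul_mem _ _ (sqvm_hA 𝔸 E M h _).1
      ((ssvma_mem₁_iff 𝔸 E M hAq hϖ Ξ G h u⁻¹).1.mpr hu')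
  · rw [hder, ← mul_assoc, ← map_mul, hc, map_natCast]

set_option maxHeartbeats 4000000 in
/-- **(VAL², the `α`-half)** : the three valuation rings of `F_E(M q q)` over the two valuation
rings `h.V₁, h.V₂` of `F_E(M q)`, with all their data (`SqvmOut`). -/
theorem sqvm_main (hAq : 𝔸.LiesOverPrime q) (hqM : ¬ q ∣ M) (hϖ : Irreducible ϖ)
    (hunr : Associated ((q : ℕ) : ↥(s18dVal 𝔸 E)) ϖ) :
    ∃ V₁ V₂ V₃ : ValuationSubring ↥(modularFunctionFieldFullC E (M * q * q)),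
      SqvmOut (ssvmdIncl E (M * q) q).toRingHom h.V₁ h.V₂
        (algebraMap ↥(s18dVal 𝔸 E) ↥(modularFunctionFieldFullC E (M * q * q)) ϖ)
        (sqvmY E M q) (sqvmJq E M q ^ q) (ssvmdJ E (M * q * q)) (sqvmJq E M q) q V₁ V₂ V₃ := by
  have hq : q.Prime := Fact.out
  have hq1 : ¬ q ∣ 1 := fun h1 => hq.one_lt.ne' (Nat.dvd_one.mp h1)
  obtain ⟨Φ, hΦ, hd, -, hk, hroot, hmin, -⟩ := ssvmc_modular 𝔸 E hAq
  have hrj := sqvm_root_j 𝔸 E Φ (hmin 1 hq1)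
  have hrq := sqvm_root_qq Φ hroot
  haveI := sqvm_dvr₁ h
  haveI := sqvm_dvr₂ h
  -- the inert step over `V₂`
  obtain ⟨hirr, G₂, h₃⟩ := sqvm_amb_inert 𝔸 E M h.V₂ (fun a => (sqvm_hA 𝔸 E M h a).2)
    (sqvm_hj 𝔸 E M h).2 (sqvm_hjq 𝔸 E M h).2 hAq hϖ (sqvm_hunif 𝔸 E M h).2 (sqvm_hϖ0 𝔸 E M h)
    Φ hΦ hk hrj hrq (fun hirr => sqvm_gen 𝔸 E M hqM Φ hΦ hd hrj hrq hirr)
    (sqvm_cong_V₂ 𝔸 E M h) (fun b hb => sqvmi_not_pow 𝔸 E M hAq hqM hϖ Ξ G h b hb)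
  -- the split step over `V₁`
  obtain ⟨v, hv, hv', hv0, hder⟩ := sqvm_hder 𝔸 E M h hAq hϖ hunr Φ hΦ hd hk hrj hirr
  obtain ⟨G₁, h₁, hcop⟩ := sqvm_amb_split 𝔸 E M h.V₁ (fun a => (sqvm_hA 𝔸 E M h a).1)
    (sqvm_hj 𝔸 E M h).1 (sqvm_hjq 𝔸 E M h).1 hAq hϖ (sqvm_hunif 𝔸 E M h).1 (sqvm_hϖ0 𝔸 E M h)
    Φ hΦ hk hrj hrq hirr (sqvm_gen 𝔸 E M hqM Φ hΦ hd hrj hrq hirr)
    (sqvm_cong_V₁ 𝔸 E M h).1 (sqvm_cong_V₁ 𝔸 E M h).2 v hv hv' hv0 hder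
  refine ⟨h₁.V 0, h₁.V 1, h₃.V 0, ?_⟩
  exact sqvm_out' (ssvmdIncl E (M * q) q).toRingHom h.V₁ h.V₂ hq
    (sqvm_natCast_mem_V₂ 𝔸 E M h hAq hϖ)
    (sqvm_incl_algebraMap 𝔸 E M ϖ) (sqvm_incl_algebraMap 𝔸 E M ϖ) h₁
    (a := (⟨ssvmmY E M q, (sqvm_hjq 𝔸 E M h).1⟩ : ↥h.V₁) ^ q)
    (b := (⟨ssvmdJ E (M * q), (sqvm_hj 𝔸 E M h).1⟩ : ↥h.V₁)) rfl rfl rfl rfl hcop h₃
    (c := (⟨ssvmmY E M q, (sqvm_hjq 𝔸 E M h).2⟩ : ↥h.V₂)) rfl rfl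
    ((map_pow _ _ _).trans (congrArg (· ^ q) (sqvm_incl_Y E M q))) (sqvm_incl_J E M q)
    (sqvm_incl_Y E M q)

end Main

end Fermat.Agent.SQ
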