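import Mathlib
import Fermat.Agent.SQ.Val.ModTwoMain
import Fermat.Agent.SQ.NormSym

/-!
# Program Q (S36), leaf VAL² (V-C)+(V-E), part 10 : the `α`-half `SqnsHalf` of the (VAL²) export

`sqvm_half` : the three valuation rings `V₁ V₂ V₃` of `F_E(M q q)` with `SqvmOut` (ModTwoOut) and
helper8's `SqnsHalf (algebraMap E F₁) α (s18dVal 𝔸 E) h.V₁ h.V₂ V₁ V₂ V₃ ϖ (j_qq - j) q`.

Prefix `sqvm`.
-/

set_option autoImplicit false
set_option linter.unusedSectionVars false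
set_option linter.unusedVariables false
set_option linter.style.haveILetI false
set_option linter.overlappingInstances false
set_option synthInstance.maxHeartbeats 400000

noncomputable section

namespace Fermat.Agent.SQ

open Polynomial ModularCurve AlgebraicCurve IsLocalRing IntermediateField Fermat.Agent.S24
  Fermat.Agent.G Fermat.Agent.S18 Fermat.Agent.SS

local notation "Qb" => AlgebraicClosure ℚ

attribute [local instance] sqvm_neZero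

section GenericHalf

variable {K K' : Type*} [Field K] [Field K']

/-- a valuation ring of `K'` containing `f(A)` in which the image of a nonzero element of `A` is a
non-unit lies over the discrete valuation ring `A` -/
theorem sqvm_comap_eq (f : K →+* K') (A : ValuationSubring K) [IsDiscreteValuationRing ↥A]
    (W : ValuationSubring K') (hle : ∀ a ∈ A, f a ∈ W) {π : K} (hπ0 : π ≠ 0)
    (hπ : f π ∈ W.nonunits) : W.comap f = A := by
  have hle' : A ≤ W.comap f := fun a ha => hle a ha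
  have htop : W.comap f ≠ ⊤ := by
    intro htop
    have h1 : π⁻¹ ∈ W.comap f := by rw [htop]; exact ValuationSubring.mem_top _
    have h2 : (f π)⁻¹ ∈ W := by
      have := (ValuationSubring.mem_comap).mp h1
      rwa [map_inv₀] at this
    have h4 := sqvk_mul_mem_nonunits W h2 hπ
    rw [inv_mul_cancel₀ ((map_ne_zero f).mpr hπ0), ValuationSubring.mem_nonunits_iff, map_one] at h4
    exact lt_irrefl _ h4
  exact (ValuationSubring.eq_of_le_of_ne_top A hle' htop).symm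

/-- an irreducible element of a discrete valuation subring is a uniformiser -/
theorem sqvm_isUnif_of_irreducible (W : ValuationSubring K) [IsDiscreteValuationRing ↥W] {ϖ : ↥W}
    (hϖ : Irreducible ϖ) : S18IsUnif W (ϖ : K) := by
  have h1 : (ϖ : K) ∈ W.nonunits := (W.coe_mem_nonunits_iff).mpr
    ((mem_maximalIdeal ϖ).mpr hϖ.not_isUnit)
  refine ⟨(W.mem_nonunits_iff).mp h1, fun x hx => ?_⟩
  have hxW : x ∈ W := W.nonunits_le ((W.mem_nonunits_iff).mpr hx)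
  have h2 : (⟨x, hxW⟩ : ↥W) ∈ maximalIdeal ↥W :=
    (W.coe_mem_nonunits_iff).mp ((W.mem_nonunits_iff).mpr hx)
  rw [hϖ.maximalIdeal_eq, Ideal.mem_span_singleton] at h2
  obtain ⟨c, hc⟩ := h2
  have h3 : x = (ϖ : K) * (c : K) := congrArg Subtype.val hc
  rw [h3, map_mul]
  exact mul_le_of_le_one_right' ((W.valuation_le_one_iff _).mpr c.2)

end GenericHalf

section AbsHalf

variable {L F₁ F : Type*} [Field L] [Field F₁] [Field F]

/-- `SqnsHalf` from `SqvmOut` and the level-one facts, abstractly -/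
theorem sqvm_half_abs (ι₁ : L →+* F₁) (α : F₁ →+* F) (A : ValuationSubring L)
    (W₁ W₂ : ValuationSubring F₁) (V₁ V₂ V₃ : ValuationSubring F) (ϖL : L) (ϖ₁ : F₁)
    (ϖF y a b c : F) (q : ℕ) (hι : ι₁ ϖL = ϖ₁) (hαι : α ϖ₁ = ϖF)
    (hout : SqvmOut α W₁ W₂ ϖF y a b c q V₁ V₂ V₃) (hq : q.Prime)
    (finα : SqniFin α) (degα : sqniDeg α = q) (unifA : S18IsUnif A ϖL)
    (discA : ∀ c : L, c ≠ 0 → ∃ m : ℤ, A.valuation c = A.valuation ϖL ^ m)
    (q_mem : (q : L) ∈ A.nonunits) (overW₁ : W₁.comap ι₁ = A) (overW₂ : W₂.comap ι₁ = A)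
    (unifW₁ : S18IsUnif W₁ ϖ₁) (unifW₂ : S18IsUnif W₂ ϖ₁)
    (discW₁ : ∀ x : F₁, x ≠ 0 → ∃ m : ℤ, W₁.valuation x = W₁.valuation ϖ₁ ^ m)
    (discW₂ : ∀ x : F₁, x ≠ 0 → ∃ m : ℤ, W₂.valuation x = W₂.valuation ϖ₁ ^ m)
    (neW : W₁ ≠ W₂) :
    SqnsHalf ι₁ α A W₁ W₂ V₁ V₂ V₃ ϖL (y - b) q := by
  subst hι hαι
  exact
    { hq := hq
      finα := finα
      degα := degα
      unifA := unifA
      discA := discA
      q_mem := q_mem
      overW₁ := overW₁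
      overW₂ := overW₂
      unifW₁ := unifW₁
      unifW₂ := unifW₂
      discW₁ := discW₁
      discW₂ := discW₂
      neW := neW
      unifV₁ := hout.unif₁
      unifV₂ := hout.unif₂
      unifV₃ := hout.unif₃
      pow₂ := hout.pow₂
      discV₁ := hout.disc₁
      discV₂ := hout.disc₂
      discV₃ := hout.disc₃
      posα₁ := hout.pos₁
      posα₂ := hout.pos₂
      posα₃ := hout.pos₃
      casesα := by
        intro V' hV'
        rcases hV' with hV' | hV'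
        · rcases hout.cases₁ V' hV' with h1 | h1
          · exact Or.inl h1
          · exact Or.inr (Or.inl h1)
        · exact Or.inr (Or.inr (hout.cases₂ V' hV'))
      res₁α := hout.res₁
      res₂α := hout.res₂
      ins₃ := hout.ins₃ }

end AbsHalf

section Half

variable {q : ℕ} [Fact q.Prime] (𝔸 : ValuationSubring Qb) (E : IntermediateField ℚ Qb)
  [IsDiscreteValuationRing ↥(s18dVal 𝔸 E)] [CharZero ↥(s18dVal 𝔸 E)]
variable (M : ℕ) [NeZero M] {ϖ : ↥(s18dVal 𝔸 E)}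
variable {Ξ G : (↥(ssvmmR 𝔸 E M q))[X]}
variable (h : SsvAmb (ssvmmR 𝔸 E M q) (ssvmgRUnif (ssvmm_le E M q) ϖ) (ssvmmY E M q) Ξ
  (X - C (ssvmmJ 𝔸 E M q ^ q)) (X ^ q - C (ssvmmJ 𝔸 E M q)) G)

/-- the constants of `A₀ ⊂ E` in `F_E(N)` -/
theorem sqvm_iota_eq (N : ℕ) [NeZero N] (a : ↥(s18dVal 𝔸 E)) :
    algebraMap ↥E ↥(modularFunctionFieldFullC E N) (a : ↥E) =
      algebraMap ↥(s18dVal 𝔸 E) ↥(modularFunctionFieldFullC E N) a :=
  (IsScalarTower.algebraMap_apply ↥(s18dVal 𝔸 E) ↥E ↥(modularFunctionFieldFullC E N) a).symm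

/-- `E ∩ h.V_i ⊇ A₀` -/
theorem sqvm_hleW (a : ↥E) (ha : a ∈ s18dVal 𝔸 E) :
    algebraMap ↥E ↥(modularFunctionFieldFullC E (M * q)) a ∈ h.V₁ ∧
      algebraMap ↥E ↥(modularFunctionFieldFullC E (M * q)) a ∈ h.V₂ :=
  sqvm_subst (fun z => z ∈ h.V₁ ∧ z ∈ h.V₂) (sqvm_iota_eq 𝔸 E (M * q) ⟨a, ha⟩).symm
    (sqvm_hA 𝔸 E M h ⟨a, ha⟩)

theorem sqvm_finα (hqM : ¬ q ∣ M) : SqniFin (ssvmdIncl E (M * q) q).toRingHom ∧
    sqniDeg (ssvmdIncl E (M * q) q).toRingHom = q := by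
  have hq : q.Prime := Fact.out
  have hfr : sqniDeg (ssvmdIncl E (M * q) q).toRingHom = q := sqvm_finrank E M hqM
  refine ⟨?_, hfr⟩
  unfold SqniFin
  unfold sqniDeg at hfr
  letI := (ssvmdIncl E (M * q) q).toRingHom.toAlgebra
  exact Module.finite_of_finrank_pos (by rw [hfr]; exact hq.pos)

theorem sqvm_q_mem (hAq : 𝔸.LiesOverPrime q) : ((q : ℕ) : ↥E) ∈ (s18dVal 𝔸 E).nonunits := by
  have h1 := ((s18dVal 𝔸 E).coe_mem_nonunits_iff).mpr (s18d_natCast_mem 𝔸 E hAq)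
  have h2 : ((((q : ℕ) : ↥(s18dVal 𝔸 E)) : ↥(s18dVal 𝔸 E)) : ↥E) = ((q : ℕ) : ↥E) := by simp
  rw [h2] at h1
  exact h1

/-- **the `α`-half of the (VAL²) export** (`SqnsHalf`) from `SqvmOut` -/
theorem sqvm_half_of_out (hAq : 𝔸.LiesOverPrime q) (hqM : ¬ q ∣ M) (hϖ : Irreducible ϖ)
    {V₁ V₂ V₃ : ValuationSubring ↥(modularFunctionFieldFullC E (M * q * q))}
    (hout : SqvmOut (ssvmdIncl E (M * q) q).toRingHom h.V₁ h.V₂
      (algebraMap ↥(s18dVal 𝔸 E) ↥(modularFunctionFieldFullC E (M * q * q)) ϖ)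
      (sqvmY E M q) (sqvmJq E M q ^ q) (ssvmdJ E (M * q * q)) (sqvmJq E M q) q V₁ V₂ V₃) :
    SqnsHalf (algebraMap ↥E ↥(modularFunctionFieldFullC E (M * q)))
      (ssvmdIncl E (M * q) q).toRingHom (s18dVal 𝔸 E) h.V₁ h.V₂ V₁ V₂ V₃ (ϖ : ↥E)
      (sqvmY E M q - ssvmdJ E (M * q * q)) q := by
  have hq : q.Prime := Fact.out
  haveI := sqvm_dvr₁ h
  haveI := sqvm_dvr₂ h
  have hϖ0 : algebraMap ↥(s18dVal 𝔸 E) ↥(modularFunctionFieldFullC E (M * q)) ϖ ≠ 0 :=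
    sqvm_hϖ0 𝔸 E M h
  have hunifA : S18IsUnif (s18dVal 𝔸 E) (ϖ : ↥E) := sqvm_isUnif_of_irreducible (s18dVal 𝔸 E) hϖ
  have hϖE0 : (ϖ : ↥E) ≠ 0 := fun h0 => hϖ.ne_zero (Subtype.ext h0)
  have hu := sqvm_hunif 𝔸 E M h
  have hι := sqvm_iota_eq 𝔸 E (M * q) ϖ
  exact sqvm_half_abs (algebraMap ↥E ↥(modularFunctionFieldFullC E (M * q)))
    (ssvmdIncl E (M * q) q).toRingHom (s18dVal 𝔸 E) h.V₁ h.V₂ V₁ V₂ V₃ (ϖ : ↥E)
    (algebraMap ↥(s18dVal 𝔸 E) ↥(modularFunctionFieldFullC E (M * q)) ϖ)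
    (algebraMap ↥(s18dVal 𝔸 E) ↥(modularFunctionFieldFullC E (M * q * q)) ϖ)
    (sqvmY E M q) (sqvmJq E M q ^ q) (ssvmdJ E (M * q * q)) (sqvmJq E M q) q
    hι (sqvm_incl_algebraMap 𝔸 E M ϖ) hout hq (sqvm_finα E M hqM).1 (sqvm_finα E M hqM).2
    hunifA (sqvm_disc (s18dVal 𝔸 E) hunifA hϖE0) (sqvm_q_mem 𝔸 E hAq)
    (sqvm_comap_eq _ (s18dVal 𝔸 E) h.V₁ (fun a ha => (sqvm_hleW 𝔸 E M h a ha).1) hϖE0
      (sqvm_subst (fun z => z ∈ h.V₁.nonunits) hι.symm ((h.V₁.mem_nonunits_iff).mpr hu.1.1)))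
    (sqvm_comap_eq _ (s18dVal 𝔸 E) h.V₂ (fun a ha => (sqvm_hleW 𝔸 E M h a ha).2) hϖE0
      (sqvm_subst (fun z => z ∈ h.V₂.nonunits) hι.symm ((h.V₂.mem_nonunits_iff).mpr hu.2.1)))
    hu.1 hu.2 (sqvm_disc h.V₁ hu.1 hϖ0) (sqvm_disc h.V₂ hu.2 hϖ0) h.V_ne

/-- **(VAL², `α`-half)** : the three valuation rings, `SqvmOut` and `SqnsHalf` -/
theorem sqvm_half (hAq : 𝔸.LiesOverPrime q) (hqM : ¬ q ∣ M) (hϖ : Irreducible ϖ)
    (hunr : Associated ((q : ℕ) : ↥(s18dVal 𝔸 E)) ϖ) :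
    ∃ V₁ V₂ V₃ : ValuationSubring ↥(modularFunctionFieldFullC E (M * q * q)),
      SqvmOut (ssvmdIncl E (M * q) q).toRingHom h.V₁ h.V₂
        (algebraMap ↥(s18dVal 𝔸 E) ↥(modularFunctionFieldFullC E (M * q * q)) ϖ)
        (sqvmY E M q) (sqvmJq E M q ^ q) (ssvmdJ E (M * q * q)) (sqvmJq E M q) q V₁ V₂ V₃ ∧
      SqnsHalf (algebraMap ↥E ↥(modularFunctionFieldFullC E (M * q)))
        (ssvmdIncl E (M * q) q).toRingHom (s18dVal 𝔸 E) h.V₁ h.V₂ V₁ V₂ V₃ (ϖ : ↥E)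
        (sqvmY E M q - ssvmdJ E (M * q * q)) q := by
  obtain ⟨V₁, V₂, V₃, hout⟩ := sqvm_main 𝔸 E M h hAq hqM hϖ hunr
  exact ⟨V₁, V₂, V₃, hout, sqvm_half_of_out 𝔸 E M h hAq hqM hϖ hout⟩

end Half

end Fermat.Agent.SQ
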