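import Mathlib
import Fermat.Agent.S18.T.Spec
import Fermat.Agent.SS.Val.Gauss2
import Fermat.Agent.SQ.Three
import Fermat.Agent.SQ.Val.Step

/-!
# Program Q (S36), leaf VAL² (S5) : the tower step for the integral closure of `A[t]_(ϖ)`

Setting of S18 package T for TWO function fields `F₁ ⊂ F` (`α : F₁ →+* F` over `A`), `t = α t₁`.
The Gauss valuation of `L(t₁)` has exactly two extensions `W₁, W₂` to `F₁` (`SsvTwo`), `W₁` has
exactly the extensions `V₁, V₂` to `F` and `W₂` has exactly the extension `V₃`.  Then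
`P_(ϖ) = s18tIntLoc A t (C ϖ) = V₁ ∩ V₂ ∩ V₃` and, given the uniformiser data, `SqvThree` holds
(`sqvw_three`).

All hypotheses are in FIELD FORM (positions `V.comap α = W`, completeness, uniformisers,
separating elements inside the `W₁`-family), so that the theorem does not depend on the way the two
Dedekind–Kummer packages are instantiated.
-/

set_option autoImplicit false
set_option linter.unusedSectionVars false
set_option linter.unusedVariables false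
set_option linter.style.haveILetI false

noncomputable section

namespace Fermat.Agent.SQ

open Polynomial IntermediateField Fermat.Agent.S18 Fermat.Agent.SS

universe u u₁

variable {A : Type*} [CommRing A] [IsDomain A] [IsDiscreteValuationRing A] [CharZero A]
variable {L : Type*} [Field L] [Algebra A L] [IsFractionRing A L]
variable {F₁ : Type u₁} [Field F₁] [Algebra A F₁] [Algebra L F₁] [IsScalarTower A L F₁]
variable {F : Type u} [Field F] [Algebra A F] [Algebra L F] [IsScalarTower A L F]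
variable {ϖ : A}

/-- an element integral over a subring of a valuation ring lies in the valuation ring -/
theorem sqvw_mem_of_isIntegral {K : Type*} [Field K] {R : Subring K} (V : ValuationSubring K)
    (hRV : R ≤ V.toSubring) {x : K} (hx : IsIntegral ↥R x) : x ∈ V := by
  obtain ⟨p, hp, hpx⟩ := hx
  have h1 : IsIntegral ↥V x := by
    refine ⟨p.map (Subring.inclusion hRV), hp.map _, ?_⟩
    rw [eval₂_map]
    exact hpx
  obtain ⟨y, hy⟩ := (IsIntegrallyClosed.isIntegral_iff (R := ↥V) (K := K)).mp h1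
  rw [← hy]
  exact y.2

section Tower

variable (hϖ : Irreducible ϖ) (α : F₁ →+* F)
  (hαA : ∀ a : A, α (algebraMap A F₁ a) = algebraMap A F a) (t₁ : F₁)

include hαA in
/-- `α (p(t₁)) = p(α t₁)` -/
theorem sqvw_map_aeval (p : A[X]) : α (aeval t₁ p) = aeval (α t₁) p := by
  induction p using Polynomial.induction_on' with
  | add p q hp hq => rw [map_add, map_add, map_add, hp, hq]
  | monomial n a =>
    rw [aeval_monomial, aeval_monomial, map_mul, map_pow, hαA]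

include hαA in
/-- `α` maps `A[t₁]_(ϖ)` into `A[t]_(ϖ)`, `t = α t₁` -/
theorem sqvw_map_loc {x : F₁} (hx : x ∈ s18tLoc A t₁ (C ϖ) (s18t_prime_C hϖ)) :
    α x ∈ s18tLoc A (α t₁) (C ϖ) (s18t_prime_C hϖ) := by
  obtain ⟨a, b, hb, hab⟩ := hx
  refine ⟨a, b, hb, ?_⟩
  rw [← sqvw_map_aeval α hαA t₁, ← sqvw_map_aeval α hαA t₁, ← map_mul, hab]

include hαA in
/-- every element of `A[t]_(ϖ)` comes from `A[t₁]_(ϖ)` -/
theorem sqvw_loc_exists {y : F} (hy : y ∈ s18tLoc A (α t₁) (C ϖ) (s18t_prime_C hϖ))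
    (hb0 : ∀ b : A[X], ¬ (C ϖ ∣ b) → aeval t₁ b ≠ 0) :
    ∃ x : F₁, x ∈ s18tLoc A t₁ (C ϖ) (s18t_prime_C hϖ) ∧ α x = y := by
  obtain ⟨a, b, hb, hab⟩ := hy
  have hb1 : aeval t₁ b ≠ 0 := hb0 b hb
  refine ⟨aeval t₁ a / aeval t₁ b, ⟨a, b, hb, div_mul_cancel₀ _ hb1⟩, ?_⟩
  have hb2 : aeval (α t₁) b ≠ 0 := by
    rw [← sqvw_map_aeval α hαA t₁]
    exact (map_ne_zero α).mpr hb1
  rw [map_div₀, sqvw_map_aeval α hαA t₁, sqvw_map_aeval α hαA t₁, ← hab,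
    mul_div_cancel_right₀ _ hb2]

end Tower

/-- `z ∈ 𝔪_W ↔ z⁻¹ ∉ W` for `z ≠ 0` -/
theorem sqvw_mem_nonunits_iff_inv {K : Type*} [Field K] (W : ValuationSubring K) {z : K}
    (hz : z ≠ 0) : z ∈ W.nonunits ↔ z⁻¹ ∉ W := by
  rw [ValuationSubring.mem_nonunits_iff, ← W.valuation_le_one_iff, map_inv₀, not_le]
  have h0 : W.valuation z ≠ 0 := (Valuation.ne_zero_iff _).mpr hz
  constructor
  · intro h
    exact (one_lt_inv₀ (zero_lt_iff.mpr h0)).mpr h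
  · intro h
    exact (one_lt_inv₀ (zero_lt_iff.mpr h0)).mp h

/-- non-units of a comap -/
theorem sqvw_mem_nonunits_comap {K₁ K : Type*} [Field K₁] [Field K] (α : K₁ →+* K)
    (V : ValuationSubring K) (x : K₁) : x ∈ (V.comap α).nonunits ↔ α x ∈ V.nonunits := by
  by_cases hx0 : x = 0
  · subst hx0
    rw [map_zero]
    simp
  · rw [sqvw_mem_nonunits_iff_inv _ hx0, sqvw_mem_nonunits_iff_inv _ ((map_ne_zero α).mpr hx0),
      ValuationSubring.mem_comap, map_inv₀]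

section Main

variable (hϖ : Irreducible ϖ) (α : F₁ →+* F)
  (hαA : ∀ a : A, α (algebraMap A F₁ a) = algebraMap A F a) (t₁ : F₁)
  (ht₁ : Transcendental L t₁) (ht : Transcendental L (α t₁)) [FiniteDimensional L⟮α t₁⟯ F]
  {u₁ u₂ : F₁} {W₁ W₂ : ValuationSubring F₁} (h2 : SsvTwo hϖ t₁ u₁ u₂ W₁ W₂)
  {V₁ V₂ V₃ : ValuationSubring F}
  (hc₁ : V₁.comap α = W₁) (hc₂ : V₂.comap α = W₁) (hc₃ : V₃.comap α = W₂)
  (hcases₁ : ∀ V : ValuationSubring F, V.comap α = W₁ → V = V₁ ∨ V = V₂)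
  (hcases₂ : ∀ V : ValuationSubring F, V.comap α = W₂ → V = V₃)

include hαA ht₁ h2 in
/-- `A[t]_(ϖ) ⊆ V` for every valuation ring `V` of `F` lying over `W₁` or `W₂` -/
theorem sqvw_loc_le {V : ValuationSubring F} (hV : V.comap α = W₁ ∨ V.comap α = W₂) :
    s18tLoc A (α t₁) (C ϖ) (s18t_prime_C hϖ) ≤ V.toSubring := by
  intro y hy
  have htA : Transcendental A t₁ := s18tb_transcendental ht₁
  obtain ⟨x₀, hx₀, rfl⟩ := sqvw_loc_exists hϖ α hαA t₁ hy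
    (fun b hb => s18tlg_aeval_ne_zero htA (s18tlg_ne_zero_of_not_dvd hb))
  have h3 := (h2.mem_iff x₀).mp (s18tc_loc_le_intLoc t₁ _ _ hx₀)
  rcases hV with hV | hV
  · have : x₀ ∈ V.comap α := hV ▸ h3.1
    exact this
  · have : x₀ ∈ V.comap α := hV ▸ h3.2
    exact this

include hαA ht₁ ht h2 hc₁ hc₂ hc₃ hcases₁ hcases₂ in
/-- **`P_(ϖ) = V₁ ∩ V₂ ∩ V₃`** -/
theorem sqvw_mem_iff (x : F) :
    x ∈ s18tIntLoc A (α t₁) (C ϖ) (s18t_prime_C hϖ) ↔ x ∈ V₁ ∧ x ∈ V₂ ∧ x ∈ V₃ := by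
  constructor
  · intro hx
    have hx' : IsIntegral ↥(s18tLoc A (α t₁) (C ϖ) (s18t_prime_C hϖ)) x := hx
    exact ⟨sqvw_mem_of_isIntegral V₁ (sqvw_loc_le hϖ α hαA t₁ ht₁ h2 (Or.inl hc₁)) hx',
      sqvw_mem_of_isIntegral V₂ (sqvw_loc_le hϖ α hαA t₁ ht₁ h2 (Or.inl hc₂)) hx',
      sqvw_mem_of_isIntegral V₃ (sqvw_loc_le hϖ α hαA t₁ ht₁ h2 (Or.inr hc₃)) hx'⟩
  · rintro ⟨hx₁, hx₂, hx₃⟩
    by_contra hx
    haveI : IsIntegrallyClosedIn ↥(s18tIntLoc A (α t₁) (C ϖ) (s18t_prime_C hϖ)) F :=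
      inferInstanceAs (IsIntegrallyClosedIn
        ↥(integralClosure ↥(s18tLoc A (α t₁) (C ϖ) (s18t_prime_C hϖ)) F).toSubring F)
    obtain ⟨V, hV, hxV⟩ := Subring.exists_le_valuationSubring_of_isIntegrallyClosedIn hx
    apply hxV
    have hϖV : algebraMap A F ϖ ∈ V :=
      hV (s18tc_int_le_intLoc (α t₁) _ _ (s18tc_algebraMap_mem_int (α t₁) ϖ))
    by_cases hlt : V.valuation (algebraMap A F ϖ) < 1
    · -- `V` lies over the Gauss valuation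
      have hle : s18tLoc A t₁ (C ϖ) (s18t_prime_C hϖ) ≤ (V.comap α).toSubring := by
        intro x₀ hx₀
        show α x₀ ∈ V
        exact hV (s18tc_loc_le_intLoc (α t₁) _ _ (sqvw_map_loc hϖ α hαA t₁ hx₀))
      have hnu : algebraMap A F₁ ϖ ∈ (V.comap α).nonunits := by
        rw [sqvw_mem_nonunits_comap, hαA, ValuationSubring.mem_nonunits_iff]
        exact hlt
      rcases h2.cases (V.comap α) hle hnu with h3 | h3
      · rcases hcases₁ V h3 with rfl | rfl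
        · exact hx₁
        · exact hx₂
      · rw [hcases₂ V h3]; exact hx₃
    · -- `ϖ` is a unit of `V`
      have h1 : V.valuation (algebraMap A F ϖ) = 1 :=
        le_antisymm ((V.valuation_le_one_iff _).mpr hϖV) (not_lt.mp hlt)
      obtain ⟨k, hk⟩ := sqt_exists_pow_mul_mem (L := L) hϖ (α t₁) ht x
      have h3 := (V.valuation_le_one_iff _).mpr (hV hk)
      rw [map_mul, map_pow, h1, one_pow, one_mul] at h3
      exact (V.valuation_le_one_iff _).mp h3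

end Main

/-- units of a comap -/
theorem sqvw_val_eq_one_comap {K₁ K : Type*} [Field K₁] [Field K] (α : K₁ →+* K)
    (V : ValuationSubring K) {x : K₁} (hx : (V.comap α).valuation x = 1) :
    V.valuation (α x) = 1 := by
  have h1 : x ∈ V.comap α := ((V.comap α).valuation_le_one_iff _).mp hx.le
  have h2 : x⁻¹ ∈ V.comap α := by
    rw [← (V.comap α).valuation_le_one_iff, map_inv₀, hx, inv_one]
  have h3 : V.valuation (α x) ≤ 1 := (V.valuation_le_one_iff _).mpr h1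
  have h4 : V.valuation (α x)⁻¹ ≤ 1 := by
    rw [← map_inv₀]
    exact (V.valuation_le_one_iff _).mpr h2
  have hx0 : x ≠ 0 := by
    rintro rfl
    rw [map_zero] at hx
    exact zero_ne_one hx
  have h0 : V.valuation (α x) ≠ 0 := (Valuation.ne_zero_iff _).mpr ((map_ne_zero α).mpr hx0)
  rw [map_inv₀] at h4
  exact le_antisymm h3 ((inv_le_one₀ (zero_lt_iff.mpr h0)).mp h4)

section Three

variable (hϖ : Irreducible ϖ) (α : F₁ →+* F)
  (hαA : ∀ a : A, α (algebraMap A F₁ a) = algebraMap A F a) (t₁ : F₁)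
  (ht₁ : Transcendental L t₁) (ht : Transcendental L (α t₁)) [FiniteDimensional L⟮α t₁⟯ F]
  {u₁ u₂ : F₁} {W₁ W₂ : ValuationSubring F₁} (h2 : SsvTwo hϖ t₁ u₁ u₂ W₁ W₂)
  {V₁ V₂ V₃ : ValuationSubring F}
  (hc₁ : V₁.comap α = W₁) (hc₂ : V₂.comap α = W₁) (hc₃ : V₃.comap α = W₂)
  (hcases₁ : ∀ V : ValuationSubring F, V.comap α = W₁ → V = V₁ ∨ V = V₂)
  (hcases₂ : ∀ V : ValuationSubring F, V.comap α = W₂ → V = V₃)

include hαA ht₁ ht h2 hc₁ hc₂ hc₃ hcases₁ hcases₂ in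
/-- **(S5)** : the three valuations of the level `q²` from the two valuations of the level `q` and
the decomposition of each of them in the step `F₁ ⊂ F`. -/
theorem sqvw_three (hu₁ : S18IsUnif V₁ (algebraMap A F ϖ)) (hu₃ : S18IsUnif V₃ (algebraMap A F ϖ))
    {π₂ : F} {e₂ : ℕ} (hu₂ : S18IsUnif V₂ π₂) (he₂ : e₂ ≠ 0)
    (hpow : V₂.valuation π₂ ^ e₂ = V₂.valuation (algebraMap A F ϖ))
    (hs₁₂ : ∃ u : F, u ∈ V₁.nonunits ∧ V₂.valuation u = 1)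
    (hs₂₁ : ∃ u : F, u ∈ V₂.nonunits ∧ V₁.valuation u = 1) :
    SqvThree hϖ (α t₁) e₂ π₂ V₁ V₂ V₃ := by
  have hp0 : algebraMap A F ϖ ≠ 0 := sqt_unif_ne_zero L hϖ
  have hmem := sqvw_mem_iff hϖ α hαA t₁ ht₁ ht h2 hc₁ hc₂ hc₃ hcases₁ hcases₂
  -- the images of `u₁`, `u₂`
  have hu₁₁ : α u₁ ∈ V₁.nonunits := by
    rw [← sqvw_mem_nonunits_comap, hc₁]; exact h2.mem₁
  have hu₁₂ : α u₁ ∈ V₂.nonunits := by
    rw [← sqvw_mem_nonunits_comap, hc₂]; exact h2.mem₁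
  have hu₁₃ : V₃.valuation (α u₁) = 1 :=
    sqvw_val_eq_one_comap α V₃ (by rw [hc₃]; exact h2.unit₁)
  have hu₂₃ : α u₂ ∈ V₃.nonunits := by
    rw [← sqvw_mem_nonunits_comap, hc₃]; exact h2.mem₂
  have hu₂₁ : V₁.valuation (α u₂) = 1 :=
    sqvw_val_eq_one_comap α V₁ (by rw [hc₁]; exact h2.unit₂)
  have hu₂₂ : V₂.valuation (α u₂) = 1 :=
    sqvw_val_eq_one_comap α V₂ (by rw [hc₂]; exact h2.unit₂)
  have hnu_mem : ∀ (V : ValuationSubring F) {x : F}, x ∈ V.nonunits → x ∈ V := fun V x hx =>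
    (V.valuation_le_one_iff _).mp ((ValuationSubring.mem_nonunits_iff _).mp hx).le
  have hone_mem : ∀ (V : ValuationSubring F) {x : F}, V.valuation x = 1 → x ∈ V := fun V x hx =>
    (V.valuation_le_one_iff _).mp hx.le
  -- the correction making an element integral at `V₃`
  have hfix : ∀ u₀ : F, ∃ k : ℕ, u₀ * (α u₂) ^ k ∈ V₃ := by
    intro u₀
    obtain ⟨k, hk⟩ := sqt_exists_pow_mul_mem (L := L) hϖ (α t₁) ht u₀
    have h3 : V₃.valuation (algebraMap A F ϖ ^ k * u₀) ≤ 1 :=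
      (V₃.valuation_le_one_iff _).mpr ((hmem _).mp hk).2.2
    refine ⟨k, ?_⟩
    rw [← V₃.valuation_le_one_iff, map_mul, map_pow]
    have h4 : V₃.valuation (α u₂) ≤ V₃.valuation (algebraMap A F ϖ) :=
      hu₃.2 _ ((ValuationSubring.mem_nonunits_iff _).mp hu₂₃)
    calc V₃.valuation u₀ * V₃.valuation (α u₂) ^ k
        ≤ V₃.valuation u₀ * V₃.valuation (algebraMap A F ϖ) ^ k :=
          mul_le_mul_right (pow_le_pow_left₀ zero_le h4 k) _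
      _ = V₃.valuation (algebraMap A F ϖ ^ k * u₀) := by rw [map_mul, map_pow, mul_comm]
      _ ≤ 1 := h3
  refine
    { mem_iff := hmem
      unif₁ := hu₁
      unif₂ := hu₂
      unif₃ := hu₃
      e₂_ne := he₂
      pow₂ := ?_
      sep₁₂ := ?_
      sep₂₁ := ?_
      sep₁₃ := ⟨α u₁, hu₁₁, hu₁₃, hnu_mem V₂ hu₁₂⟩
      sep₃₁ := ⟨α u₂, hu₂₃, hu₂₁, hone_mem V₂ hu₂₂⟩
      sep₂₃ := ⟨α u₁, hu₁₂, hu₁₃, hnu_mem V₁ hu₁₁⟩
      sep₃₂ := ⟨α u₂, hu₂₃, hu₂₂, hone_mem V₁ hu₂₁⟩ }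
  · refine ⟨π₂ ^ e₂ / algebraMap A F ϖ, ?_, by rw [mul_div_cancel₀ _ hp0]⟩
    rw [map_div₀, map_pow, hpow]
    exact div_self ((Valuation.ne_zero_iff _).mpr hp0)
  · obtain ⟨u₀, h1, h2'⟩ := hs₁₂
    obtain ⟨k, hk⟩ := hfix u₀
    refine ⟨u₀ * (α u₂) ^ k, ?_, ?_, hk⟩
    · rw [ValuationSubring.mem_nonunits_iff, map_mul, map_pow, hu₂₁, one_pow, mul_one]
      exact (ValuationSubring.mem_nonunits_iff _).mp h1
    · rw [map_mul, map_pow, hu₂₂, one_pow, mul_one, h2']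
  · obtain ⟨u₀, h1, h2'⟩ := hs₂₁
    obtain ⟨k, hk⟩ := hfix u₀
    refine ⟨u₀ * (α u₂) ^ k, ?_, ?_, hk⟩
    · rw [ValuationSubring.mem_nonunits_iff, map_mul, map_pow, hu₂₂, one_pow, mul_one]
      exact (ValuationSubring.mem_nonunits_iff _).mp h1
    · rw [map_mul, map_pow, hu₂₁, one_pow, mul_one, h2']

end Three

section Amb

variable (hϖ : Irreducible ϖ) (α : F₁ →+* F)
  (hαA : ∀ a : A, α (algebraMap A F₁ a) = algebraMap A F a) (t₁ : F₁)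
  (ht₁ : Transcendental L t₁) (ht : Transcendental L (α t₁)) [FiniteDimensional L⟮α t₁⟯ F]
  {u₁ u₂ : F₁} {W₁ W₂ : ValuationSubring F₁} (h2 : SsvTwo hϖ t₁ u₁ u₂ W₁ W₂)
  [IsDiscreteValuationRing ↥W₁] [IsDiscreteValuationRing ↥W₂]

/-- a uniformiser is determined by its valuation -/
theorem sqvw_unif_congr {K : Type*} [Field K] {V : ValuationSubring K} {π π' : K}
    (h : S18IsUnif V π) (hv : V.valuation π = V.valuation π') : S18IsUnif V π' :=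
  ⟨hv ▸ h.1, fun x hx => hv ▸ h.2 x hx⟩

include hαA ht₁ ht h2 in
/-- **(S5), Dedekind–Kummer form** : the two packages `SqvkAmb` over `α(W₁)` (two factors, the first
one unramified) and over `α(W₂)` (one unramified factor) give `SqvThree` at the upper level. -/
theorem sqvw_three_of_amb {ϖ₁ : ↥W₁} {ϖ₂ : ↥W₂}
    (hϖ₁ : (ϖ₁ : F₁) = algebraMap A F₁ ϖ) (hϖ₂ : (ϖ₂ : F₁) = algebraMap A F₁ ϖ)
    {y y' : F} {Ξ₁ : (↥(sqvsR α W₁))[X]} {Fs₁ : Fin 2 → (↥(sqvsR α W₁))[X]} {e₁ : Fin 2 → ℕ}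
    {G₁ : (↥(sqvsR α W₁))[X]}
    (h₁ : SqvkAmb (sqvsR α W₁) (sqvsEquiv α W₁ ϖ₁) y Ξ₁ Fs₁ e₁ G₁) (he₁ : e₁ 0 = 1)
    {Ξ₂ : (↥(sqvsR α W₂))[X]} {Fs₂ : Fin 1 → (↥(sqvsR α W₂))[X]} {e₂ : Fin 1 → ℕ}
    {G₂ : (↥(sqvsR α W₂))[X]}
    (h₃ : SqvkAmb (sqvsR α W₂) (sqvsEquiv α W₂ ϖ₂) y' Ξ₂ Fs₂ e₂ G₂) (he₂ : e₂ 0 = 1) :
    ∃ π₂ : F, (π₂ = algebraMap A F ϖ ∨ π₂ = aeval y (Fs₁ 1)) ∧
      SqvThree hϖ (α t₁) (e₁ 1) π₂ (h₁.V 0) (h₁.V 1) (h₃.V 0) := by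
  have hcoe₁ : ((sqvsEquiv α W₁ ϖ₁ : ↥(sqvsR α W₁)) : F) = algebraMap A F ϖ := by
    rw [sqvsEquiv_coe, hϖ₁, hαA]
  have hcoe₂ : ((sqvsEquiv α W₂ ϖ₂ : ↥(sqvsR α W₂)) : F) = algebraMap A F ϖ := by
    rw [sqvsEquiv_coe, hϖ₂, hαA]
  -- the unramified uniformisers
  have hu₁ : S18IsUnif (h₁.V 0) (algebraMap A F ϖ) := by
    obtain ⟨π, -, hπ, hpow⟩ := h₁.exists_unif 0
    rw [he₁, pow_one, hcoe₁] at hpow
    exact sqvw_unif_congr hπ hpow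
  have hu₃ : S18IsUnif (h₃.V 0) (algebraMap A F ϖ) := by
    obtain ⟨π, -, hπ, hpow⟩ := h₃.exists_unif 0
    rw [he₂, pow_one, hcoe₂] at hpow
    exact sqvw_unif_congr hπ hpow
  obtain ⟨π₂, hπ₂, hu₂, hpow₂⟩ := h₁.exists_unif 1
  rw [hcoe₁] at hpow₂ hπ₂
  refine ⟨π₂, hπ₂, sqvw_three hϖ α hαA t₁ ht₁ ht h2 (sqvs_comap α W₁ h₁ 0) (sqvs_comap α W₁ h₁ 1)
    (sqvs_comap α W₂ h₃ 0) ?_ ?_ hu₁ hu₃ hu₂ (Nat.pos_iff_ne_zero.mp (h₁.epos 1)) hpow₂ ?_ ?_⟩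
  · intro V hV
    obtain ⟨i, rfl⟩ := sqvs_cases α W₁ h₁ V hV
    fin_cases i
    · exact Or.inl rfl
    · exact Or.inr rfl
  · intro V hV
    obtain ⟨i, rfl⟩ := sqvs_cases α W₂ h₃ V hV
    fin_cases i
    rfl
  · exact ⟨aeval y (Fs₁ 0), (h₁.sep (i := 0) (j := 1) (by decide)).2.1,
      (h₁.sep (i := 0) (j := 1) (by decide)).2.2⟩
  · exact ⟨aeval y (Fs₁ 1), (h₁.sep (i := 1) (j := 0) (by decide)).2.1,
      (h₁.sep (i := 1) (j := 0) (by decide)).2.2⟩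

include hαA ht₁ ht h2 in
/-- **(S5), ramified form** : if the second factor over `W₁` has exponent `≥ 2` the uniformiser of
`V₂` is `Fs₁ 1 (y)`. -/
theorem sqvw_three_of_amb_ram {ϖ₁ : ↥W₁} {ϖ₂ : ↥W₂}
    (hϖ₁ : (ϖ₁ : F₁) = algebraMap A F₁ ϖ) (hϖ₂ : (ϖ₂ : F₁) = algebraMap A F₁ ϖ)
    {y y' : F} {Ξ₁ : (↥(sqvsR α W₁))[X]} {Fs₁ : Fin 2 → (↥(sqvsR α W₁))[X]} {e₁ : Fin 2 → ℕ}
    {G₁ : (↥(sqvsR α W₁))[X]}
    (h₁ : SqvkAmb (sqvsR α W₁) (sqvsEquiv α W₁ ϖ₁) y Ξ₁ Fs₁ e₁ G₁) (he₁ : e₁ 0 = 1)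
    (hram : 2 ≤ e₁ 1)
    {Ξ₂ : (↥(sqvsR α W₂))[X]} {Fs₂ : Fin 1 → (↥(sqvsR α W₂))[X]} {e₂ : Fin 1 → ℕ}
    {G₂ : (↥(sqvsR α W₂))[X]}
    (h₃ : SqvkAmb (sqvsR α W₂) (sqvsEquiv α W₂ ϖ₂) y' Ξ₂ Fs₂ e₂ G₂) (he₂ : e₂ 0 = 1) :
    SqvThree hϖ (α t₁) (e₁ 1) (aeval y (Fs₁ 1)) (h₁.V 0) (h₁.V 1) (h₃.V 0) := by
  obtain ⟨π₂, hπ₂, h3⟩ := sqvw_three_of_amb hϖ α hαA t₁ ht₁ ht h2 hϖ₁ hϖ₂ h₁ he₁ h₃ he₂
  rcases hπ₂ with rfl | rfl
  · exfalso
    obtain ⟨u, hu, hpow⟩ := h3.pow₂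
    have hp0 : algebraMap A F ϖ ≠ 0 := sqt_unif_ne_zero L hϖ
    have hlt : (h₁.V 1).valuation (algebraMap A F ϖ) < 1 := h3.unif₂.1
    have h0 : (h₁.V 1).valuation (algebraMap A F ϖ) ≠ 0 := (Valuation.ne_zero_iff _).mpr hp0
    have h4 := congrArg (h₁.V 1).valuation hpow
    rw [map_pow, map_mul, hu, mul_one] at h4
    obtain ⟨d, hd⟩ := Nat.exists_eq_add_of_le hram
    rw [hd, show 2 + d = (d + 1) + 1 by ring, pow_succ] at h4
    have h5 : (h₁.V 1).valuation (algebraMap A F ϖ) ^ (d + 1) = 1 := by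
      have := mul_right_cancel₀ h0 (h4.trans (one_mul _).symm)
      exact this
    have h6 : (h₁.V 1).valuation (algebraMap A F ϖ) ^ (d + 1) < 1 :=
      pow_lt_one₀ zero_le hlt (Nat.succ_ne_zero d)
    rw [h5] at h6
    exact lt_irrefl _ h6
  · exact h3

end Amb

end Fermat.Agent.SQ
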