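import Mathlib
import Fermat.Agent.SQ.Val.ModTwoHalf
import Fermat.Agent.SQ.Val.Tower

/-!
# Program Q (S36), leaf VAL², slice (A-three) : `SqvThree` + `SqnsHalf` + `SqvmOut` about the SAME
three valuation rings of `F_E(M q q)`

* `sqvm_three_of_out` : `SqvThree hϖ (α t₁) (q - 1) (j_qq - j) V₁ V₂ V₃` from `SqvmOut` and
  `SsvTwo hϖ t₁ u₁ u₂ h.V₁ h.V₂` (helper15's tower lemma `sqvw_three`);
* `structure SqvmVal 𝔸 E M h hϖ t₁ V₁ V₂ V₃` : fields `two` (`SsvTwo` at level `M q`), `out`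
  (`SqvmOut`), `half` (`SqnsHalf`), `transc`, `fin`, `three` (`SqvThree`, chart `α t₁`);
* `sqvm_val_of_two` : `∃ V₁ V₂ V₃, SqvmVal 𝔸 E M h hϖ t₁ V₁ V₂ V₃` for a given witness `h` and
  `SsvTwo hϖ t₁ … h.V₁ h.V₂`;
* `sqvm_val_coord` : for a general chart coordinate `t₀` of `F_E(M)` (`S18VPole`, `S18Coord`) :
  `∃ Ξ G h V₁ V₂ V₃, SqvmVal 𝔸 E M h hϖ (ssvmdIncl E M q t₀) V₁ V₂ V₃`;
* `sqvm_val_j` : the same for the chart `j` (`sqvm_incl_incl_J`).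

Prefix `sqvm`.
-/

set_option autoImplicit false
set_option linter.unusedSectionVars false
set_option linter.unusedVariables false
set_option linter.style.haveILetI false
set_option linter.overlappingInstances false
set_option synthInstance.maxHeartbeats 400000

noncomputable section

namespace Fermat.Agent.SQ

open Polynomial ModularCurve AlgebraicCurve IsLocalRing IntermediateField Fermat.Agent.S24
  Fermat.Agent.G Fermat.Agent.S18 Fermat.Agent.SS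

local notation "Qb" => AlgebraicClosure ℚ

attribute [local instance] sqvm_neZero

/-- a chart `t` of `F` stays a chart of a finite extension `F'` -/
theorem sqvm_transc_fin {K F F' : Type*} [Field K] [Field F] [Field F'] [Algebra K F]
    [Algebra K F'] (φ : F →ₐ[K] F') (t : F) (htr : Transcendental K t)
    [FiniteDimensional K⟮t⟯ F]
    (hpos : letI := algebraAlong φ; 0 < Module.finrank F F') :
    Transcendental K (φ t) ∧ FiniteDimensional K⟮φ t⟯ F' := by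
  constructor
  · intro halg
    exact htr ((isAlgebraic_algHom_iff φ φ.toRingHom.injective).mp halg)
  · have h1 := gcjd_finrank_tower φ t (φ t) rfl
    have h2 : 0 < Module.finrank K⟮t⟯ F := Module.finrank_pos
    exact Module.finite_of_finrank_pos (by rw [← h1]; exact Nat.mul_pos h2 hpos)

section Three

variable {q : ℕ} [Fact q.Prime] (𝔸 : ValuationSubring Qb) (E : IntermediateField ℚ Qb)
  [IsDiscreteValuationRing ↥(s18dVal 𝔸 E)] [CharZero ↥(s18dVal 𝔸 E)]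
variable (M : ℕ) [NeZero M] {ϖ : ↥(s18dVal 𝔸 E)}
variable {Ξ G : (↥(ssvmmR 𝔸 E M q))[X]}
variable (h : SsvAmb (ssvmmR 𝔸 E M q) (ssvmgRUnif (ssvmm_le E M q) ϖ) (ssvmmY E M q) Ξ
  (X - C (ssvmmJ 𝔸 E M q ^ q)) (X ^ q - C (ssvmmJ 𝔸 E M q)) G)

/-- **`SqvThree` at level `M q q`** from `SqvmOut` and the two valuations at level `M q`, for any
chart `t₁` of `F_E(M q)` -/
theorem sqvm_three_of_out (hϖ : Irreducible ϖ)
    (t₁ : ↥(modularFunctionFieldFullC E (M * q))) (ht₁ : Transcendental ↥E t₁)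
    (ht : Transcendental ↥E ((ssvmdIncl E (M * q) q).toRingHom t₁))
    [FiniteDimensional ↥(↥E)⟮(ssvmdIncl E (M * q) q).toRingHom t₁⟯
      ↥(modularFunctionFieldFullC E (M * q * q))]
    {u₁ u₂ : ↥(modularFunctionFieldFullC E (M * q))} (h2 : SsvTwo hϖ t₁ u₁ u₂ h.V₁ h.V₂)
    {V₁ V₂ V₃ : ValuationSubring ↥(modularFunctionFieldFullC E (M * q * q))}
    (hout : SqvmOut (ssvmdIncl E (M * q) q).toRingHom h.V₁ h.V₂
      (algebraMap ↥(s18dVal 𝔸 E) ↥(modularFunctionFieldFullC E (M * q * q)) ϖ)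
      (sqvmY E M q) (sqvmJq E M q ^ q) (ssvmdJ E (M * q * q)) (sqvmJq E M q) q V₁ V₂ V₃) :
    SqvThree hϖ ((ssvmdIncl E (M * q) q).toRingHom t₁) (q - 1)
      (sqvmY E M q - ssvmdJ E (M * q * q)) V₁ V₂ V₃ := by
  have hq : q.Prime := Fact.out
  exact sqvw_three hϖ (ssvmdIncl E (M * q) q).toRingHom (sqvm_incl_algebraMap 𝔸 E M) t₁ ht₁ ht h2
    hout.pos₁ hout.pos₂ hout.pos₃ hout.cases₁ hout.cases₂ hout.unif₁ hout.unif₃ hout.unif₂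
    (by have := hq.two_le; omega) hout.pow₂ hout.sep₁₂ hout.sep₂₁

end Three

section All

variable {q : ℕ} [Fact q.Prime] (𝔸 : ValuationSubring Qb) (E : IntermediateField ℚ Qb)
  [IsDiscreteValuationRing ↥(s18dVal 𝔸 E)] [CharZero ↥(s18dVal 𝔸 E)]
variable (M : ℕ) [NeZero M] {ϖ : ↥(s18dVal 𝔸 E)}

/-- THE (VAL²) PACKAGE, `α`-SIDE, for a witness `h` of the level-one package (`W₁ = h.V₁`,
`W₂ = h.V₂`) and a chart `t₁` of `F_E(M q)` : `SsvTwo` at level `M q`; `SqvmOut`, `SqnsHalf`,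
`SqvThree` (chart `α t₁`) at level `M q q` — all about the same rings. -/
structure SqvmVal {Ξ G : (↥(ssvmmR 𝔸 E M q))[X]}
    (h : SsvAmb (ssvmmR 𝔸 E M q) (ssvmgRUnif (ssvmm_le E M q) ϖ) (ssvmmY E M q) Ξ
      (X - C (ssvmmJ 𝔸 E M q ^ q)) (X ^ q - C (ssvmmJ 𝔸 E M q)) G)
    (hϖ : Irreducible ϖ) (t₁ : ↥(modularFunctionFieldFullC E (M * q)))
    (V₁ V₂ V₃ : ValuationSubring ↥(modularFunctionFieldFullC E (M * q * q))) : Prop where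
  two : SsvTwo hϖ t₁ (ssvmmY E M q - ssvmdJ E (M * q) ^ q)
    (ssvmmY E M q ^ q - ssvmdJ E (M * q)) h.V₁ h.V₂
  out : SqvmOut (ssvmdIncl E (M * q) q).toRingHom h.V₁ h.V₂
    (algebraMap ↥(s18dVal 𝔸 E) ↥(modularFunctionFieldFullC E (M * q * q)) ϖ)
    (sqvmY E M q) (sqvmJq E M q ^ q) (ssvmdJ E (M * q * q)) (sqvmJq E M q) q V₁ V₂ V₃
  half : SqnsHalf (algebraMap ↥E ↥(modularFunctionFieldFullC E (M * q)))
    (ssvmdIncl E (M * q) q).toRingHom (s18dVal 𝔸 E) h.V₁ h.V₂ V₁ V₂ V₃ (ϖ : ↥E)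
    (sqvmY E M q - ssvmdJ E (M * q * q)) q
  transc : Transcendental ↥E ((ssvmdIncl E (M * q) q).toRingHom t₁)
  fin : FiniteDimensional ↥(↥E)⟮(ssvmdIncl E (M * q) q).toRingHom t₁⟯
    ↥(modularFunctionFieldFullC E (M * q * q))
  three : SqvThree hϖ ((ssvmdIncl E (M * q) q).toRingHom t₁) (q - 1)
    (sqvmY E M q - ssvmdJ E (M * q * q)) V₁ V₂ V₃

set_option maxHeartbeats 1000000 in
/-- `SqvmVal` from `SsvTwo` at level `M q` for a chart `t₁` of `F_E(M q)` -/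
theorem sqvm_val_of_two {Ξ G : (↥(ssvmmR 𝔸 E M q))[X]}
    (h : SsvAmb (ssvmmR 𝔸 E M q) (ssvmgRUnif (ssvmm_le E M q) ϖ) (ssvmmY E M q) Ξ
      (X - C (ssvmmJ 𝔸 E M q ^ q)) (X ^ q - C (ssvmmJ 𝔸 E M q)) G)
    (hAq : 𝔸.LiesOverPrime q) (hqM : ¬ q ∣ M) (hϖ : Irreducible ϖ)
    (hunr : Associated ((q : ℕ) : ↥(s18dVal 𝔸 E)) ϖ)
    (t₁ : ↥(modularFunctionFieldFullC E (M * q))) (htr₁ : Transcendental ↥E t₁)
    [FiniteDimensional ↥(↥E)⟮t₁⟯ ↥(modularFunctionFieldFullC E (M * q))]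
    (h2 : SsvTwo hϖ t₁ (ssvmmY E M q - ssvmdJ E (M * q) ^ q)
      (ssvmmY E M q ^ q - ssvmdJ E (M * q)) h.V₁ h.V₂) :
    ∃ V₁ V₂ V₃ : ValuationSubring ↥(modularFunctionFieldFullC E (M * q * q)),
      SqvmVal 𝔸 E M h hϖ t₁ V₁ V₂ V₃ := by
  have hq : q.Prime := Fact.out
  obtain ⟨V₁, V₂, V₃, hout, hhalf⟩ := sqvm_half 𝔸 E M h hAq hqM hϖ hunr
  obtain ⟨htr₂, hfin₂⟩ := sqvm_transc_fin (ssvmdIncl E (M * q) q) t₁ htr₁
    (by rw [sqvm_finrank E M hqM]; exact hq.pos)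
  haveI := hfin₂
  exact ⟨V₁, V₂, V₃, h2, hout, hhalf, htr₂, hfin₂,
    sqvm_three_of_out 𝔸 E M h hϖ t₁ htr₁ htr₂ h2 hout⟩

set_option maxHeartbeats 1000000 in
/-- **(VAL²), the `α`-side, for a general chart coordinate `t₀` of `F_E(M)`** (`t₀ = j` for all
`q`; the Hauptmodul `h_a` for `q ∈ {2,3}`). -/
theorem sqvm_val_coord (hAq : 𝔸.LiesOverPrime q) (hqM : ¬ q ∣ M) (hϖ : Irreducible ϖ)
    (hunr : Associated ((q : ℕ) : ↥(s18dVal 𝔸 E)) ϖ)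
    (t₀ : ↥(modularFunctionFieldFullC E M)) (τ : LaurentSeries ↥(s18dVal 𝔸 E))
    (ht : S18VPole (modularFunctionFieldFullC E M) t₀ τ)
    (hc : S18Coord hϖ (modularFunctionFieldFullC E M) t₀) :
    ∃ (Ξ G : (↥(ssvmmR 𝔸 E M q))[X])
      (h : SsvAmb (ssvmmR 𝔸 E M q) (ssvmgRUnif (ssvmm_le E M q) ϖ) (ssvmmY E M q) Ξ
        (X - C (ssvmmJ 𝔸 E M q ^ q)) (X ^ q - C (ssvmmJ 𝔸 E M q)) G)
      (V₁ V₂ V₃ : ValuationSubring ↥(modularFunctionFieldFullC E (M * q * q))),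
      SqvmVal 𝔸 E M h hϖ (ssvmdIncl E M q t₀) V₁ V₂ V₃ := by
  obtain ⟨Ξ, G, h, h2⟩ := ssvmm_two_coord 𝔸 E M hAq hqM hϖ t₀ τ ht hc
  haveI := hc.fin
  obtain ⟨htr₁, hfin₁⟩ := sqvm_transc_fin (ssvmdIncl E M q) t₀ hc.transc
    (by rw [ssvmd_finrank E M hqM]; exact Nat.succ_pos q)
  haveI := hfin₁
  exact ⟨Ξ, G, h, sqvm_val_of_two 𝔸 E M h hAq hqM hϖ hunr (ssvmdIncl E M q t₀) htr₁ h2⟩

/-- **(VAL²), the `α`-side, for the chart `j`** (`t₁ = j` at level `M q`, `α t₁ = j` at level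
`M q q` : `ssvmdIncl E M q (ssvmdJ E M) = ssvmdJ E (M q)`, `sqvm_incl_J`) -/
theorem sqvm_val_j (hAq : 𝔸.LiesOverPrime q) (hqM : ¬ q ∣ M) (hϖ : Irreducible ϖ)
    (hunr : Associated ((q : ℕ) : ↥(s18dVal 𝔸 E)) ϖ) :
    ∃ (Ξ G : (↥(ssvmmR 𝔸 E M q))[X])
      (h : SsvAmb (ssvmmR 𝔸 E M q) (ssvmgRUnif (ssvmm_le E M q) ϖ) (ssvmmY E M q) Ξ
        (X - C (ssvmmJ 𝔸 E M q ^ q)) (X ^ q - C (ssvmmJ 𝔸 E M q)) G)
      (V₁ V₂ V₃ : ValuationSubring ↥(modularFunctionFieldFullC E (M * q * q))),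
      SqvmVal 𝔸 E M h hϖ (ssvmdIncl E M q (ssvmdJ E M)) V₁ V₂ V₃ :=
  sqvm_val_coord 𝔸 E M hAq hqM hϖ hunr (ssvmdJ E M) (jqModC ↥(s18dVal 𝔸 E)) (s18v_pole_j M)
    (s18v_coord_j' hϖ (s18d_natCast_mem 𝔸 E hAq) M hqM)

theorem sqvm_incl_incl_J :
    (ssvmdIncl E (M * q) q).toRingHom (ssvmdIncl E M q (ssvmdJ E M)) = ssvmdJ E (M * q * q) := by
  have e1 : ssvmdIncl E M q (ssvmdJ E M) = ssvmdJ E (M * q) :=
    Subtype.ext (ssvmdIncl_coe E M q _)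
  rw [e1]
  exact sqvm_incl_J E M q

end All

end Fermat.Agent.SQ
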