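import Mathlib
import Fermat.Agent.SQ.Val.ModTwoAll

/-!
# Program Q (S36), leaf VAL², slice (A-phi) : the `φ`-side of the three valuation rings of
`F_E(M q q)`

Setting of `ModTwoAll.lean` : a witness `h` of the level-one package (`W₁ = h.V₁`, `W₂ = h.V₂`
valuation rings of `F_E(M q)`), `α = ssvmdIncl E (M q) q`, `φ = ssvmfPhi E (M q) q :
F_E(M q) → F_E(M q q)`, `x ↦ x(𝐪^q)`; `V₁, V₂, V₃` with `SqvmOut`.

* `sqvm_phi_Y`, `sqvm_phi_J`, `sqvm_phi_algebraMap`, `sqvm_phi_incl` : `φ j_q = j_qq`, `φ j = j_q`,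
  `φ` is the identity on constants, `φ ∘ α₁ = α ∘ φ₁`;
* `sqvm_phi_cases` : `V.comap φ = h.V₁ ∨ V.comap φ = h.V₂` as soon as `V.comap α ∈ {h.V₁, h.V₂}`;
* `sqvm_u₁_unit`, `sqvm_u₂_unit` : `u₁ = j_q - j^q ∉ 𝔪_{V₂}`, `u₂ = j_q^q - j ∉ 𝔪_{V₁}` (level `M q`);
* `sqvm_phi_c₁/c₂/c₃` : `φ u₁ ∈ 𝔪_{V₁}`, `φ u₂ ∈ 𝔪_{V₂}`, `φ u₂ ∈ 𝔪_{V₃}` from `SqvmOut`;
* `structure SqvmPhi`, `sqvm_phi_of_out` : the bundle = the `φ`-side inputs of `sqvy_val_of_cong`.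

Prefix `sqvm`.
-/

set_option autoImplicit false
set_option linter.unusedSectionVars false
set_option linter.unusedVariables false
set_option linter.style.haveILetI false
set_option linter.overlappingInstances false
set_option synthInstance.maxHeartbeats 400000

noncomputable section

namespace Fermat.Agent.SQ

open Polynomial ModularCurve AlgebraicCurve IsLocalRing IntermediateField Fermat.Agent.S24
  Fermat.Agent.G Fermat.Agent.S18 Fermat.Agent.SS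

local notation "Qb" => AlgebraicClosure ℚ

attribute [local instance] sqvm_neZero

section PhiElements

variable (K : Type*) [Field K] (M q : ℕ) [NeZero M] [NeZero q]

/-- `φ j_q = j_qq` -/
theorem sqvm_phi_Y : ssvmfPhi K (M * q) q (ssvmmY K M q) = sqvmY K M q := by
  apply Subtype.ext
  rw [ssvmfPhi_coe, ssvmmY_coe, sqvmY_coe, qExpand_qExpand]

/-- `φ j = j_q` -/
theorem sqvm_phi_J : ssvmfPhi K (M * q) q (ssvmdJ K (M * q)) = sqvmJq K M q := by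
  apply Subtype.ext
  rw [ssvmfPhi_coe, sqvmJq_coe]
  rfl

/-- `φ ∘ α₁ = α ∘ φ₁` -/
theorem sqvm_phi_incl (g : modularFunctionFieldFullC K M) :
    ssvmfPhi K (M * q) q (ssvmdIncl K M q g) = ssvmdIncl K (M * q) q (ssvmfPhi K M q g) := by
  apply Subtype.ext
  rw [ssvmfPhi_coe, ssvmdIncl_coe, ssvmdIncl_coe, ssvmfPhi_coe]

end PhiElements

section PhiSide

variable {q : ℕ} [Fact q.Prime] (𝔸 : ValuationSubring Qb) (E : IntermediateField ℚ Qb)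
  [IsDiscreteValuationRing ↥(s18dVal 𝔸 E)] [CharZero ↥(s18dVal 𝔸 E)]
variable (M : ℕ) [NeZero M] {ϖ : ↥(s18dVal 𝔸 E)}
variable {Ξ G : (↥(ssvmmR 𝔸 E M q))[X]}
variable (h : SsvAmb (ssvmmR 𝔸 E M q) (ssvmgRUnif (ssvmm_le E M q) ϖ) (ssvmmY E M q) Ξ
  (X - C (ssvmmJ 𝔸 E M q ^ q)) (X ^ q - C (ssvmmJ 𝔸 E M q)) G)

/-- `φ` is the identity on constants -/
theorem sqvm_phi_algebraMap (a : ↥(s18dVal 𝔸 E)) :
    ssvmfPhi E (M * q) q
      (algebraMap ↥(s18dVal 𝔸 E) ↥(modularFunctionFieldFullC E (M * q)) a) =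
      algebraMap ↥(s18dVal 𝔸 E) ↥(modularFunctionFieldFullC E (M * q * q)) a := by
  apply Subtype.ext
  rw [ssvmfPhi_coe, s18v_coe_algebraMap, s18v_coe_algebraMap, algebraMap_laurentSeries_eq_single,
    qExpand_single, mul_zero]

/-- `φ₁` maps the Gauss ring of `F_E(M)` into `h.V₁ ∩ h.V₂` -/
theorem sqvm_phi₁_mem (hAq : 𝔸.LiesOverPrime q) (hqM : ¬ q ∣ M) (hϖ : Irreducible ϖ)
    (g : modularFunctionFieldFullC E M)
    (hg : g ∈ s18vO ↥(s18dVal 𝔸 E) (modularFunctionFieldFullC E M)) :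
    ssvmfPhi E M q g ∈ h.V₁ ∧ ssvmfPhi E M q g ∈ h.V₂ :=
  ⟨(ssvmar_gauss₁ 𝔸 E M hAq hqM hϖ Ξ G h g hg).2.1, ssvmf_phi_mem₂ 𝔸 E M hAq hqM hϖ Ξ G h g hg⟩

/-- `φ` maps the Gauss ring `R = α₁ O₀` of `F_E(M q)` into every valuation ring of `F_E(M q q)`
over `h.V₁` or `h.V₂` (along `α`) -/
theorem sqvm_phi_R_mem (hAq : 𝔸.LiesOverPrime q) (hqM : ¬ q ∣ M) (hϖ : Irreducible ϖ)
    (V : ValuationSubring ↥(modularFunctionFieldFullC E (M * q * q)))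
    (hV : V.comap (ssvmdIncl E (M * q) q).toRingHom = h.V₁ ∨
      V.comap (ssvmdIncl E (M * q) q).toRingHom = h.V₂) (r : ↥(ssvmmR 𝔸 E M q)) :
    ssvmfPhi E (M * q) q (r : ↥(modularFunctionFieldFullC E (M * q))) ∈ V := by
  obtain ⟨x₀, hx₀, hrx⟩ := (mem_ssvmgR _ (ssvmm_le E M q)).mp r.2
  have e : ssvmdIncl E M q x₀ = (r : modularFunctionFieldFullC E (M * q)) := hrx
  have hm := sqvm_phi₁_mem 𝔸 E M h hAq hqM hϖ x₀ hx₀
  have key : (ssvmdIncl E (M * q) q).toRingHom (ssvmfPhi E M q x₀) ∈ V := by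
    rcases hV with hV | hV
    · exact (sqni_mem_iff hV _).mpr hm.1
    · exact (sqni_mem_iff hV _).mpr hm.2
  have e2 : (ssvmdIncl E (M * q) q).toRingHom (ssvmfPhi E M q x₀) =
      ssvmfPhi E (M * q) q (r : ↥(modularFunctionFieldFullC E (M * q))) := by
    rw [← e]
    exact (sqvm_phi_incl E M q x₀).symm
  exact sqvm_subst (fun z => z ∈ V) e2 key

/-- the uniformiser `ϖ` is a non-unit of every valuation ring of `F_E(M q q)` over `h.V₁` or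
`h.V₂` -/
theorem sqvm_unif_mem_of_pos
    (V : ValuationSubring ↥(modularFunctionFieldFullC E (M * q * q)))
    (hV : V.comap (ssvmdIncl E (M * q) q).toRingHom = h.V₁ ∨
      V.comap (ssvmdIncl E (M * q) q).toRingHom = h.V₂) :
    algebraMap ↥(s18dVal 𝔸 E) ↥(modularFunctionFieldFullC E (M * q * q)) ϖ ∈ V.nonunits := by
  have hu := sqvm_hunif 𝔸 E M h
  have key : (ssvmdIncl E (M * q) q).toRingHom
      (algebraMap ↥(s18dVal 𝔸 E) ↥(modularFunctionFieldFullC E (M * q)) ϖ) ∈ V.nonunits := by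
    rcases hV with hV | hV
    · exact (sqni_nonunits_iff hV _).mpr ((ValuationSubring.mem_nonunits_iff _).mpr hu.1.1)
    · exact (sqni_nonunits_iff hV _).mpr ((ValuationSubring.mem_nonunits_iff _).mpr hu.2.1)
  exact sqvm_subst (fun z => z ∈ V.nonunits) (sqvm_incl_algebraMap 𝔸 E M ϖ) key

/-- **positions along `φ`** : a valuation ring of `F_E(M q q)` over `h.V₁` or `h.V₂` along `α`
restricts to `h.V₁` or `h.V₂` along `φ` -/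
theorem sqvm_phi_cases (hAq : 𝔸.LiesOverPrime q) (hqM : ¬ q ∣ M) (hϖ : Irreducible ϖ)
    (V : ValuationSubring ↥(modularFunctionFieldFullC E (M * q * q)))
    (hV : V.comap (ssvmdIncl E (M * q) q).toRingHom = h.V₁ ∨
      V.comap (ssvmdIncl E (M * q) q).toRingHom = h.V₂) :
    V.comap (ssvmfPhi E (M * q) q) = h.V₁ ∨ V.comap (ssvmfPhi E (M * q) q) = h.V₂ := by
  refine h.cases (V.comap (ssvmfPhi E (M * q) q))
    (fun r => sqvm_phi_R_mem 𝔸 E M h hAq hqM hϖ V hV r) ?_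
  have h1 := sqvm_unif_mem_of_pos 𝔸 E M h V hV
  have h2 : ssvmfPhi E (M * q) q
      (algebraMap ↥(s18dVal 𝔸 E) ↥(modularFunctionFieldFullC E (M * q)) ϖ) ∈ V.nonunits :=
    sqvm_subst (fun z => z ∈ V.nonunits) (sqvm_phi_algebraMap 𝔸 E M ϖ).symm h1
  have h3 : algebraMap ↥(s18dVal 𝔸 E) ↥(modularFunctionFieldFullC E (M * q)) ϖ ∈
      (V.comap (ssvmfPhi E (M * q) q)).nonunits := (sqni_nonunits_iff rfl _).mp h2
  exact sqvm_subst (fun z => z ∈ (V.comap (ssvmfPhi E (M * q) q)).nonunits)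
    (ssvmgRUnif_coe (ssvmm_le E M q) ϖ).symm h3

/-- `u₁ = j_q - j ^ q` is not in `𝔪_{V₂}` (level `M q`) -/
theorem sqvm_u₁_unit : ssvmmY E M q - ssvmdJ E (M * q) ^ q ∉ h.V₂.nonunits := by
  have e1 : aeval (ssvmmY E M q) (X - C (ssvmmJ 𝔸 E M q ^ q) : (↥(ssvmmR 𝔸 E M q))[X]) =
      ssvmmY E M q - ssvmdJ E (M * q) ^ q :=
    (ssvma_aeval_sub_C_pow _ _ _ _).trans (congrArg (fun z => ssvmmY E M q - z ^ q)
      (ssvmmJ_coe 𝔸 E M q))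
  exact sqvm_subst (fun z => z ∉ h.V₂.nonunits) e1 h.aeval₁_unit.2

/-- `u₂ = j_q ^ q - j` is not in `𝔪_{V₁}` (level `M q`) -/
theorem sqvm_u₂_unit : ssvmmY E M q ^ q - ssvmdJ E (M * q) ∉ h.V₁.nonunits :=
  (sqvm_cong_V₁ 𝔸 E M h).2

/-- `φ u₁ = j_qq - j_q ^ q` -/
theorem sqvm_phi_u₁ : ssvmfPhi E (M * q) q (ssvmmY E M q - ssvmdJ E (M * q) ^ q) =
    sqvmY E M q - sqvmJq E M q ^ q := by
  rw [map_sub, map_pow, sqvm_phi_Y, sqvm_phi_J]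

/-- `φ u₂ = j_qq ^ q - j_q` -/
theorem sqvm_phi_u₂ : ssvmfPhi E (M * q) q (ssvmmY E M q ^ q - ssvmdJ E (M * q)) =
    sqvmY E M q ^ q - sqvmJq E M q := by
  rw [map_sub, map_pow, sqvm_phi_Y, sqvm_phi_J]

/-- `x ≡ y ⇒ x ^ n ≡ y ^ n` modulo the maximal ideal of a valuation ring -/
theorem sqvm_pow_sub_pow_mem {F : Type*} [Field F] (V : ValuationSubring F) {x y : F}
    (hy : y ∈ V) (hxy : x - y ∈ V.nonunits) (n : ℕ) : x ^ n - y ^ n ∈ V.nonunits := by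
  have hx : x ∈ V := by
    have e : x = (x - y) + y := by ring
    rw [e]
    exact V.add_mem _ _ (ValuationSubring.nonunits_subset hxy) hy
  obtain ⟨c, hc⟩ := sub_dvd_pow_sub_pow (⟨x, hx⟩ : ↥V) ⟨y, hy⟩ n
  have e : x ^ n - y ^ n = (c : F) * (x - y) := by
    have := congrArg Subtype.val hc
    rw [mul_comm] at this
    exact this
  rw [e]
  exact sqvk_mul_mem_nonunits V c.2 hxy

variable {V₁ V₂ V₃ : ValuationSubring ↥(modularFunctionFieldFullC E (M * q * q))}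

/-- `φ u₁ ∈ 𝔪_{V₁}` -/
theorem sqvm_phi_c₁
    (hout : SqvmOut (ssvmdIncl E (M * q) q).toRingHom h.V₁ h.V₂
      (algebraMap ↥(s18dVal 𝔸 E) ↥(modularFunctionFieldFullC E (M * q * q)) ϖ)
      (sqvmY E M q) (sqvmJq E M q ^ q) (ssvmdJ E (M * q * q)) (sqvmJq E M q) q V₁ V₂ V₃) :
    ssvmfPhi E (M * q) q (ssvmmY E M q - ssvmdJ E (M * q) ^ q) ∈ V₁.nonunits :=
  sqvm_subst (fun z => z ∈ V₁.nonunits) (sqvm_phi_u₁ E M).symm hout.cong₁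

/-- `φ u₂ ∈ 𝔪_{V₃}` -/
theorem sqvm_phi_c₃
    (hout : SqvmOut (ssvmdIncl E (M * q) q).toRingHom h.V₁ h.V₂
      (algebraMap ↥(s18dVal 𝔸 E) ↥(modularFunctionFieldFullC E (M * q * q)) ϖ)
      (sqvmY E M q) (sqvmJq E M q ^ q) (ssvmdJ E (M * q * q)) (sqvmJq E M q) q V₁ V₂ V₃) :
    ssvmfPhi E (M * q) q (ssvmmY E M q ^ q - ssvmdJ E (M * q)) ∈ V₃.nonunits :=
  sqvm_subst (fun z => z ∈ V₃.nonunits) (sqvm_phi_u₂ E M).symm hout.cong₃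

/-- `φ u₂ ∈ 𝔪_{V₂}` : `j_qq ≡ j` and `j_q ≡ j ^ q` at `V₂` -/
theorem sqvm_phi_c₂
    (hout : SqvmOut (ssvmdIncl E (M * q) q).toRingHom h.V₁ h.V₂
      (algebraMap ↥(s18dVal 𝔸 E) ↥(modularFunctionFieldFullC E (M * q * q)) ϖ)
      (sqvmY E M q) (sqvmJq E M q ^ q) (ssvmdJ E (M * q * q)) (sqvmJq E M q) q V₁ V₂ V₃) :
    ssvmfPhi E (M * q) q (ssvmmY E M q ^ q - ssvmdJ E (M * q)) ∈ V₂.nonunits := by
  -- `j ∈ V₂`
  have hj : ssvmdJ E (M * q * q) ∈ V₂ :=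
    sqvm_subst (fun z => z ∈ V₂) (sqvm_incl_J E M q)
      ((sqni_mem_iff hout.pos₂ _).mpr (sqvm_hj 𝔸 E M h).1)
  -- `j_qq ^ q ≡ j ^ q`
  have h1 : sqvmY E M q ^ q - ssvmdJ E (M * q * q) ^ q ∈ V₂.nonunits :=
    sqvm_pow_sub_pow_mem V₂ hj hout.cong₂ q
  -- `j_q ≡ j ^ q`
  have h2 : sqvmJq E M q - ssvmdJ E (M * q * q) ^ q ∈ V₂.nonunits := by
    have h3 : (ssvmdIncl E (M * q) q).toRingHom (ssvmmY E M q - ssvmdJ E (M * q) ^ q) ∈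
        V₂.nonunits := (sqni_nonunits_iff hout.pos₂ _).mpr (sqvm_cong_V₁ 𝔸 E M h).1
    have e : (ssvmdIncl E (M * q) q).toRingHom (ssvmmY E M q - ssvmdJ E (M * q) ^ q) =
        sqvmJq E M q - ssvmdJ E (M * q * q) ^ q := by
      rw [map_sub, map_pow]
      show ssvmdIncl E (M * q) q (ssvmmY E M q) - ssvmdIncl E (M * q) q (ssvmdJ E (M * q)) ^ q = _
      rw [sqvm_incl_Y, sqvm_incl_J]
    exact sqvm_subst (fun z => z ∈ V₂.nonunits) e h3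
  have e : ssvmfPhi E (M * q) q (ssvmmY E M q ^ q - ssvmdJ E (M * q)) =
      (sqvmY E M q ^ q - ssvmdJ E (M * q * q) ^ q) -
        (sqvmJq E M q - ssvmdJ E (M * q * q) ^ q) := by
    rw [sqvm_phi_u₂]
    ring
  rw [e]
  exact V₂.nonunits.sub_mem h1 h2

/-- THE `φ`-SIDE INPUTS of `sqvy_val_of_cong` (helper8, `SQ/Val/SymAbs.lean`) for `W₁ = h.V₁`,
`W₂ = h.V₂`, `φ = ssvmfPhi E (M q) q`, `u₁ = j_q - j ^ q`, `u₂ = j_q ^ q - j`. -/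
structure SqvmPhi (V₁ V₂ V₃ : ValuationSubring ↥(modularFunctionFieldFullC E (M * q * q))) :
    Prop where
  hφ₁ : V₁.comap (ssvmfPhi E (M * q) q) = h.V₁ ∨ V₁.comap (ssvmfPhi E (M * q) q) = h.V₂
  hφ₂ : V₂.comap (ssvmfPhi E (M * q) q) = h.V₁ ∨ V₂.comap (ssvmfPhi E (M * q) q) = h.V₂
  hφ₃ : V₃.comap (ssvmfPhi E (M * q) q) = h.V₁ ∨ V₃.comap (ssvmfPhi E (M * q) q) = h.V₂
  hu₁ : ssvmmY E M q - ssvmdJ E (M * q) ^ q ∉ h.V₂.nonunits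
  hu₂ : ssvmmY E M q ^ q - ssvmdJ E (M * q) ∉ h.V₁.nonunits
  c₁ : ssvmfPhi E (M * q) q (ssvmmY E M q - ssvmdJ E (M * q) ^ q) ∈ V₁.nonunits
  c₂ : ssvmfPhi E (M * q) q (ssvmmY E M q ^ q - ssvmdJ E (M * q)) ∈ V₂.nonunits
  c₃ : ssvmfPhi E (M * q) q (ssvmmY E M q ^ q - ssvmdJ E (M * q)) ∈ V₃.nonunits

/-- **the `φ`-side from `SqvmOut`** -/
theorem sqvm_phi_of_out (hAq : 𝔸.LiesOverPrime q) (hqM : ¬ q ∣ M) (hϖ : Irreducible ϖ)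
    (hout : SqvmOut (ssvmdIncl E (M * q) q).toRingHom h.V₁ h.V₂
      (algebraMap ↥(s18dVal 𝔸 E) ↥(modularFunctionFieldFullC E (M * q * q)) ϖ)
      (sqvmY E M q) (sqvmJq E M q ^ q) (ssvmdJ E (M * q * q)) (sqvmJq E M q) q V₁ V₂ V₃) :
    SqvmPhi 𝔸 E M h V₁ V₂ V₃ where
  hφ₁ := sqvm_phi_cases 𝔸 E M h hAq hqM hϖ V₁ (Or.inl hout.pos₁)
  hφ₂ := sqvm_phi_cases 𝔸 E M h hAq hqM hϖ V₂ (Or.inl hout.pos₂)
  hφ₃ := sqvm_phi_cases 𝔸 E M h hAq hqM hϖ V₃ (Or.inr hout.pos₃)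
  hu₁ := sqvm_u₁_unit 𝔸 E M h
  hu₂ := sqvm_u₂_unit 𝔸 E M h
  c₁ := sqvm_phi_c₁ 𝔸 E M h hout
  c₂ := sqvm_phi_c₂ 𝔸 E M h hout
  c₃ := sqvm_phi_c₃ 𝔸 E M h hout

/-- the positions along `φ` : `V₁ ∩ φ F₁ = h.V₁`, `V₂ ∩ φ F₁ = h.V₂`, `V₃ ∩ φ F₁ = h.V₂` -/
theorem SqvmPhi.pos {V₁ V₂ V₃ : ValuationSubring ↥(modularFunctionFieldFullC E (M * q * q))}
    (hp : SqvmPhi 𝔸 E M h V₁ V₂ V₃) :
    V₁.comap (ssvmfPhi E (M * q) q) = h.V₁ ∧ V₂.comap (ssvmfPhi E (M * q) q) = h.V₂ ∧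
      V₃.comap (ssvmfPhi E (M * q) q) = h.V₂ := by
  refine ⟨?_, ?_, ?_⟩
  · rcases hp.hφ₁ with h1 | h1
    · exact h1
    · exact absurd ((sqni_nonunits_iff h1 _).mp hp.c₁) hp.hu₁
  · rcases hp.hφ₂ with h1 | h1
    · exact absurd ((sqni_nonunits_iff h1 _).mp hp.c₂) hp.hu₂
    · exact h1
  · rcases hp.hφ₃ with h1 | h1
    · exact absurd ((sqni_nonunits_iff h1 _).mp hp.c₃) hp.hu₂
    · exact h1

end PhiSide

end Fermat.Agent.SQ
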