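import Mathlib
import Fermat.Agent.SQ.NormSym

/-!
# Program Q (S36), leaf VAL² : the symmetry acts on `V₁, V₂, V₃` as `(1 3)` -- abstract part

Setting of `SQ/NormSym.lean` : the `α`-half `SqnsHalf` of the (VAL²) export, ring automorphisms
`w₁` of `F₁`, `w` of `F` with `w ∘ α = φ ∘ w₁` and `w ∘ φ = α ∘ w₁`, `w₁` exchanging `W₁` and `W₂`.
Given the positions of `V₁, V₂, V₃` along `φ` (`sqvy_sym`), or just `V i ∩ φ F₁ ∈ {W₁, W₂}` and three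
congruences (`sqvy_sym_of_cong`), `w` exchanges `V₁` and `V₃` and fixes `V₂`, i.e. `SqnsSym` holds, hence
`SqniVal` (`sqvy_val`, `sqvy_val_of_cong`).

Prefix `sqvy`.
-/

set_option autoImplicit false
set_option linter.unusedSectionVars false
set_option linter.unusedVariables false

noncomputable section

namespace Fermat.Agent.SQ

open Fermat.Agent.S18

variable {L F₁ F : Type*} [Field L] [Field F₁] [Field F]

/-- deciding between two candidates for `V ∩ φ F₁` by one element -/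
theorem sqvy_pos_of_mem {V : ValuationSubring F} {W W' : ValuationSubring F₁} {φ : F₁ →+* F}
    (h : V.comap φ = W ∨ V.comap φ = W') {u : F₁} (hu : φ u ∈ V.nonunits)
    (hu' : u ∉ W'.nonunits) : V.comap φ = W := by
  rcases h with h | h
  · exact h
  · exact absurd ((sqni_nonunits_iff h u).mp hu) hu'

/-- `comap` of `comap` along a commuting square -/
theorem sqvy_comap_comap {V : ValuationSubring F} {W W' : ValuationSubring F₁}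
    {α φ : F₁ →+* F} {w₁ : F₁ ≃+* F₁} {w : F ≃+* F} (comm : ∀ x, w (α x) = φ (w₁ x))
    (hφ : V.comap φ = W) (hW : W.comap (w₁ : F₁ →+* F₁) = W') :
    (V.comap (w : F →+* F)).comap α = W' := by
  ext x
  rw [ValuationSubring.mem_comap, ValuationSubring.mem_comap]
  show w (α x) ∈ V ↔ _
  rw [comm, sqni_mem_iff hφ, sqns_mem_iff hW]

variable {ι₁ : L →+* F₁} {α φ : F₁ →+* F} {A : ValuationSubring L}
  {W₁ W₂ : ValuationSubring F₁} {V₁ V₂ V₃ : ValuationSubring F} {ϖ : L} {π₂ : F} {q : ℕ}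
  {w₁ : F₁ ≃+* F₁} {w : F ≃+* F}

/-- **the symmetry acts as `(1 3)` on `V₁, V₂, V₃`**, from the positions along `φ`. -/
theorem sqvy_sym (H : SqnsHalf ι₁ α A W₁ W₂ V₁ V₂ V₃ ϖ π₂ q)
    (comm : ∀ x, w (α x) = φ (w₁ x)) (comm' : ∀ x, w (φ x) = α (w₁ x))
    (const₁ : ∀ c : L, w₁ (ι₁ c) = ι₁ c) (const : ∀ c : L, w (α (ι₁ c)) = α (ι₁ c))
    (W₁₂ : W₂.comap (w₁ : F₁ →+* F₁) = W₁) (W₂₁ : W₁.comap (w₁ : F₁ →+* F₁) = W₂)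
    (posφ₁ : V₁.comap φ = W₁) (posφ₂ : V₂.comap φ = W₂) (posφ₃ : V₃.comap φ = W₂) :
    SqnsSym ι₁ α φ W₁ W₂ V₁ V₂ V₃ w₁ w where
  comm := comm
  const₁ := const₁
  const := const
  W₁₂ := W₁₂
  W₂₁ := W₂₁
  V₃₁ := by
    have h1 : (V₁.comap (w : F →+* F)).comap α = W₂ := sqvy_comap_comap comm posφ₁ W₂₁
    rcases H.casesα _ (Or.inr h1) with h | h | h
    · exact absurd (by rw [← H.posα₁, ← h, h1]) H.neW.symm
    · exact absurd (by rw [← H.posα₂, ← h, h1]) H.neW.symm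
    · exact h
  V₁₃ := by
    have h1 : (V₃.comap (w : F →+* F)).comap α = W₁ := sqvy_comap_comap comm posφ₃ W₁₂
    have h2 : (V₃.comap (w : F →+* F)).comap φ = W₁ := sqvy_comap_comap comm' H.posα₃ W₁₂
    rcases H.casesα _ (Or.inl h1) with h | h | h
    · exact h
    · exact absurd (by rw [← h2, h, posφ₂]) H.neW
    · exact absurd (by rw [← H.posα₃, ← h, h1]) H.neW.symm
  V₂₂ := by
    have h1 : (V₂.comap (w : F →+* F)).comap α = W₁ := sqvy_comap_comap comm posφ₂ W₁₂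
    have h2 : (V₂.comap (w : F →+* F)).comap φ = W₂ := sqvy_comap_comap comm' H.posα₂ W₂₁
    rcases H.casesα _ (Or.inl h1) with h | h | h
    · exact absurd (by rw [← h2, h, posφ₁]) H.neW.symm
    · exact h
    · exact absurd (by rw [← H.posα₃, ← h, h1]) H.neW.symm

/-- the same from `V i ∩ φ F₁ ∈ {W₁, W₂}` and three congruences : `u₁` a unit of `W₂`
(`u₁ = j_q - j ^ q`), `u₂` a unit of `W₁` (`u₂ = j_q ^ q - j`), `φ u₁ ∈ 𝔪_{V₁}`, `φ u₂ ∈ 𝔪_{V₂}`,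
`φ u₂ ∈ 𝔪_{V₃}`. -/
theorem sqvy_sym_of_cong (H : SqnsHalf ι₁ α A W₁ W₂ V₁ V₂ V₃ ϖ π₂ q)
    (comm : ∀ x, w (α x) = φ (w₁ x)) (comm' : ∀ x, w (φ x) = α (w₁ x))
    (const₁ : ∀ c : L, w₁ (ι₁ c) = ι₁ c) (const : ∀ c : L, w (α (ι₁ c)) = α (ι₁ c))
    (W₁₂ : W₂.comap (w₁ : F₁ →+* F₁) = W₁) (W₂₁ : W₁.comap (w₁ : F₁ →+* F₁) = W₂)
    (hφ₁ : V₁.comap φ = W₁ ∨ V₁.comap φ = W₂) (hφ₂ : V₂.comap φ = W₁ ∨ V₂.comap φ = W₂)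
    (hφ₃ : V₃.comap φ = W₁ ∨ V₃.comap φ = W₂) (u₁ u₂ : F₁) (hu₁ : u₁ ∉ W₂.nonunits)
    (hu₂ : u₂ ∉ W₁.nonunits) (c₁ : φ u₁ ∈ V₁.nonunits) (c₂ : φ u₂ ∈ V₂.nonunits)
    (c₃ : φ u₂ ∈ V₃.nonunits) : SqnsSym ι₁ α φ W₁ W₂ V₁ V₂ V₃ w₁ w :=
  sqvy_sym H comm comm' const₁ const W₁₂ W₂₁ (sqvy_pos_of_mem hφ₁ c₁ hu₁)
    (sqvy_pos_of_mem hφ₂.symm c₂ hu₂) (sqvy_pos_of_mem hφ₃.symm c₃ hu₂)

/-- **the (VAL²) export** from its `α`-half, the pair `(w₁, w)` and the positions along `φ`. -/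
theorem sqvy_val (H : SqnsHalf ι₁ α A W₁ W₂ V₁ V₂ V₃ ϖ π₂ q)
    (comm : ∀ x, w (α x) = φ (w₁ x)) (comm' : ∀ x, w (φ x) = α (w₁ x))
    (const₁ : ∀ c : L, w₁ (ι₁ c) = ι₁ c) (const : ∀ c : L, w (α (ι₁ c)) = α (ι₁ c))
    (W₁₂ : W₂.comap (w₁ : F₁ →+* F₁) = W₁) (W₂₁ : W₁.comap (w₁ : F₁ →+* F₁) = W₂)
    (posφ₁ : V₁.comap φ = W₁) (posφ₂ : V₂.comap φ = W₂) (posφ₃ : V₃.comap φ = W₂) :
    SqniVal ι₁ α φ A W₁ W₂ V₁ V₂ V₃ ϖ π₂ q :=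
  sqns_val H (sqvy_sym H comm comm' const₁ const W₁₂ W₂₁ posφ₁ posφ₂ posφ₃)

/-- **the (VAL²) export** from its `α`-half, the pair `(w₁, w)` and three congruences. -/
theorem sqvy_val_of_cong (H : SqnsHalf ι₁ α A W₁ W₂ V₁ V₂ V₃ ϖ π₂ q)
    (comm : ∀ x, w (α x) = φ (w₁ x)) (comm' : ∀ x, w (φ x) = α (w₁ x))
    (const₁ : ∀ c : L, w₁ (ι₁ c) = ι₁ c) (const : ∀ c : L, w (α (ι₁ c)) = α (ι₁ c))
    (W₁₂ : W₂.comap (w₁ : F₁ →+* F₁) = W₁) (W₂₁ : W₁.comap (w₁ : F₁ →+* F₁) = W₂)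
    (hφ₁ : V₁.comap φ = W₁ ∨ V₁.comap φ = W₂) (hφ₂ : V₂.comap φ = W₁ ∨ V₂.comap φ = W₂)
    (hφ₃ : V₃.comap φ = W₁ ∨ V₃.comap φ = W₂) (u₁ u₂ : F₁) (hu₁ : u₁ ∉ W₂.nonunits)
    (hu₂ : u₂ ∉ W₁.nonunits) (c₁ : φ u₁ ∈ V₁.nonunits) (c₂ : φ u₂ ∈ V₂.nonunits)
    (c₃ : φ u₂ ∈ V₃.nonunits) : SqniVal ι₁ α φ A W₁ W₂ V₁ V₂ V₃ ϖ π₂ q :=
  sqns_val H (sqvy_sym_of_cong H comm comm' const₁ const W₁₂ W₂₁ hφ₁ hφ₂ hφ₃ u₁ u₂ hu₁ hu₂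
    c₁ c₂ c₃)

end Fermat.Agent.SQ
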