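import Mathlib
import Fermat.Agent.S35.Nat.PushF
import Fermat.Agent.SS.Dict.Aut
import Fermat.Agent.SS.Dict.Place
import Fermat.Agent.SS.Val.ModFrob2
import Fermat.Agent.S36.AuxNew2.Deg

/-!
# Program Q (S36), VAL², the symmetry route : the Fricke involution of `F_E(N)` over a number field
(prefix `sqvyf_`)

`E ⊆ ℚ̄` any intermediate field, `F_E(N) = modularFunctionFieldFullC E N = E(j_d : d ∣ N)`.  The
Fricke involution `Fr_N` of `F_ℚ̄(N)` (`s35nfWBar`, `S35/Nat/PushF.lean`) permutes the generators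
(`j_d ↦ j_{N/d}`) and fixes the constants, hence descends to `F_E(N)`:

* `sqvyfW E N : F_E(N) ≃+* F_E(N)` with `ssdUp E N (sqvyfW E N x) = Fr_N (ssdUp E N x)`;
* `sqvyfW_W` (involution), `sqvyfW_algebraMap` (constants fixed), `sqvyfW_jd` (`j_d ↦ j_{N/d}`);
* `sqvyfW_incl`, `sqvyfW_phi` : `Fr_{M q} ∘ α = φ ∘ Fr_M`, `Fr_{M q} ∘ φ = α ∘ Fr_M`
  (`α = ssvmdIncl E M q`, `φ = ssvmfPhi E M q`), all `M, q`.
-/

set_option autoImplicit false
set_option linter.unusedSectionVars false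
set_option linter.unusedVariables false
set_option synthInstance.maxHeartbeats 400000
set_option linter.style.haveILetI false

noncomputable section

namespace Fermat.Agent.SQ

open ModularCurve AlgebraicCurve IntermediateField Fermat.Agent.S24 Fermat.Agent.S35
  Fermat.Agent.G Fermat.Agent.SS Fermat.Agent.S18

local notation "Qb" => AlgebraicClosure ℚ

section Setting

variable (E : IntermediateField ℚ Qb) (N : ℕ) [NeZero N]

/-- the generator `j_d` of `F_E(N)` -/
def sqvyfJd (d : ℕ) [NeZero d] (hd : d ∣ N) : modularFunctionFieldFullC E N :=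
  ⟨qExpand E d (jqModC E), jqModCd_mem_full E N hd⟩

@[simp] theorem coe_sqvyfJd (d : ℕ) [NeZero d] (hd : d ∣ N) :
    ((sqvyfJd E N d hd : modularFunctionFieldFullC E N) : LaurentSeries E) =
      qExpand E d (jqModC E) := rfl

/-- the base change of `j_d` is `j_d` -/
theorem sqvyf_up_jd (d : ℕ) [NeZero d] (hd : d ∣ N) :
    ssdUp E N (sqvyfJd E N d hd) = jdBar N d hd := by
  apply Subtype.ext
  rw [coe_ssdUp, coe_sqvyfJd, coe_jdBar, coeffMap_qExpand, coeffMap_jqModC, coeffEmb,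
    coeffMap_qExpand, ← jqModC_rat, coeffMap_jqModC]

/-- `Fr_N` fixes the constants (over `ℚ̄`) -/
theorem sqvyf_bar_algebraMap (c : Qb) :
    s35nfWBarHom N (algebraMap Qb (modularFunctionFieldBar N) c) =
      algebraMap Qb (modularFunctionFieldBar N) c := by
  apply (gdqIota N).injective
  rw [s35nfWBarHom_spec, s35nat_iota_algebraMap, s35nfWF_algebraMap]

/-- `Fr_N` preserves the image of `F_E(N)` -/
theorem sqvyf_descends (x : LaurentSeries E) (hx : x ∈ modularFunctionFieldFullC E N) :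
    ∃ z : modularFunctionFieldFullC E N, ssdUp E N z = s35nfWBarHom N (ssdUp E N ⟨x, hx⟩) := by
  unfold modularFunctionFieldFullC at hx
  induction hx using IntermediateField.adjoin_induction with
  | mem x hx =>
    obtain ⟨d, hne, hd, rfl⟩ := hx
    haveI := hne
    obtain ⟨e, he⟩ := hd
    haveI : NeZero e := ⟨fun h => NeZero.ne N (by rw [he, h, mul_zero])⟩
    refine ⟨sqvyfJd E N e ⟨d, by rw [he, mul_comm]⟩, ?_⟩
    have h1 : (⟨qExpand E d (jqModC E), subset_adjoin _ _ ⟨d, hne, ⟨e, he⟩, rfl⟩⟩ :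
        modularFunctionFieldFullC E N) = sqvyfJd E N d ⟨e, he⟩ := rfl
    rw [h1, sqvyf_up_jd, sqvyf_up_jd]
    exact (s36e_fricke_jd N d e he).symm
  | algebraMap c =>
    refine ⟨algebraMap E _ c, ?_⟩
    have h1 : (⟨algebraMap E (LaurentSeries E) c,
        (IntermediateField.adjoin E (divisorExpansionsC E N)).algebraMap_mem c⟩ :
        modularFunctionFieldFullC E N) = algebraMap E (modularFunctionFieldFullC E N) c := rfl
    rw [h1, ssdUp_algebraMap, sqvyf_bar_algebraMap]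
  | add x y hx hy ihx ihy =>
    obtain ⟨z, hz⟩ := ihx
    obtain ⟨w, hw⟩ := ihy
    refine ⟨z + w, ?_⟩
    have e : (⟨x + y, add_mem hx hy⟩ : modularFunctionFieldFullC E N) =
        (⟨x, hx⟩ : modularFunctionFieldFullC E N) + ⟨y, hy⟩ := rfl
    rw [e, map_add, map_add, map_add, hz, hw]
  | inv x hx ihx =>
    obtain ⟨z, hz⟩ := ihx
    refine ⟨z⁻¹, ?_⟩
    have e : (⟨x⁻¹, inv_mem hx⟩ : modularFunctionFieldFullC E N) =
        (⟨x, hx⟩ : modularFunctionFieldFullC E N)⁻¹ := rfl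
    rw [e, map_inv₀, map_inv₀, map_inv₀, hz]
  | mul x y hx hy ihx ihy =>
    obtain ⟨z, hz⟩ := ihx
    obtain ⟨w, hw⟩ := ihy
    refine ⟨z * w, ?_⟩
    have e : (⟨x * y, mul_mem hx hy⟩ : modularFunctionFieldFullC E N) =
        (⟨x, hx⟩ : modularFunctionFieldFullC E N) * ⟨y, hy⟩ := rfl
    rw [e, map_mul, map_mul, map_mul, hz, hw]

/-- `Fr_N` on `F_E(N)`, as a function -/
def sqvyfWFun (x : modularFunctionFieldFullC E N) : modularFunctionFieldFullC E N :=
  (sqvyf_descends E N x.1 x.2).choose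

theorem sqvyfWFun_up (x : modularFunctionFieldFullC E N) :
    ssdUp E N (sqvyfWFun E N x) = s35nfWBarHom N (ssdUp E N x) :=
  (sqvyf_descends E N x.1 x.2).choose_spec

/-- `Fr_N` on `F_E(N)`, as a ring homomorphism -/
def sqvyfWHom : modularFunctionFieldFullC E N →+* modularFunctionFieldFullC E N where
  toFun := sqvyfWFun E N
  map_one' := ssdUp_injective E N (by rw [sqvyfWFun_up, map_one, map_one])
  map_mul' x y := ssdUp_injective E N (by
    rw [sqvyfWFun_up, map_mul, map_mul, map_mul, sqvyfWFun_up, sqvyfWFun_up])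
  map_zero' := ssdUp_injective E N (by rw [sqvyfWFun_up, map_zero, map_zero])
  map_add' x y := ssdUp_injective E N (by
    rw [sqvyfWFun_up, map_add, map_add, map_add, sqvyfWFun_up, sqvyfWFun_up])

theorem sqvyfWHom_up (x : modularFunctionFieldFullC E N) :
    ssdUp E N (sqvyfWHom E N x) = s35nfWBarHom N (ssdUp E N x) :=
  sqvyfWFun_up E N x

theorem sqvyfWHom_WHom (x : modularFunctionFieldFullC E N) :
    sqvyfWHom E N (sqvyfWHom E N x) = x :=
  ssdUp_injective E N (by rw [sqvyfWHom_up, sqvyfWHom_up, s35nfWBarHom_WBarHom])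

/-- **THE FRICKE INVOLUTION OF `F_E(N)`.** -/
def sqvyfW : modularFunctionFieldFullC E N ≃+* modularFunctionFieldFullC E N :=
  RingEquiv.ofBijective (sqvyfWHom E N)
    ⟨(sqvyfWHom E N).injective, fun x => ⟨sqvyfWHom E N x, sqvyfWHom_WHom E N x⟩⟩

theorem sqvyfW_apply (x : modularFunctionFieldFullC E N) : sqvyfW E N x = sqvyfWHom E N x := rfl

/-- compatibility with the Fricke involution over `ℚ̄` -/
theorem sqvyfW_up (x : modularFunctionFieldFullC E N) :
    ssdUp E N (sqvyfW E N x) = s35nfWBarHom N (ssdUp E N x) :=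
  sqvyfWHom_up E N x

/-- `Fr_N` is an involution -/
theorem sqvyfW_W (x : modularFunctionFieldFullC E N) : sqvyfW E N (sqvyfW E N x) = x :=
  sqvyfWHom_WHom E N x

theorem sqvyfW_symm_apply (x : modularFunctionFieldFullC E N) :
    (sqvyfW E N).symm x = sqvyfW E N x := by
  rw [RingEquiv.symm_apply_eq, sqvyfW_W]

theorem sqvyfW_symm : (sqvyfW E N).symm = sqvyfW E N :=
  RingEquiv.ext (sqvyfW_symm_apply E N)

/-- `Fr_N` fixes the constants -/
theorem sqvyfW_algebraMap (c : E) :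
    sqvyfW E N (algebraMap E (modularFunctionFieldFullC E N) c) =
      algebraMap E (modularFunctionFieldFullC E N) c :=
  ssdUp_injective E N (by rw [sqvyfW_up, ssdUp_algebraMap, sqvyf_bar_algebraMap])

/-- `Fr_N j_d = j_{N/d}` -/
theorem sqvyfW_jd (d e : ℕ) [NeZero d] [NeZero e] (h : N = d * e) :
    sqvyfW E N (sqvyfJd E N d ⟨e, h⟩) = sqvyfJd E N e ⟨d, by rw [h, mul_comm]⟩ :=
  ssdUp_injective E N (by
    rw [sqvyfW_up, sqvyf_up_jd, sqvyf_up_jd]
    exact s36e_fricke_jd N d e h)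

/-- `Fr_N j = j_N` -/
theorem sqvyfW_j : sqvyfW E N (ssdJ E N) = sqvyfJd E N N dvd_rfl := by
  have h1 : ssdJ E N = sqvyfJd E N 1 (one_dvd N) := by
    apply Subtype.ext
    show jqModC E = qExpand E 1 (jqModC E)
    rw [qExpand_one_apply]
  rw [h1]
  exact sqvyfW_jd E N 1 N (one_mul N).symm

end Setting

/-! ### two levels -/

section TwoLevels

variable (E : IntermediateField ℚ Qb) (M q : ℕ) [NeZero M] [NeZero q]

theorem sqvyf_up_incl (x : modularFunctionFieldFullC E M) :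
    ssdUp E (M * q) (ssvmdIncl E M q x) = heckeAlphaBar Qb M q (ssdUp E M x) := by
  apply Subtype.ext
  rw [coe_ssdUp, ssvmdIncl_coe, coe_heckeAlphaBar, coe_ssdUp]

theorem sqvyf_up_phi (x : modularFunctionFieldFullC E M) :
    ssdUp E (M * q) (ssvmfPhi E M q x) = heckeBetaBar Qb M q (ssdUp E M x) := by
  apply Subtype.ext
  rw [coe_ssdUp, ssvmfPhi_coe, coe_heckeBetaBar, coe_ssdUp, coeffMap_qExpand]

/-- `Fr_{M q} ∘ α = φ ∘ Fr_M` -/
theorem sqvyfW_incl (x : modularFunctionFieldFullC E M) :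
    sqvyfW E (M * q) (ssvmdIncl E M q x) = ssvmfPhi E M q (sqvyfW E M x) :=
  ssdUp_injective E (M * q) (by
    rw [sqvyfW_up, sqvyf_up_incl, s36e_fricke_alpha, sqvyf_up_phi, sqvyfW_up])

/-- `Fr_{M q} ∘ φ = α ∘ Fr_M` -/
theorem sqvyfW_phi (x : modularFunctionFieldFullC E M) :
    sqvyfW E (M * q) (ssvmfPhi E M q x) = ssvmdIncl E M q (sqvyfW E M x) :=
  ssdUp_injective E (M * q) (by
    rw [sqvyfW_up, sqvyf_up_phi, s35nfWBarHom_beta, sqvyf_up_incl, sqvyfW_up])

end TwoLevels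

end Fermat.Agent.SQ
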