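import Mathlib
import Fermat.Agent.SS.Val.Gauss2
import Fermat.Agent.SQ.NormInst

/-!
# Program Q (S36), leaf VAL² : an automorphism exchanging the two extensions of the Gauss valuation

Setting of S18 package T at level `q M` : `SsvTwo hϖ t u₁ u₂ W₁ W₂` (the Gauss valuation of `L(t)` has
exactly the two extensions `W₁, W₂` to `F`; `u₁ ∈ 𝔪_{W₁} ∩ W₂ˣ`, `u₂ ∈ 𝔪_{W₂} ∩ W₁ˣ`).  A ring
automorphism `w₁` of `F` fixing the constants `A`, mapping the Gauss ring `A[t]_(ϖ)` into `W₁` and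
`u₂` into `𝔪_{W₁}` satisfies `W₁.comap w₁ = W₂` (`sqvy_comap_eq₂`); if moreover `w₁ ∘ w₁ = id`
then `W₂.comap w₁ = W₁` (`sqvy_comap_eq₁`).  `sqvy_loc_map` : `w₁` maps `A[t]_(ϖ)` onto
`A[w₁ t]_(ϖ)`.

Prefix `sqvy`.
-/

set_option autoImplicit false
set_option linter.unusedSectionVars false
set_option linter.unusedVariables false

noncomputable section

namespace Fermat.Agent.SQ

open Polynomial Fermat.Agent.S18 Fermat.Agent.SS

universe u

variable {A : Type*} [CommRing A] [IsDomain A] [IsDiscreteValuationRing A] [CharZero A]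
variable {L : Type*} [Field L] [Algebra A L] [IsFractionRing A L]
variable {F : Type u} [Field F] [Algebra A F] [Algebra L F] [IsScalarTower A L F]
variable {ϖ : A}

/-- a ring homomorphism fixing the constants commutes with `aeval` -/
theorem sqvy_aeval_map {F' : Type*} [Field F'] [Algebra A F'] (g : F →+* F')
    (hg : ∀ a : A, g (algebraMap A F a) = algebraMap A F' a) (t : F) (f : A[X]) :
    g (aeval t f) = aeval (g t) f := by
  rw [aeval_def, aeval_def, hom_eval₂]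
  congr 1
  exact RingHom.ext hg

/-- a ring homomorphism fixing the constants maps `A[t]_(p)` into `A[g t]_(p)` -/
theorem sqvy_loc_map {F' : Type*} [Field F'] [Algebra A F'] (g : F →+* F')
    (hg : ∀ a : A, g (algebraMap A F a) = algebraMap A F' a) (t : F) (p : A[X]) (hp : Prime p)
    {x : F} (hx : x ∈ s18tLoc A t p hp) : g x ∈ s18tLoc A (g t) p hp := by
  obtain ⟨a, b, hb, hxab⟩ := hx
  refine ⟨a, b, hb, ?_⟩
  rw [← sqvy_aeval_map g hg, ← sqvy_aeval_map g hg, ← map_mul, hxab]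

variable {hϖ : Irreducible ϖ} {t u₁ u₂ : F} {W₁ W₂ : ValuationSubring F}

/-- **`w₁⁻¹ (W₁) = W₂`** -/
theorem sqvy_comap_eq₂ (two : SsvTwo hϖ t u₁ u₂ W₁ W₂) (w₁ : F ≃+* F)
    (hloc : ∀ x ∈ s18tLoc A t (C ϖ) (s18t_prime_C hϖ), w₁ x ∈ W₁)
    (hϖw : w₁ (algebraMap A F ϖ) = algebraMap A F ϖ) (hu : w₁ u₂ ∈ W₁.nonunits) :
    W₁.comap (w₁ : F →+* F) = W₂ := by
  have hnon : ∀ x : F, x ∈ (W₁.comap (w₁ : F →+* F)).nonunits ↔ w₁ x ∈ W₁.nonunits :=
    fun x => (sqni_nonunits_iff (f := (w₁ : F →+* F)) rfl x).symm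
  have hcases := two.cases (W₁.comap (w₁ : F →+* F)) (fun x hx => hloc x hx) (by
    rw [hnon, hϖw]
    exact (ValuationSubring.mem_nonunits_iff _).mpr two.unif₁.1)
  rcases hcases with h | h
  · exfalso
    have h1 : u₂ ∈ W₁.nonunits := by
      rw [← h, hnon]
      exact hu
    have h2 := (ValuationSubring.mem_nonunits_iff _).mp h1
    rw [two.unit₂] at h2
    exact lt_irrefl _ h2
  · exact h

/-- **`w₁⁻¹ (W₂) = W₁`**, for an involution -/
theorem sqvy_comap_eq₁ (two : SsvTwo hϖ t u₁ u₂ W₁ W₂) (w₁ : F ≃+* F)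
    (hloc : ∀ x ∈ s18tLoc A t (C ϖ) (s18t_prime_C hϖ), w₁ x ∈ W₁)
    (hϖw : w₁ (algebraMap A F ϖ) = algebraMap A F ϖ) (hu : w₁ u₂ ∈ W₁.nonunits)
    (hww : ∀ x, w₁ (w₁ x) = x) : W₂.comap (w₁ : F →+* F) = W₁ := by
  ext x
  rw [← sqvy_comap_eq₂ two w₁ hloc hϖw hu, ValuationSubring.mem_comap,
    ValuationSubring.mem_comap]
  show w₁ (w₁ x) ∈ W₁ ↔ _
  rw [hww]

/-- the mirror statement **`w₁⁻¹ (W₂) = W₁`** without involutivity -/
theorem sqvy_comap_eq₁' (two : SsvTwo hϖ t u₁ u₂ W₁ W₂) (w₁ : F ≃+* F)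
    (hloc : ∀ x ∈ s18tLoc A t (C ϖ) (s18t_prime_C hϖ), w₁ x ∈ W₂)
    (hϖw : w₁ (algebraMap A F ϖ) = algebraMap A F ϖ) (hu : w₁ u₁ ∈ W₂.nonunits) :
    W₂.comap (w₁ : F →+* F) = W₁ := by
  have hnon : ∀ x : F, x ∈ (W₂.comap (w₁ : F →+* F)).nonunits ↔ w₁ x ∈ W₂.nonunits :=
    fun x => (sqni_nonunits_iff (f := (w₁ : F →+* F)) rfl x).symm
  have hcases := two.cases (W₂.comap (w₁ : F →+* F)) (fun x hx => hloc x hx) (by
    rw [hnon, hϖw]
    exact (ValuationSubring.mem_nonunits_iff _).mpr two.unif₂.1)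
  rcases hcases with h | h
  · exact h
  · exfalso
    have h1 : u₁ ∈ W₂.nonunits := by
      rw [← h, hnon]
      exact hu
    have h2 := (ValuationSubring.mem_nonunits_iff _).mp h1
    rw [two.unit₁] at h2
    exact lt_irrefl _ h2

end Fermat.Agent.SQ
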