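import Mathlib
import Fermat.Agent.SQ.Val.SymFr
import Fermat.Agent.SQ.Val.SymAbs
import Fermat.Agent.SQ.Val.SymTwo
import Fermat.Agent.SS.Val.ModAL
import Fermat.Agent.SS.Val.ModMain

/-!
# Program Q (S36), leaf VAL² : the Fricke involution exchanges the two extensions of the Gauss
valuation at level `M q`

`E ⊆ ℚ̄`, `𝔸` a valuation ring of `ℚ̄` above `q`, `A₀ = 𝔸 ∩ E` a DVR with uniformiser `ϖ`, `q ∤ M`,
`h` ANY witness of main's two-factor package `ssvmm_amb` at level `(M, q)`, `W₁ = h.V₁` (the Gauss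
ring of `F_E(M q)` for the expansion at `∞`), `W₂ = h.V₂`.  The Fricke involution
`w₁ = sqvyfW E (M q)` of helper29's `SQ/Val/SymFr.lean` satisfies `w₁ j = j_{M q}`, `w₁ j_q = j_M` :

* `sqvy_jd_mem`, `sqvy_jd_pole` : `j_d` (`d ∣ N`) lies in the Gauss ring of `F_E(N)` with reduction
  `j(t^d)`, which has a pole;
* `sqvy_frob_cong` : `j_M ^ q - j_{M q} ∈ 𝔪_{W₁}` (Frobenius congruence of `q`-expansions);
* `sqvy_fricke_swap₂ : W₁.comap w₁ = W₂`, `sqvy_fricke_swap₁ : W₂.comap w₁ = W₁`.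

Prefix `sqvy`.
-/

set_option autoImplicit false
set_option linter.unusedSectionVars false
set_option linter.unusedVariables false
set_option linter.style.haveILetI false
set_option synthInstance.maxHeartbeats 400000

noncomputable section

namespace Fermat.Agent.SQ

open Polynomial ModularCurve AlgebraicCurve IsLocalRing IntermediateField Fermat.Agent.S24
  Fermat.Agent.G Fermat.Agent.S18 Fermat.Agent.SS

local notation "Qb" => AlgebraicClosure ℚ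

/-! ### the generators `j_d` in the Gauss ring -/

section Gen

variable (𝔸 : ValuationSubring Qb) (E : IntermediateField ℚ Qb)
  [IsDiscreteValuationRing ↥(s18dVal 𝔸 E)] [CharZero ↥(s18dVal 𝔸 E)]
variable (N d : ℕ) [NeZero N] [NeZero d] (hd : d ∣ N)

theorem sqvy_jd_coe :
    ((sqvyfJd E N d hd : modularFunctionFieldFullC E N) : LaurentSeries E) =
      s18vIncl ↥(s18dVal 𝔸 E) E (qExpand ↥(s18dVal 𝔸 E) d (jqModC ↥(s18dVal 𝔸 E))) := by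
  rw [coe_sqvyfJd, coeffMap_qExpand, coeffMap_jqModC]

/-- `j_d` lies in the Gauss ring of `F_E(N)`, with reduction `j(t^d)` -/
theorem sqvy_jd_mem :
    ∃ hj : sqvyfJd E N d hd ∈ s18vO ↥(s18dVal 𝔸 E) (modularFunctionFieldFullC E N),
      s18vcRed (modularFunctionFieldFullC E N) ⟨sqvyfJd E N d hd, hj⟩ =
        qExpand (ResidueField ↥(s18dVal 𝔸 E)) d (jqModC (ResidueField ↥(s18dVal 𝔸 E))) := by
  have e := sqvy_jd_coe 𝔸 E N d hd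
  have hjO : sqvyfJd E N d hd ∈ s18vO ↥(s18dVal 𝔸 E) (modularFunctionFieldFullC E N) :=
    ⟨qExpand ↥(s18dVal 𝔸 E) d (jqModC ↥(s18dVal 𝔸 E)), 1, by
        rw [← e]
        exact (sqvyfJd E N d hd).2, by rw [map_one]; exact one_mem _,
      by rw [map_one]; exact one_ne_zero, by rw [map_one, mul_one, e]⟩
  refine ⟨hjO, ?_⟩
  rw [s18vcRed_incl _ _ _ e, coeffMap_qExpand, coeffMap_jqModC]

/-- `j_d` has a pole modulo `ϖ` -/
theorem sqvy_jd_pole :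
    S18VPole (A₀ := ↥(s18dVal 𝔸 E)) (modularFunctionFieldFullC E N) (sqvyfJd E N d hd)
      (qExpand ↥(s18dVal 𝔸 E) d (jqModC ↥(s18dVal 𝔸 E))) := by
  refine ⟨sqvy_jd_coe 𝔸 E N d hd, ?_⟩
  rw [coeffMap_qExpand, coeffMap_jqModC]
  have h1 : (qExpand (ResidueField ↥(s18dVal 𝔸 E)) d
      (jqModC (ResidueField ↥(s18dVal 𝔸 E)))).coeff ((d : ℤ) * (-1)) ≠ 0 := by
    rw [qExpand_coeff_mul, coeff_jqModC_neg_one]
    exact one_ne_zero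
  have h2 := HahnSeries.order_le_of_coeff_ne_zero h1
  have h3 : (0 : ℤ) < (d : ℤ) := by exact_mod_cast Nat.pos_of_ne_zero (NeZero.ne d)
  omega

end Gen

/-- `a ≡ b ⟹ a ^ n ≡ b ^ n` modulo the maximal ideal of a valuation ring -/
theorem sqvy_pow_sub_pow_mem {K : Type*} [Field K] (V : ValuationSubring K) {a b : K}
    (ha : a ∈ V) (hb : b ∈ V) (hab : a - b ∈ V.nonunits) (n : ℕ) :
    a ^ n - b ^ n ∈ V.nonunits := by
  rw [ValuationSubring.mem_nonunits_iff_exists_mem_maximalIdeal] at hab ⊢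
  obtain ⟨h1, h2⟩ := hab
  refine ⟨sub_mem (pow_mem ha n) (pow_mem hb n), ?_⟩
  obtain ⟨c, hc⟩ := sub_dvd_pow_sub_pow (⟨a, ha⟩ : V) ⟨b, hb⟩ n
  have e : (⟨a ^ n - b ^ n, sub_mem (pow_mem ha n) (pow_mem hb n)⟩ : V) =
      (⟨a - b, h1⟩ : V) * c := by
    rw [show (⟨a - b, h1⟩ : V) = ⟨a, ha⟩ - ⟨b, hb⟩ from rfl, ← hc]
    rfl
  rw [e]
  exact Ideal.mul_mem_right _ _ h2

/-! ### an abstract transport of `A[t]_(p) ⊆ W` along a level map -/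

section LocComap

variable {A : Type*} [CommRing A] {F₁ F : Type*} [Field F₁] [Field F] [Algebra A F₁] [Algebra A F]

/-- if `A[t₁]_(p) ⊆ W = V ∩ α F₁` then `A[α t₁]_(p) ⊆ V` -/
theorem sqvy_loc_le_comap (α : F₁ →+* F)
    (hα : ∀ a : A, α (algebraMap A F₁ a) = algebraMap A F a) (t₁ : F₁) (p : A[X]) (hp : Prime p)
    (hne : ∀ b : A[X], ¬ p ∣ b → aeval t₁ b ≠ 0) {V : ValuationSubring F}
    {W : ValuationSubring F₁} (hVW : V.comap α = W) (hW : s18tLoc A t₁ p hp ≤ W.toSubring) :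
    s18tLoc A (α t₁) p hp ≤ V.toSubring := by
  rintro y ⟨a, b, hb, hyab⟩
  have hb0 : aeval t₁ b ≠ 0 := hne b hb
  have hz : aeval t₁ a / aeval t₁ b ∈ s18tLoc A t₁ p hp :=
    ⟨a, b, hb, div_mul_cancel₀ _ hb0⟩
  have hzW : aeval t₁ a / aeval t₁ b ∈ W := hW hz
  have hzV : α (aeval t₁ a / aeval t₁ b) ∈ V := (sqni_mem_iff hVW _).mpr hzW
  have hb0' : α (aeval t₁ b) ≠ 0 := by rwa [Ne, map_eq_zero]
  have hae : ∀ f : A[X], α (aeval t₁ f) = aeval (α t₁) f := fun f => by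
    rw [aeval_def, aeval_def, hom_eval₂]
    congr 1
    exact RingHom.ext hα
  have e : y = α (aeval t₁ a / aeval t₁ b) := by
    rw [map_div₀, eq_div_iff hb0', hae, hae, hyab]
  rw [e]
  exact hzV

end LocComap

/-! ### the Frobenius congruence and the swap at level `M q` -/

section Swap

variable {q : ℕ} [Fact q.Prime] (𝔸 : ValuationSubring Qb) (E : IntermediateField ℚ Qb)
  [IsDiscreteValuationRing ↥(s18dVal 𝔸 E)] [CharZero ↥(s18dVal 𝔸 E)]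
variable (M : ℕ) [NeZero M]

/-- **Frobenius congruence** : `j_M ^ q - j_{M q}` reduces to `0` in the Gauss ring of `F_E(N)` -/
theorem sqvy_frob_red (hA : 𝔸.LiesOverPrime q) {ϖ : ↥(s18dVal 𝔸 E)} (hϖ : Irreducible ϖ)
    (N : ℕ) [NeZero N] (hM : M ∣ N)
    (hMq : haveI : NeZero q := ⟨(Fact.out : q.Prime).ne_zero⟩; M * q ∣ N) :
    haveI : NeZero q := ⟨(Fact.out : q.Prime).ne_zero⟩
    ∃ hx : sqvyfJd E N M hM ^ q - sqvyfJd E N (M * q) hMq ∈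
        s18vO ↥(s18dVal 𝔸 E) (modularFunctionFieldFullC E N),
      s18vcRed (modularFunctionFieldFullC E N)
        ⟨sqvyfJd E N M hM ^ q - sqvyfJd E N (M * q) hMq, hx⟩ = 0 := by
  have hq : q.Prime := Fact.out
  haveI : NeZero q := ⟨hq.ne_zero⟩
  haveI : CharP (ResidueField ↥(s18dVal 𝔸 E)) q := s18v_charP hϖ (s18d_natCast_mem 𝔸 E hA)
  obtain ⟨h₁, hr₁⟩ := sqvy_jd_mem 𝔸 E N M hM
  obtain ⟨h₂, hr₂⟩ := sqvy_jd_mem 𝔸 E N (M * q) hMq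
  have hx : sqvyfJd E N M hM ^ q - sqvyfJd E N (M * q) hMq ∈
      s18vO ↥(s18dVal 𝔸 E) (modularFunctionFieldFullC E N) :=
    Subring.sub_mem _ (Subring.pow_mem _ h₁ q) h₂
  refine ⟨hx, ?_⟩
  have e2 : (⟨_, hx⟩ : ↥(s18vO ↥(s18dVal 𝔸 E) (modularFunctionFieldFullC E N))) =
      ⟨_, h₁⟩ ^ q - ⟨_, h₂⟩ := rfl
  rw [e2, map_sub, map_pow, hr₁, hr₂, gcjf_pow_char (ResidueField ↥(s18dVal 𝔸 E)) q,
    coeffMap_qExpand, coeffMap_jqModC, qExpand_qExpand,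
    qExpand_congr (mul_comm q M), sub_self]

/-- the Fricke involution fixes the constants of `A₀` -/
theorem sqvy_fricke_const (N : ℕ) [NeZero N] (a : ↥(s18dVal 𝔸 E)) :
    sqvyfW E N (algebraMap ↥(s18dVal 𝔸 E) (modularFunctionFieldFullC E N) a) =
      algebraMap ↥(s18dVal 𝔸 E) (modularFunctionFieldFullC E N) a := by
  rw [IsScalarTower.algebraMap_apply ↥(s18dVal 𝔸 E) E (modularFunctionFieldFullC E N),
    sqvyfW_algebraMap]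

set_option maxHeartbeats 2000000 in
/-- **`Fr⁻¹ (W₁) = W₂`** at level `M q` -/
theorem sqvy_fricke_swap₂ (hA : 𝔸.LiesOverPrime q) (hqM : ¬ q ∣ M) {ϖ : ↥(s18dVal 𝔸 E)}
    (hϖ : Irreducible ϖ)
    (Ξ G : haveI : NeZero q := ⟨(Fact.out : q.Prime).ne_zero⟩; (↥(ssvmmR 𝔸 E M q))[X])
    (h : haveI : NeZero q := ⟨(Fact.out : q.Prime).ne_zero⟩
      SsvAmb (ssvmmR 𝔸 E M q) (ssvmgRUnif (ssvmm_le E M q) ϖ) (ssvmmY E M q) Ξ
        (X - C (ssvmmJ 𝔸 E M q ^ q)) (X ^ q - C (ssvmmJ 𝔸 E M q)) G) :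
    haveI : NeZero q := ⟨(Fact.out : q.Prime).ne_zero⟩
    h.V₁.comap (sqvyfW E (M * q) :
        modularFunctionFieldFullC E (M * q) →+* modularFunctionFieldFullC E (M * q)) = h.V₂ := by
  have hq : q.Prime := Fact.out
  haveI : NeZero q := ⟨hq.ne_zero⟩
  have two := ssv_two hϖ (ssvmdJ E (M * q)) (ssvmm_loc_le 𝔸 E M hϖ)
    (ssvmm_le_intLoc 𝔸 E M hA hqM hϖ) h (ssvmgRUnif_coe (ssvmm_le E M q) ϖ)
  have e₂ : aeval (ssvmmY E M q) (X ^ q - C (ssvmmJ 𝔸 E M q) : (↥(ssvmmR 𝔸 E M q))[X]) =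
      ssvmmY E M q ^ q - ssvmdJ E (M * q) := by
    rw [ssvma_aeval_pow_sub_C, ssvmmJ_coe]
  have hwj : sqvyfW E (M * q) (ssvmdJ E (M * q)) = sqvyfJd E (M * q) (M * q) dvd_rfl :=
    sqvyfW_j E (M * q)
  have hwY : sqvyfW E (M * q) (ssvmmY E M q) = sqvyfJd E (M * q) M (dvd_mul_right M q) :=
    sqvyfW_jd E (M * q) q M (mul_comm M q)
  refine sqvy_comap_eq₂ two (sqvyfW E (M * q)) ?_ (sqvy_fricke_const 𝔸 E (M * q) ϖ) ?_
  · intro x hx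
    have h1 := sqvy_loc_map
      (sqvyfW E (M * q) : modularFunctionFieldFullC E (M * q) →+* modularFunctionFieldFullC E (M * q))
      (sqvy_fricke_const 𝔸 E (M * q)) (ssvmdJ E (M * q)) (C ϖ) (s18t_prime_C hϖ) hx
    rw [RingEquiv.coe_toRingHom, hwj] at h1
    exact (ssvma_mem₁_iff 𝔸 E M hA hϖ Ξ G h _).1.mpr
      (s18v_loc_le hϖ _ _ _ (sqvy_jd_pole 𝔸 E (M * q) (M * q) dvd_rfl) _ h1)
  · have key : sqvyfW E (M * q)
        (aeval (ssvmmY E M q) (X ^ q - C (ssvmmJ 𝔸 E M q) : (↥(ssvmmR 𝔸 E M q))[X])) =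
        sqvyfJd E (M * q) M (dvd_mul_right M q) ^ q - sqvyfJd E (M * q) (M * q) dvd_rfl := by
      rw [e₂, map_sub, map_pow, hwj, hwY]
    rw [key]
    exact (ssvma_mem₁_iff 𝔸 E M hA hϖ Ξ G h _).2.mpr
      (sqvy_frob_red 𝔸 E M hA hϖ (M * q) (dvd_mul_right M q) dvd_rfl)

/-- **`Fr⁻¹ (W₂) = W₁`** at level `M q` -/
theorem sqvy_fricke_swap₁ (hA : 𝔸.LiesOverPrime q) (hqM : ¬ q ∣ M) {ϖ : ↥(s18dVal 𝔸 E)}
    (hϖ : Irreducible ϖ)
    (Ξ G : haveI : NeZero q := ⟨(Fact.out : q.Prime).ne_zero⟩; (↥(ssvmmR 𝔸 E M q))[X])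
    (h : haveI : NeZero q := ⟨(Fact.out : q.Prime).ne_zero⟩
      SsvAmb (ssvmmR 𝔸 E M q) (ssvmgRUnif (ssvmm_le E M q) ϖ) (ssvmmY E M q) Ξ
        (X - C (ssvmmJ 𝔸 E M q ^ q)) (X ^ q - C (ssvmmJ 𝔸 E M q)) G) :
    haveI : NeZero q := ⟨(Fact.out : q.Prime).ne_zero⟩
    h.V₂.comap (sqvyfW E (M * q) :
        modularFunctionFieldFullC E (M * q) →+* modularFunctionFieldFullC E (M * q)) = h.V₁ := by
  have hq : q.Prime := Fact.out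
  haveI : NeZero q := ⟨hq.ne_zero⟩
  ext x
  rw [← sqvy_fricke_swap₂ 𝔸 E M hA hqM hϖ Ξ G h, ValuationSubring.mem_comap,
    ValuationSubring.mem_comap, RingEquiv.coe_toRingHom, sqvyfW_W]

/-- `φ` fixes the constants of `A₀` -/
theorem sqvy_phi_const (N ℓ : ℕ) [NeZero N] [NeZero ℓ] (a : ↥(s18dVal 𝔸 E)) :
    ssvmfPhi E N ℓ (algebraMap ↥(s18dVal 𝔸 E) (modularFunctionFieldFullC E N) a) =
      algebraMap ↥(s18dVal 𝔸 E) (modularFunctionFieldFullC E (N * ℓ)) a := by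
  apply Subtype.ext
  rw [ssvmfPhi_coe, s18v_coe_algebraMap, s18v_coe_algebraMap,
    algebraMap_laurentSeries_eq_single, qExpand_single, mul_zero]

/-- `α` fixes the constants of `A₀` -/
theorem sqvy_incl_const (N ℓ : ℕ) [NeZero N] [NeZero ℓ] (a : ↥(s18dVal 𝔸 E)) :
    ssvmdIncl E N ℓ (algebraMap ↥(s18dVal 𝔸 E) (modularFunctionFieldFullC E N) a) =
      algebraMap ↥(s18dVal 𝔸 E) (modularFunctionFieldFullC E (N * ℓ)) a := by
  apply Subtype.ext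
  rw [ssvmdIncl_coe, s18v_coe_algebraMap, s18v_coe_algebraMap]

/-- `A₀[j_q]_(ϖ) ⊆ W₁` at level `M q` -/
theorem sqvy_locY_le₁ (hA : 𝔸.LiesOverPrime q) {ϖ : ↥(s18dVal 𝔸 E)}
    (hϖ : Irreducible ϖ)
    (Ξ G : haveI : NeZero q := ⟨(Fact.out : q.Prime).ne_zero⟩; (↥(ssvmmR 𝔸 E M q))[X])
    (h : haveI : NeZero q := ⟨(Fact.out : q.Prime).ne_zero⟩
      SsvAmb (ssvmmR 𝔸 E M q) (ssvmgRUnif (ssvmm_le E M q) ϖ) (ssvmmY E M q) Ξ
        (X - C (ssvmmJ 𝔸 E M q ^ q)) (X ^ q - C (ssvmmJ 𝔸 E M q)) G) :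
    haveI : NeZero q := ⟨(Fact.out : q.Prime).ne_zero⟩
    s18tLoc ↥(s18dVal 𝔸 E) (ssvmmY E M q) (C ϖ) (s18t_prime_C hϖ) ≤ h.V₁.toSubring := by
  have hq : q.Prime := Fact.out
  haveI : NeZero q := ⟨hq.ne_zero⟩
  intro x hx
  exact (ssvma_mem₁_iff 𝔸 E M hA hϖ Ξ G h _).1.mpr
    (s18v_loc_le hϖ _ _ _ (sqvy_jd_pole 𝔸 E (M * q) q (dvd_mul_left q M)) _ hx)

/-- `A₀[j_q]_(ϖ) ⊆ W₂` at level `M q` -/
theorem sqvy_locY_le₂ (hA : 𝔸.LiesOverPrime q) (hqM : ¬ q ∣ M) {ϖ : ↥(s18dVal 𝔸 E)}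
    (hϖ : Irreducible ϖ)
    (Ξ G : haveI : NeZero q := ⟨(Fact.out : q.Prime).ne_zero⟩; (↥(ssvmmR 𝔸 E M q))[X])
    (h : haveI : NeZero q := ⟨(Fact.out : q.Prime).ne_zero⟩
      SsvAmb (ssvmmR 𝔸 E M q) (ssvmgRUnif (ssvmm_le E M q) ϖ) (ssvmmY E M q) Ξ
        (X - C (ssvmmJ 𝔸 E M q ^ q)) (X ^ q - C (ssvmmJ 𝔸 E M q)) G) :
    haveI : NeZero q := ⟨(Fact.out : q.Prime).ne_zero⟩
    s18tLoc ↥(s18dVal 𝔸 E) (ssvmmY E M q) (C ϖ) (s18t_prime_C hϖ) ≤ h.V₂.toSubring := by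
  have hq : q.Prime := Fact.out
  haveI : NeZero q := ⟨hq.ne_zero⟩
  intro x hx
  have hwY : sqvyfW E (M * q) (ssvmmY E M q) = sqvyfJd E (M * q) M (dvd_mul_right M q) :=
    sqvyfW_jd E (M * q) q M (mul_comm M q)
  have h1 := sqvy_loc_map
    (sqvyfW E (M * q) : modularFunctionFieldFullC E (M * q) →+* modularFunctionFieldFullC E (M * q))
    (sqvy_fricke_const 𝔸 E (M * q)) (ssvmmY E M q) (C ϖ) (s18t_prime_C hϖ) hx
  rw [RingEquiv.coe_toRingHom, hwY] at h1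
  have h2 : sqvyfW E (M * q) x ∈ h.V₁ := (ssvma_mem₁_iff 𝔸 E M hA hϖ Ξ G h _).1.mpr
    (s18v_loc_le hϖ _ _ _ (sqvy_jd_pole 𝔸 E (M * q) M (dvd_mul_right M q)) _ h1)
  exact (sqns_mem_iff (sqvy_fricke_swap₂ 𝔸 E M hA hqM hϖ Ξ G h) x).mp h2

end Swap

/-! ### level `M q q` : the positions along `φ` and the (VAL²) export -/

section Top

variable {q : ℕ} [Fact q.Prime] (𝔸 : ValuationSubring Qb) (E : IntermediateField ℚ Qb)
  [IsDiscreteValuationRing ↥(s18dVal 𝔸 E)] [CharZero ↥(s18dVal 𝔸 E)]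
variable (M : ℕ) [NeZero M]

set_option maxHeartbeats 2000000 in
/-- a valuation ring `V` of `F_E(M q q)` lying (along `α`) over `W₁` or `W₂` lies along `φ` over
`W₁` or `W₂` -/
theorem sqvy_pos_phi (hA : 𝔸.LiesOverPrime q) (hqM : ¬ q ∣ M) {ϖ : ↥(s18dVal 𝔸 E)}
    (hϖ : Irreducible ϖ)
    (Ξ G : haveI : NeZero q := ⟨(Fact.out : q.Prime).ne_zero⟩; (↥(ssvmmR 𝔸 E M q))[X])
    (h : haveI : NeZero q := ⟨(Fact.out : q.Prime).ne_zero⟩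
      SsvAmb (ssvmmR 𝔸 E M q) (ssvmgRUnif (ssvmm_le E M q) ϖ) (ssvmmY E M q) Ξ
        (X - C (ssvmmJ 𝔸 E M q ^ q)) (X ^ q - C (ssvmmJ 𝔸 E M q)) G)
    (V : haveI : NeZero q := ⟨(Fact.out : q.Prime).ne_zero⟩
      ValuationSubring (modularFunctionFieldFullC E (M * q * q)))
    (hV : haveI : NeZero q := ⟨(Fact.out : q.Prime).ne_zero⟩
      V.comap (ssvmdIncl E (M * q) q).toRingHom = h.V₁ ∨
        V.comap (ssvmdIncl E (M * q) q).toRingHom = h.V₂) :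
    haveI : NeZero q := ⟨(Fact.out : q.Prime).ne_zero⟩
    V.comap (ssvmfPhi E (M * q) q) = h.V₁ ∨ V.comap (ssvmfPhi E (M * q) q) = h.V₂ := by
  have hq : q.Prime := Fact.out
  haveI : NeZero q := ⟨hq.ne_zero⟩
  have two := ssv_two hϖ (ssvmdJ E (M * q)) (ssvmm_loc_le 𝔸 E M hϖ)
    (ssvmm_le_intLoc 𝔸 E M hA hqM hϖ) h (ssvmgRUnif_coe (ssvmm_le E M q) ϖ)
  -- `A₀[j_q]_(ϖ) ⊆ V ∩ α F₁`, hence `A₀[α j_q]_(ϖ) ⊆ V`
  have hne : ∀ b : (↥(s18dVal 𝔸 E))[X], ¬ C ϖ ∣ b → aeval (ssvmmY E M q) b ≠ 0 :=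
    fun b hb => s18vg_aeval_ne_zero _ hϖ _ _ (sqvy_jd_pole 𝔸 E (M * q) q (dvd_mul_left q M)) b hb
  have hle : s18tLoc ↥(s18dVal 𝔸 E) ((ssvmdIncl E (M * q) q).toRingHom (ssvmmY E M q)) (C ϖ)
      (s18t_prime_C hϖ) ≤ V.toSubring := by
    rcases hV with hV | hV
    · exact sqvy_loc_le_comap (ssvmdIncl E (M * q) q).toRingHom (sqvy_incl_const 𝔸 E (M * q) q)
        (ssvmmY E M q) (C ϖ) (s18t_prime_C hϖ) hne hV (sqvy_locY_le₁ 𝔸 E M hA hϖ Ξ G h)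
    · exact sqvy_loc_le_comap (ssvmdIncl E (M * q) q).toRingHom (sqvy_incl_const 𝔸 E (M * q) q)
        (ssvmmY E M q) (C ϖ) (s18t_prime_C hϖ) hne hV (sqvy_locY_le₂ 𝔸 E M hA hqM hϖ Ξ G h)
  have hφj : ssvmfPhi E (M * q) q (ssvmdJ E (M * q)) =
      (ssvmdIncl E (M * q) q).toRingHom (ssvmmY E M q) := by
    apply Subtype.ext
    show _ = ((ssvmdIncl E (M * q) q (ssvmmY E M q) : modularFunctionFieldFullC E (M * q * q)) :
      LaurentSeries E)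
    rw [ssvmfPhi_coe, ssvmdIncl_coe]
    rfl
  refine two.cases (V.comap (ssvmfPhi E (M * q) q)) ?_ ?_
  · intro x hx
    have h1 := sqvy_loc_map (ssvmfPhi E (M * q) q) (sqvy_phi_const 𝔸 E (M * q) q)
      (ssvmdJ E (M * q)) (C ϖ) (s18t_prime_C hϖ) hx
    rw [hφj] at h1
    exact hle h1
  · rw [← sqni_nonunits_iff (f := ssvmfPhi E (M * q) q) (V := V) rfl, sqvy_phi_const,
      ← sqvy_incl_const 𝔸 E (M * q) q]
    rcases hV with hV | hV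
    · exact (sqni_nonunits_iff (f := (ssvmdIncl E (M * q) q).toRingHom) hV _).mpr
        ((ValuationSubring.mem_nonunits_iff _).mpr two.unif₁.1)
    · exact (sqni_nonunits_iff (f := (ssvmdIncl E (M * q) q).toRingHom) hV _).mpr
        ((ValuationSubring.mem_nonunits_iff _).mpr two.unif₂.1)

set_option maxHeartbeats 2000000 in
/-- **THE (VAL²) EXPORT AT LEVEL `M q q`** from its `α`-half and three congruences, by the Fricke
symmetry : `h` ANY witness of main's `ssvmm_amb` at level `(M, q)`, `W₁ = h.V₁`, `W₂ = h.V₂`. -/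
theorem sqvy_val_fricke (hA : 𝔸.LiesOverPrime q) (hqM : ¬ q ∣ M) {ϖ : ↥(s18dVal 𝔸 E)}
    (hϖ : Irreducible ϖ)
    (Ξ G : haveI : NeZero q := ⟨(Fact.out : q.Prime).ne_zero⟩; (↥(ssvmmR 𝔸 E M q))[X])
    (h : haveI : NeZero q := ⟨(Fact.out : q.Prime).ne_zero⟩
      SsvAmb (ssvmmR 𝔸 E M q) (ssvmgRUnif (ssvmm_le E M q) ϖ) (ssvmmY E M q) Ξ
        (X - C (ssvmmJ 𝔸 E M q ^ q)) (X ^ q - C (ssvmmJ 𝔸 E M q)) G)
    (V₁ V₂ V₃ : haveI : NeZero q := ⟨(Fact.out : q.Prime).ne_zero⟩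
      ValuationSubring (modularFunctionFieldFullC E (M * q * q)))
    (π₂ : haveI : NeZero q := ⟨(Fact.out : q.Prime).ne_zero⟩
      modularFunctionFieldFullC E (M * q * q))
    (H : haveI : NeZero q := ⟨(Fact.out : q.Prime).ne_zero⟩
      SqnsHalf (algebraMap E (modularFunctionFieldFullC E (M * q)))
        (ssvmdIncl E (M * q) q).toRingHom (s18dVal 𝔸 E) h.V₁ h.V₂ V₁ V₂ V₃
        (algebraMap ↥(s18dVal 𝔸 E) E ϖ) π₂ q)
    (c₁ : haveI : NeZero q := ⟨(Fact.out : q.Prime).ne_zero⟩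
      ssvmfPhi E (M * q) q (ssvmmY E M q - ssvmdJ E (M * q) ^ q) ∈ V₁.nonunits)
    (c₂ : haveI : NeZero q := ⟨(Fact.out : q.Prime).ne_zero⟩
      ssvmfPhi E (M * q) q (ssvmmY E M q ^ q - ssvmdJ E (M * q)) ∈ V₂.nonunits)
    (c₃ : haveI : NeZero q := ⟨(Fact.out : q.Prime).ne_zero⟩
      ssvmfPhi E (M * q) q (ssvmmY E M q ^ q - ssvmdJ E (M * q)) ∈ V₃.nonunits) :
    haveI : NeZero q := ⟨(Fact.out : q.Prime).ne_zero⟩
    SqniVal (algebraMap E (modularFunctionFieldFullC E (M * q)))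
      (ssvmdIncl E (M * q) q).toRingHom (ssvmfPhi E (M * q) q) (s18dVal 𝔸 E) h.V₁ h.V₂ V₁ V₂ V₃
      (algebraMap ↥(s18dVal 𝔸 E) E ϖ) π₂ q := by
  have hq : q.Prime := Fact.out
  haveI : NeZero q := ⟨hq.ne_zero⟩
  have two := ssv_two hϖ (ssvmdJ E (M * q)) (ssvmm_loc_le 𝔸 E M hϖ)
    (ssvmm_le_intLoc 𝔸 E M hA hqM hϖ) h (ssvmgRUnif_coe (ssvmm_le E M q) ϖ)
  have e₁ : aeval (ssvmmY E M q) (X - C (ssvmmJ 𝔸 E M q ^ q) : (↥(ssvmmR 𝔸 E M q))[X]) =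
      ssvmmY E M q - ssvmdJ E (M * q) ^ q := by
    rw [ssvma_aeval_sub_C_pow, ssvmmJ_coe]
  have e₂ : aeval (ssvmmY E M q) (X ^ q - C (ssvmmJ 𝔸 E M q) : (↥(ssvmmR 𝔸 E M q))[X]) =
      ssvmmY E M q ^ q - ssvmdJ E (M * q) := by
    rw [ssvma_aeval_pow_sub_C, ssvmmJ_coe]
  rw [e₁, e₂] at two
  have hu₁ : ssvmmY E M q - ssvmdJ E (M * q) ^ q ∉ h.V₂.nonunits := fun hmem =>
    ne_of_lt ((ValuationSubring.mem_nonunits_iff _).mp hmem) two.unit₁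
  have hu₂ : ssvmmY E M q ^ q - ssvmdJ E (M * q) ∉ h.V₁.nonunits := fun hmem =>
    ne_of_lt ((ValuationSubring.mem_nonunits_iff _).mp hmem) two.unit₂
  refine sqvy_val_of_cong (w₁ := sqvyfW E (M * q)) (w := sqvyfW E (M * q * q)) H
    (fun x => sqvyfW_incl E (M * q) q x) (fun x => sqvyfW_phi E (M * q) q x)
    (fun c => sqvyfW_algebraMap E (M * q) c) (fun c => ?_)
    (sqvy_fricke_swap₁ 𝔸 E M hA hqM hϖ Ξ G h) (sqvy_fricke_swap₂ 𝔸 E M hA hqM hϖ Ξ G h)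
    (sqvy_pos_phi 𝔸 E M hA hqM hϖ Ξ G h V₁ (Or.inl H.posα₁))
    (sqvy_pos_phi 𝔸 E M hA hqM hϖ Ξ G h V₂ (Or.inl H.posα₂))
    (sqvy_pos_phi 𝔸 E M hA hqM hϖ Ξ G h V₃ (Or.inr H.posα₃)) _ _ hu₁ hu₂ c₁ c₂ c₃
  have e : (ssvmdIncl E (M * q) q).toRingHom (algebraMap E (modularFunctionFieldFullC E (M * q)) c) =
      algebraMap E (modularFunctionFieldFullC E (M * q * q)) c :=
    (ssvmdIncl E (M * q) q).commutes c
  rw [e, sqvyfW_algebraMap]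

set_option maxHeartbeats 2000000 in
/-- variant of `sqvy_val_fricke` : on `V₂` the congruence `j_qq ≡ j` (i.e. `φ j_q - α j ∈ 𝔪_{V₂}`)
suffices. -/
theorem sqvy_val_fricke' (hA : 𝔸.LiesOverPrime q) (hqM : ¬ q ∣ M) {ϖ : ↥(s18dVal 𝔸 E)}
    (hϖ : Irreducible ϖ)
    (Ξ G : haveI : NeZero q := ⟨(Fact.out : q.Prime).ne_zero⟩; (↥(ssvmmR 𝔸 E M q))[X])
    (h : haveI : NeZero q := ⟨(Fact.out : q.Prime).ne_zero⟩
      SsvAmb (ssvmmR 𝔸 E M q) (ssvmgRUnif (ssvmm_le E M q) ϖ) (ssvmmY E M q) Ξ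
        (X - C (ssvmmJ 𝔸 E M q ^ q)) (X ^ q - C (ssvmmJ 𝔸 E M q)) G)
    (V₁ V₂ V₃ : haveI : NeZero q := ⟨(Fact.out : q.Prime).ne_zero⟩
      ValuationSubring (modularFunctionFieldFullC E (M * q * q)))
    (π₂ : haveI : NeZero q := ⟨(Fact.out : q.Prime).ne_zero⟩
      modularFunctionFieldFullC E (M * q * q))
    (H : haveI : NeZero q := ⟨(Fact.out : q.Prime).ne_zero⟩
      SqnsHalf (algebraMap E (modularFunctionFieldFullC E (M * q)))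
        (ssvmdIncl E (M * q) q).toRingHom (s18dVal 𝔸 E) h.V₁ h.V₂ V₁ V₂ V₃
        (algebraMap ↥(s18dVal 𝔸 E) E ϖ) π₂ q)
    (c₁ : haveI : NeZero q := ⟨(Fact.out : q.Prime).ne_zero⟩
      ssvmfPhi E (M * q) q (ssvmmY E M q - ssvmdJ E (M * q) ^ q) ∈ V₁.nonunits)
    (c₂ : haveI : NeZero q := ⟨(Fact.out : q.Prime).ne_zero⟩
      ssvmfPhi E (M * q) q (ssvmmY E M q) -
        (ssvmdIncl E (M * q) q).toRingHom (ssvmdJ E (M * q)) ∈ V₂.nonunits)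
    (c₃ : haveI : NeZero q := ⟨(Fact.out : q.Prime).ne_zero⟩
      ssvmfPhi E (M * q) q (ssvmmY E M q ^ q - ssvmdJ E (M * q)) ∈ V₃.nonunits) :
    haveI : NeZero q := ⟨(Fact.out : q.Prime).ne_zero⟩
    SqniVal (algebraMap E (modularFunctionFieldFullC E (M * q)))
      (ssvmdIncl E (M * q) q).toRingHom (ssvmfPhi E (M * q) q) (s18dVal 𝔸 E) h.V₁ h.V₂ V₁ V₂ V₃
      (algebraMap ↥(s18dVal 𝔸 E) E ϖ) π₂ q := by
  have hq : q.Prime := Fact.out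
  haveI : NeZero q := ⟨hq.ne_zero⟩
  refine sqvy_val_fricke 𝔸 E M hA hqM hϖ Ξ G h V₁ V₂ V₃ π₂ H c₁ ?_ c₃
  have two := ssv_two hϖ (ssvmdJ E (M * q)) (ssvmm_loc_le 𝔸 E M hϖ)
    (ssvmm_le_intLoc 𝔸 E M hA hqM hϖ) h (ssvmgRUnif_coe (ssvmm_le E M q) ϖ)
  have e₁ : aeval (ssvmmY E M q) (X - C (ssvmmJ 𝔸 E M q ^ q) : (↥(ssvmmR 𝔸 E M q))[X]) =
      ssvmmY E M q - ssvmdJ E (M * q) ^ q := by
    rw [ssvma_aeval_sub_C_pow, ssvmmJ_coe]
  rw [e₁] at two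
  have hφj : ssvmfPhi E (M * q) q (ssvmdJ E (M * q)) =
      (ssvmdIncl E (M * q) q).toRingHom (ssvmmY E M q) := by
    apply Subtype.ext
    show _ = ((ssvmdIncl E (M * q) q (ssvmmY E M q) : modularFunctionFieldFullC E (M * q * q)) :
      LaurentSeries E)
    rw [ssvmfPhi_coe, ssvmdIncl_coe]
    rfl
  -- `α j ∈ V₂`, `φ j_q ∈ V₂`
  have hj₁ : ssvmdJ E (M * q) ∈ h.V₁ := (ssvma_mem₁_iff 𝔸 E M hA hϖ Ξ G h _).1.mpr
    (ssvma_j_mem 𝔸 E (M * q)).1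
  have hb : (ssvmdIncl E (M * q) q).toRingHom (ssvmdJ E (M * q)) ∈ V₂ :=
    (sqni_mem_iff H.posα₂ _).mpr hj₁
  have ha : ssvmfPhi E (M * q) q (ssvmmY E M q) ∈ V₂ := by
    have h1 : ssvmfPhi E (M * q) q (ssvmmY E M q) -
        (ssvmdIncl E (M * q) q).toRingHom (ssvmdJ E (M * q)) ∈ V₂ := V₂.nonunits_subset c₂
    have h2 := add_mem h1 hb
    rwa [sub_add_cancel] at h2
  have h3 := sqvy_pow_sub_pow_mem V₂ ha hb c₂ q
  -- `α (j_q - j ^ q) ∈ 𝔪_{V₂}`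
  have h4 : (ssvmdIncl E (M * q) q).toRingHom (ssvmmY E M q - ssvmdJ E (M * q) ^ q) ∈
      V₂.nonunits := (sqni_nonunits_iff H.posα₂ _).mpr two.mem₁
  have e : ssvmfPhi E (M * q) q (ssvmmY E M q ^ q - ssvmdJ E (M * q)) =
      (ssvmfPhi E (M * q) q (ssvmmY E M q) ^ q -
        (ssvmdIncl E (M * q) q).toRingHom (ssvmdJ E (M * q)) ^ q) -
      (ssvmdIncl E (M * q) q).toRingHom (ssvmmY E M q - ssvmdJ E (M * q) ^ q) := by
    rw [map_sub, map_pow, hφj, map_sub, map_pow]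
    ring
  rw [e]
  rw [ValuationSubring.mem_nonunits_iff] at h3 h4 ⊢
  exact Valuation.map_sub_lt _ h3 h4

end Top

end Fermat.Agent.SQ
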