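import Mathlib
import Fermat.Agent.SQ.Val.Sym
import Fermat.Agent.SQ.Val.ModTwoPhi

/-!
# Program Q (S36), leaf VAL² : THE (VAL²) EXPORT `SqniVal` AT LEVEL `M q q`

Plug of helper17's `α`-half (`SqvmOut`, `sqvm_half_of_out`, `sqvm_phi_c₁/c₂/c₃`,
`SQ/Val/ModTwo*.lean`) into the Fricke symmetry (`sqvy_val_fricke`, `SQ/Val/Sym.lean`) :

* `sqvy_val_of_out` : `SqvmOut … V₁ V₂ V₃ → SqniVal … h.V₁ h.V₂ V₁ V₂ V₃ ϖ (j_qq - j) q`;
* `sqvy_val_main` : `∃ V₁ V₂ V₃, SqvmOut … ∧ SqniVal …` for ANY witness `h` of `ssvmm_amb`;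
* `sqvy_val_of_val` : `SqvmVal … → SqniVal …` (same rings as `SqvThree`).

Prefix `sqvy`.
-/

set_option autoImplicit false
set_option linter.unusedSectionVars false
set_option linter.unusedVariables false
set_option linter.style.haveILetI false
set_option linter.overlappingInstances false
set_option synthInstance.maxHeartbeats 400000

noncomputable section

namespace Fermat.Agent.SQ

open Polynomial ModularCurve AlgebraicCurve IsLocalRing IntermediateField Fermat.Agent.S24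
  Fermat.Agent.G Fermat.Agent.S18 Fermat.Agent.SS

local notation "Qb" => AlgebraicClosure ℚ

attribute [local instance] sqvm_neZero

variable {q : ℕ} [Fact q.Prime] (𝔸 : ValuationSubring Qb) (E : IntermediateField ℚ Qb)
  [IsDiscreteValuationRing ↥(s18dVal 𝔸 E)] [CharZero ↥(s18dVal 𝔸 E)]
variable (M : ℕ) [NeZero M] {ϖ : ↥(s18dVal 𝔸 E)}
variable {Ξ G : (↥(ssvmmR 𝔸 E M q))[X]}
variable (h : SsvAmb (ssvmmR 𝔸 E M q) (ssvmgRUnif (ssvmm_le E M q) ϖ) (ssvmmY E M q) Ξ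
  (X - C (ssvmmJ 𝔸 E M q ^ q)) (X ^ q - C (ssvmmJ 𝔸 E M q)) G)

/-- **the (VAL²) export from `SqvmOut`** -/
theorem sqvy_val_of_out (hAq : 𝔸.LiesOverPrime q) (hqM : ¬ q ∣ M) (hϖ : Irreducible ϖ)
    {V₁ V₂ V₃ : ValuationSubring ↥(modularFunctionFieldFullC E (M * q * q))}
    (hout : SqvmOut (ssvmdIncl E (M * q) q).toRingHom h.V₁ h.V₂
      (algebraMap ↥(s18dVal 𝔸 E) ↥(modularFunctionFieldFullC E (M * q * q)) ϖ)
      (sqvmY E M q) (sqvmJq E M q ^ q) (ssvmdJ E (M * q * q)) (sqvmJq E M q) q V₁ V₂ V₃) :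
    SqniVal (algebraMap ↥E ↥(modularFunctionFieldFullC E (M * q)))
      (ssvmdIncl E (M * q) q).toRingHom (ssvmfPhi E (M * q) q) (s18dVal 𝔸 E) h.V₁ h.V₂ V₁ V₂ V₃
      (algebraMap ↥(s18dVal 𝔸 E) ↥E ϖ) (sqvmY E M q - ssvmdJ E (M * q * q)) q :=
  sqvy_val_fricke 𝔸 E M hAq hqM hϖ Ξ G h V₁ V₂ V₃ _
    (sqvm_half_of_out 𝔸 E M h hAq hqM hϖ hout) (sqvm_phi_c₁ 𝔸 E M h hout)
    (sqvm_phi_c₂ 𝔸 E M h hout) (sqvm_phi_c₃ 𝔸 E M h hout)

/-- **(VAL²) at level `M q q`** : the three valuation rings with `SqvmOut` and `SqniVal`, for ANY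
witness `h` of the level-one package -/
theorem sqvy_val_main (hAq : 𝔸.LiesOverPrime q) (hqM : ¬ q ∣ M) (hϖ : Irreducible ϖ)
    (hunr : Associated ((q : ℕ) : ↥(s18dVal 𝔸 E)) ϖ) :
    ∃ V₁ V₂ V₃ : ValuationSubring ↥(modularFunctionFieldFullC E (M * q * q)),
      SqvmOut (ssvmdIncl E (M * q) q).toRingHom h.V₁ h.V₂
        (algebraMap ↥(s18dVal 𝔸 E) ↥(modularFunctionFieldFullC E (M * q * q)) ϖ)
        (sqvmY E M q) (sqvmJq E M q ^ q) (ssvmdJ E (M * q * q)) (sqvmJq E M q) q V₁ V₂ V₃ ∧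
      SqniVal (algebraMap ↥E ↥(modularFunctionFieldFullC E (M * q)))
        (ssvmdIncl E (M * q) q).toRingHom (ssvmfPhi E (M * q) q) (s18dVal 𝔸 E) h.V₁ h.V₂
        V₁ V₂ V₃ (algebraMap ↥(s18dVal 𝔸 E) ↥E ϖ) (sqvmY E M q - ssvmdJ E (M * q * q)) q := by
  obtain ⟨V₁, V₂, V₃, hout⟩ := sqvm_main 𝔸 E M h hAq hqM hϖ hunr
  exact ⟨V₁, V₂, V₃, hout, sqvy_val_of_out 𝔸 E M h hAq hqM hϖ hout⟩

/-- the (VAL²) export about the rings of a `SqvmVal` package (the same rings as its `SqvThree`) -/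
theorem sqvy_val_of_val (hAq : 𝔸.LiesOverPrime q) (hqM : ¬ q ∣ M) (hϖ : Irreducible ϖ)
    {t₁ : ↥(modularFunctionFieldFullC E (M * q))}
    {V₁ V₂ V₃ : ValuationSubring ↥(modularFunctionFieldFullC E (M * q * q))}
    (hv : SqvmVal 𝔸 E M h hϖ t₁ V₁ V₂ V₃) :
    SqniVal (algebraMap ↥E ↥(modularFunctionFieldFullC E (M * q)))
      (ssvmdIncl E (M * q) q).toRingHom (ssvmfPhi E (M * q) q) (s18dVal 𝔸 E) h.V₁ h.V₂ V₁ V₂ V₃
      (algebraMap ↥(s18dVal 𝔸 E) ↥E ϖ) (sqvmY E M q - ssvmdJ E (M * q * q)) q :=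
  sqvy_val_of_out 𝔸 E M h hAq hqM hϖ hv.out

end Fermat.Agent.SQ
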