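import Mathlib
import Fermat.Agent.SS.Val.ModALRes
import Fermat.Agent.SS.Germ.FrobLift

/-!
# Program Q (S36), leaf (A1) of (T2-x) : `β₂ ≡ β₀` on the whole Gauss ring modulo `𝔪_{V₂}`

Three levels `F₀ = F_E(M) ⊂ F₁ = F_E(M q) ⊂ F = F_E(M q q)`, `α₁, φ₁ : F₀ → F₁`, `α, φ : F₁ → F`,
`β₀ = α α₁`, `β₁ = α φ₁ = φ α₁`, `β₂ = φ φ₁`.  `V₂` a valuation ring of `F` with
`V₂.comap α = W₁`, `V₂.comap φ = W₂` (`W₁, W₂` the two valuation rings of `F₁`).  For `a` in the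
Gauss ring `O₀` of `F₀` take `f ∈ O₀` with `red f = Fr (red a)`; the Frobenius congruences
`(α₁ a)^q ≡ φ₁ f mod 𝔪_{W₁}` and `(φ₁ a)^q ≡ α₁ f mod 𝔪_{W₂}` give
`(β₀ a)^q ≡ β₁ f ≡ (β₂ a)^q mod 𝔪_{V₂}`, hence `β₂ a ≡ β₀ a`.

Prefix `sqvca`.
-/

set_option autoImplicit false
set_option linter.unusedSectionVars false
set_option linter.unusedVariables false
set_option linter.style.haveILetI false
set_option synthInstance.maxHeartbeats 400000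

noncomputable section

namespace Fermat.Agent.SQ

open Polynomial ModularCurve AlgebraicCurve IsLocalRing IntermediateField Fermat.Agent.S24
  Fermat.Agent.G Fermat.Agent.S18 Fermat.Agent.SS

local notation "Qb" => AlgebraicClosure ℚ

/-! ### The abstract core (Mathlib only) -/

section Core

variable {F : Type*} [Field F]

/-- in a valuation ring of residue characteristic `q` : `x^q ≡ y^q ⟹ x ≡ y` -/
theorem sqvca_sub_mem_of_pow (V : ValuationSubring F) (q : ℕ) [Fact q.Prime]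
    (hq : (q : F) ∈ V.nonunits) {x y : F} (hx : x ∈ V) (hy : y ∈ V)
    (h : x ^ q - y ^ q ∈ V.nonunits) : x - y ∈ V.nonunits := by
  have hqp : q.Prime := Fact.out
  haveI : CharP (ResidueField ↥V) q := by
    rw [CharP.charP_iff_prime_eq_zero hqp]
    obtain ⟨hm, hmem⟩ := ValuationSubring.mem_nonunits_iff_exists_mem_maximalIdeal.mp hq
    have h1 : residue ↥V ⟨(q : F), hm⟩ = 0 := (residue_eq_zero_iff _).mpr hmem
    have h2 : (⟨(q : F), hm⟩ : ↥V) = ((q : ℕ) : ↥V) := Subtype.ext (by simp)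
    rw [h2, map_natCast] at h1
    exact h1
  obtain ⟨hm, hmem⟩ := ValuationSubring.mem_nonunits_iff_exists_mem_maximalIdeal.mp h
  have h3 : (⟨x ^ q - y ^ q, hm⟩ : ↥V) = (⟨x, hx⟩ : ↥V) ^ q - (⟨y, hy⟩ : ↥V) ^ q := rfl
  have h4 : residue ↥V ((⟨x, hx⟩ : ↥V) - ⟨y, hy⟩) ^ q = 0 := by
    rw [map_sub, sub_pow_char, ← map_pow, ← map_pow, ← map_sub, ← h3]
    exact (residue_eq_zero_iff _).mpr hmem
  have h5 : residue ↥V ((⟨x, hx⟩ : ↥V) - ⟨y, hy⟩) = 0 := pow_eq_zero_iff hqp.ne_zero |>.mp h4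
  rw [residue_eq_zero_iff] at h5
  exact ValuationSubring.mem_nonunits_iff_exists_mem_maximalIdeal.mpr ⟨V.sub_mem hx hy, h5⟩

variable {F₀ F₁ : Type*} [Field F₀] [Field F₁]

/-- non-units of a pulled-back valuation ring -/
theorem sqvca_nonunits_comap (V : ValuationSubring F) (σ : F₁ →+* F) (x : F₁) :
    x ∈ (V.comap σ).nonunits ↔ σ x ∈ V.nonunits := by
  rw [ValuationSubring.mem_nonunits_iff_or, ValuationSubring.mem_nonunits_iff_or,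
    ValuationSubring.mem_comap, map_inv₀, map_eq_zero]

/-- **(A1), abstract core** : from the two Frobenius congruences (same `a`, same `f`) on `W₁` and
`W₂`, `β₂ a ≡ β₀ a mod 𝔪_{V₂}`. -/
theorem sqvca_core (α₁ φ₁ : F₀ →+* F₁) (α φ : F₁ →+* F) (hcomm : ∀ x, φ (α₁ x) = α (φ₁ x))
    (W₁ W₂ : ValuationSubring F₁) (V₂ : ValuationSubring F) (hposα : V₂.comap α = W₁)
    (hposφ : V₂.comap φ = W₂) (q : ℕ) [Fact q.Prime] (hq : (q : F) ∈ V₂.nonunits) (a f : F₀)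
    (ha₁ : α₁ a ∈ W₁) (ha₂ : φ₁ a ∈ W₂) (h₁ : α₁ a ^ q - φ₁ f ∈ W₁.nonunits)
    (h₂ : φ₁ a ^ q - α₁ f ∈ W₂.nonunits) : φ (φ₁ a) - α (α₁ a) ∈ V₂.nonunits := by
  have hx : α (α₁ a) ∈ V₂ := by
    rw [← hposα, ValuationSubring.mem_comap] at ha₁
    exact ha₁
  have hy : φ (φ₁ a) ∈ V₂ := by
    rw [← hposφ, ValuationSubring.mem_comap] at ha₂
    exact ha₂
  have e₁ : α (α₁ a) ^ q - α (φ₁ f) ∈ V₂.nonunits := by
    rw [← hposα, sqvca_nonunits_comap, map_sub, map_pow] at h₁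
    exact h₁
  have e₂ : φ (φ₁ a) ^ q - α (φ₁ f) ∈ V₂.nonunits := by
    rw [← hposφ, sqvca_nonunits_comap, map_sub, map_pow, hcomm] at h₂
    exact h₂
  refine sqvca_sub_mem_of_pow V₂ q hq hy hx ?_
  have e₃ : φ (φ₁ a) ^ q - α (α₁ a) ^ q =
      (φ (φ₁ a) ^ q - α (φ₁ f)) - (α (α₁ a) ^ q - α (φ₁ f)) := by ring
  rw [e₃, ValuationSubring.mem_nonunits_iff]
  exact V₂.valuation.map_sub_lt ((ValuationSubring.mem_nonunits_iff V₂).mp e₂)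
    ((ValuationSubring.mem_nonunits_iff V₂).mp e₁)

end Core

/-! ### The instance on the modular tower -/

section Modular

/-- a prime is nonzero (local instance, proof-irrelevant) -/
theorem sqvca_neZero (q : ℕ) [Fact q.Prime] : NeZero q := ⟨(Fact.out : q.Prime).ne_zero⟩

attribute [local instance] sqvca_neZero

variable {q : ℕ} [Fact q.Prime] (𝔸 : ValuationSubring Qb) (E : IntermediateField ℚ Qb)
  [IsDiscreteValuationRing ↥(s18dVal 𝔸 E)] [CharZero ↥(s18dVal 𝔸 E)]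
variable (M : ℕ) [NeZero M]

/-- `β₁ = φ α₁ = α φ₁` -/
theorem sqvca_comm (K : Type*) [Field K] (N ℓ : ℕ) [NeZero N] [NeZero ℓ]
    (x : modularFunctionFieldFullC K N) :
    ssvmfPhi K (N * ℓ) ℓ (ssvmdIncl K N ℓ x) = ssvmdIncl K (N * ℓ) ℓ (ssvmfPhi K N ℓ x) := by
  apply Subtype.ext
  rw [ssvmfPhi_coe, ssvmdIncl_coe, ssvmdIncl_coe, ssvmfPhi_coe]

set_option maxHeartbeats 1000000 in
/-- `q ∈ 𝔪_{V₁}` at level `M q` -/
theorem sqvca_q_mem₁ (hA : 𝔸.LiesOverPrime q) (hqM : ¬ q ∣ M) {ϖ : ↥(s18dVal 𝔸 E)}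
    (hϖ : Irreducible ϖ) (Ξ G : (↥(ssvmmR 𝔸 E M q))[X])
    (h : SsvAmb (ssvmmR 𝔸 E M q) (ssvmgRUnif (ssvmm_le E M q) ϖ) (ssvmmY E M q) Ξ
        (X - C (ssvmmJ 𝔸 E M q ^ q)) (X ^ q - C (ssvmmJ 𝔸 E M q)) G) :
    ((q : ℕ) : ↥(modularFunctionFieldFullC E (M * q))) ∈ h.V₁.nonunits := by
  have hmem : ((q : ℕ) : ↥(modularFunctionFieldFullC E M)) ∈
      s18vO ↥(s18dVal 𝔸 E) (modularFunctionFieldFullC E M) := natCast_mem _ q
  obtain ⟨-, -, hiff, -⟩ := ssvmar_gauss₁ 𝔸 E M hA hqM hϖ Ξ G h _ hmem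
  have e : ssvmdIncl E M q ((q : ℕ) : ↥(modularFunctionFieldFullC E M)) =
      ((q : ℕ) : ↥(modularFunctionFieldFullC E (M * q))) := map_natCast _ q
  rw [← e, hiff]
  have hq' := s18d_natCast_mem 𝔸 E hA (ℓ := q)
  rw [hϖ.maximalIdeal_eq, Ideal.mem_span_singleton] at hq'
  obtain ⟨c, hc⟩ := hq'
  refine ⟨algebraMap ↥(s18dVal 𝔸 E) ↥(modularFunctionFieldFullC E M) c,
    s18vg_algebraMap_mem _ c, ?_⟩
  rw [← map_mul, ← hc, map_natCast]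

set_option maxHeartbeats 1000000 in
/-- **(A1)** : `β₂ a ≡ β₀ a mod 𝔪_{V₂}` for every `a` in the Gauss ring of `F_E(M)`, for a valuation
ring `V₂` of `F_E(M q q)` lying over `W₁ = h.V₁` along `α` and over `W₂ = h.V₂` along `φ`. -/
theorem sqvca_cong₂ (hA : 𝔸.LiesOverPrime q) (hqM : ¬ q ∣ M) {ϖ : ↥(s18dVal 𝔸 E)}
    (hϖ : Irreducible ϖ) (Ξ G : (↥(ssvmmR 𝔸 E M q))[X])
    (h : SsvAmb (ssvmmR 𝔸 E M q) (ssvmgRUnif (ssvmm_le E M q) ϖ) (ssvmmY E M q) Ξ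
        (X - C (ssvmmJ 𝔸 E M q ^ q)) (X ^ q - C (ssvmmJ 𝔸 E M q)) G)
    (V₂ : ValuationSubring ↥(modularFunctionFieldFullC E (M * q * q)))
    (hposα : V₂.comap (ssvmdIncl E (M * q) q).toRingHom = h.V₁)
    (hposφ : V₂.comap (ssvmfPhi E (M * q) q) = h.V₂)
    (a : ↥(modularFunctionFieldFullC E M))
    (ha : a ∈ s18vO ↥(s18dVal 𝔸 E) (modularFunctionFieldFullC E M)) :
    ssvmfPhi E (M * q) q (ssvmfPhi E M q a) - ssvmdIncl E (M * q) q (ssvmdIncl E M q a) ∈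
      V₂.nonunits := by
  have hq : q.Prime := Fact.out
  haveI : CharP (ResidueField ↥(s18dVal 𝔸 E)) q := s18v_charP hϖ (s18d_natCast_mem 𝔸 E hA)
  obtain ⟨f, hf⟩ := ssgfl_mod_plus hϖ (s18d_natCast_mem 𝔸 E hA) M hqM
    (frobenius (ResidueField ↥(s18dVal 𝔸 E)) q) ⟨a, ha⟩
  have h₁ := ssvmar_frob₁ 𝔸 E M hA hqM hϖ Ξ G h (f : ↥(modularFunctionFieldFullC E M)) a f.2 ha
    hf.symm
  have h₂ := ssvmf_frob₂ 𝔸 E M hA hqM hϖ Ξ G h (f : ↥(modularFunctionFieldFullC E M)) a f.2 ha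
    hf.symm
  obtain ⟨ha₁, -, -, -⟩ := ssvmar_gauss₁ 𝔸 E M hA hqM hϖ Ξ G h a ha
  have ha₂ := ssvmf_phi_mem₂ 𝔸 E M hA hqM hϖ Ξ G h a ha
  have hqV : ((q : ℕ) : ↥(modularFunctionFieldFullC E (M * q * q))) ∈ V₂.nonunits := by
    have h3 := sqvca_q_mem₁ 𝔸 E M hA hqM hϖ Ξ G h
    rw [← hposα, sqvca_nonunits_comap, map_natCast] at h3
    exact h3
  exact sqvca_core (ssvmdIncl E M q).toRingHom (ssvmfPhi E M q) (ssvmdIncl E (M * q) q).toRingHom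
    (ssvmfPhi E (M * q) q) (fun x => sqvca_comm E M q x) h.V₁ h.V₂ V₂ hposα hposφ q hqV a
    (f : ↥(modularFunctionFieldFullC E M)) ha₁ ha₂ h₁ h₂

end Modular

end Fermat.Agent.SQ
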